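/-
S59-NC (Wiles–Lenstra numerical criterion), sub-captain helper87.  DEFINITIONS (Mathlib only).

`S59ncData R n` : a "monomial-dominant" complete intersection in `R[X₁,…,X_n]`:
exponents `e i ≥ 1` and a matrix `G` of polynomials with
  `G i i = X_i ^ (e i - 1) + (monomials of total degree ≤ e i - 2)`,
  `G i j =                  (monomials of total degree ≤ e i - 2)`   (`j ≠ i`).
The relations are `f i = ∑ j, G i j * X j = X_i ^ (e i) + (degree < e i, no constant term)`,
`d = det G`.  Plan and piece table: NOTES/S59-NC.md.
-/
import Mathlib.Algebra.MvPolynomial.Degrees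
import Mathlib.RingTheory.MvPowerSeries.Basic
import Mathlib.RingTheory.MvPolynomial.Basic
import Mathlib.LinearAlgebra.Matrix.Determinant.Basic

set_option autoImplicit false

namespace Fermat.Agent.S59.NC

open MvPolynomial

/-- Monomial-dominant data: exponents `e` and the matrix `G`. -/
structure S59ncData (R : Type*) [CommRing R] (n : ℕ) where
  /-- the exponents -/
  e : Fin n → ℕ
  he : ∀ i, 0 < e i
  /-- the matrix with `f = G • X` -/
  G : Matrix (Fin n) (Fin n) (MvPolynomial (Fin n) R)
  hG : ∀ i j, ∀ m ∈ (G i j - if i = j then (X i : MvPolynomial (Fin n) R) ^ (e i - 1) else 0).support,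
    m.degree + 1 < e i

namespace S59ncData

variable {R : Type*} [CommRing R] {n : ℕ}

/-- The relations `f i = ∑ j, G i j * X j`. -/
noncomputable def f (D : S59ncData R n) (i : Fin n) : MvPolynomial (Fin n) R :=
  ∑ j, D.G i j * X j

/-- The determinant `d = det G`. -/
noncomputable def d (D : S59ncData R n) : MvPolynomial (Fin n) R := D.G.det

/-- The ideal `(f₁, …, f_n)` of the polynomial ring. -/
noncomputable def idealPoly (D : S59ncData R n) : Ideal (MvPolynomial (Fin n) R) :=
  Ideal.span (Set.range D.f)

/-- The ideal `(f₁, …, f_n)` of the power series ring. -/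
noncomputable def idealPS (D : S59ncData R n) : Ideal (MvPowerSeries (Fin n) R) :=
  Ideal.span (Set.range fun i => (D.f i : MvPowerSeries (Fin n) R))

/-- Base change of the data along a ring homomorphism. -/
noncomputable def map {R' : Type*} [CommRing R'] (φ : R →+* R') (D : S59ncData R n) :
    S59ncData R' n where
  e := D.e
  he := D.he
  G := D.G.map (MvPolynomial.map φ)
  hG := by
    intro i j m hm
    refine D.hG i j m ?_
    have h1 : (D.G.map (MvPolynomial.map φ)) i j -
        (if i = j then (X i : MvPolynomial (Fin n) R') ^ (D.e i - 1) else 0) =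
        MvPolynomial.map φ
          (D.G i j - if i = j then (X i : MvPolynomial (Fin n) R) ^ (D.e i - 1) else 0) := by
      rw [map_sub, Matrix.map_apply]
      split_ifs
      · rw [map_pow, MvPolynomial.map_X]
      · rw [map_zero]
    rw [h1] at hm
    exact MvPolynomial.support_map_subset φ _ hm

@[simp] theorem map_e {R' : Type*} [CommRing R'] (φ : R →+* R') (D : S59ncData R n) :
    (D.map φ).e = D.e := rfl

@[simp] theorem map_G {R' : Type*} [CommRing R'] (φ : R →+* R') (D : S59ncData R n) :
    (D.map φ).G = D.G.map (MvPolynomial.map φ) := rfl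

theorem map_f {R' : Type*} [CommRing R'] (φ : R →+* R') (D : S59ncData R n) (i : Fin n) :
    (D.map φ).f i = MvPolynomial.map φ (D.f i) := by
  simp [f, map_sum, map_mul]

theorem map_d {R' : Type*} [CommRing R'] (φ : R →+* R') (D : S59ncData R n) :
    (D.map φ).d = MvPolynomial.map φ D.d := by
  simp only [d, map_G]
  exact (RingHom.map_det (MvPolynomial.map φ) D.G).symm

end S59ncData

/-- The linear coefficients of a power series: `lin h j = coeff of X_j`. -/
noncomputable def s59ncLin {R : Type*} [CommRing R] {n : ℕ} (h : MvPowerSeries (Fin n) R) :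
    Fin n → R :=
  fun j => MvPowerSeries.coeff (Finsupp.single j 1) h

end Fermat.Agent.S59.NC
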