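/-
S59-NC (Wiles–Lenstra numerical criterion `s59p_StmtNCIso`), sub-captain helper87.
INTERFACE: the pieces as `Prop`s (Mathlib only).  Piece table and proofs on paper: NOTES/S59-NC.md.

Route (no Koszul complex, no regular sequences, no dimension theory):
the complete-intersection cover of `T` is chosen MONOMIAL-DOMINANT (`S59ncData`): polynomial
relations `f i = X_i ^ (e i) + (lower total degree)`.  For such relations `R[X]/(f)` is free on the
standard monomials, `τ = coefficient of ∏ X_i ^ (e i - 1)` is a Frobenius form and `τ (det G) = 1`.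
Everything else is linear algebra + Nakayama.
-/
import Fermat.Agent.S59.NC.Defs
import Mathlib.RingTheory.DiscreteValuationRing.Basic
import Mathlib.RingTheory.Length
import Mathlib.RingTheory.Ideal.Cotangent
import Mathlib.RingTheory.MvPowerSeries.Inverse

set_option autoImplicit false

namespace Fermat.Agent.S59.NC

open MvPolynomial

universe u

/-! ## A. The monomial-dominant complete intersection -/

/-- **NC-Basis** (normal forms).  For monomial-dominant data over any commutative ring there is an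
`R`-linear projection `ρ` of `R[X]` onto the span of the standard monomials `X^a`, `a i < e i`,
with kernel `(f)`, which does not raise the total degree and strictly lowers the degree of a
non-standard monomial.
(Proof: `{f^q X^a}` is a basis of `R[X]`, unitriangular w.r.t. the monomial basis via
`(q, a) ↦ e q + a`.) -/
def s59nc_StmtBasis : Prop :=
  ∀ (R : Type u) [CommRing R] (n : ℕ) (D : S59ncData R n),
    ∃ ρ : MvPolynomial (Fin n) R →ₗ[R] MvPolynomial (Fin n) R,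
      (∀ p, p - ρ p ∈ D.idealPoly) ∧
      (∀ p ∈ D.idealPoly, ρ p = 0) ∧
      (∀ p, ∀ m ∈ (ρ p).support, ∀ i, m i < D.e i) ∧
      (∀ a : Fin n →₀ ℕ, (∀ i, a i < D.e i) → ρ (monomial a 1) = monomial a 1) ∧
      (∀ p (N : ℕ), (∀ m ∈ p.support, m.degree ≤ N) → ∀ m ∈ (ρ p).support, m.degree ≤ N) ∧
      (∀ b : Fin n →₀ ℕ, (∃ i, D.e i ≤ b i) →
        ∀ m ∈ (ρ (monomial b 1)).support, m.degree < b.degree)

/-- **NC-Tau** (Frobenius form).  `τ = (coefficient of ∏ X_i^(e i - 1)) ∘ ρ` vanishes on `(f)`,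
is non-degenerate modulo `(f)`, and `τ (det G) = 1`; `R[X]/(f)` is a finite `R`-module. -/
def s59nc_StmtTau : Prop :=
  ∀ (R : Type u) [CommRing R] (n : ℕ) (D : S59ncData R n),
    Module.Finite R (MvPolynomial (Fin n) R ⧸ D.idealPoly) ∧
    ∃ τ : MvPolynomial (Fin n) R →ₗ[R] R,
      (∀ p ∈ D.idealPoly, τ p = 0) ∧
      (∀ x, (∀ y, τ (x * y) = 0) → x ∈ D.idealPoly) ∧
      τ D.d = 1

/-- **NC-Gor** (polynomial form, over a field).  For an ideal `C ⊇ (f)` of `k[X]`: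
`det G ∈ C` iff every `s` with `s C ⊆ (f)` vanishes at the origin. -/
def s59nc_StmtGor : Prop :=
  ∀ (k : Type u) [Field k] (n : ℕ) (D : S59ncData k n) (C : Ideal (MvPolynomial (Fin n) k)),
    D.idealPoly ≤ C →
    (D.d ∈ C ↔
      ∀ s : MvPolynomial (Fin n) k, (∀ c ∈ C, s * c ∈ D.idealPoly) → constantCoeff s = 0)

/-- **NC-GorPS** (power series form, over a field): `k⟦X⟧/(f)` is Gorenstein with socle `k·det G`,
i.e. `det G` lies in every ideal strictly containing `(f)`, and not in `(f)`. -/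
def s59nc_StmtGorPS : Prop :=
  ∀ (k : Type u) [Field k] (n : ℕ) (D : S59ncData k n) (C : Ideal (MvPowerSeries (Fin n) k)),
    D.idealPS ≤ C → ((D.d : MvPowerSeries (Fin n) k) ∈ C ↔ C ≠ D.idealPS)

/-! ## B. Around the power series ring over `𝒪` -/

/-- **NC-Fit** (Cramer; `Fitt Φ ⊆ η`).  If the rows of `Λ` are linear parts of elements of `J`
without constant term, then `det Λ = a(0)` for some `a` with `a·X_i ∈ J` for all `i`. -/
def s59nc_StmtFit : Prop :=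
  ∀ (𝒪 : Type u) [CommRing 𝒪] (n : ℕ) (J : Ideal (MvPowerSeries (Fin n) 𝒪))
    (Λ : Matrix (Fin n) (Fin n) 𝒪),
    (∀ i, ∃ h ∈ J, MvPowerSeries.constantCoeff h = 0 ∧ s59ncLin h = Λ i) →
    ∃ a : MvPowerSeries (Fin n) 𝒪, (∀ i, a * MvPowerSeries.X i ∈ J) ∧
      MvPowerSeries.constantCoeff a = Λ.det

/-- **NC-Cover** (the complete-intersection cover).  `𝒪⟦X⟧/J` finite over the DVR `𝒪`, `J ⊆ (X)`,
the rows of `Λ` linear parts of elements of `J`: there are monomial-dominant data with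
`f i ∈ J` and `G(0) = Λ`. -/
def s59nc_StmtCover : Prop :=
  ∀ (𝒪 : Type u) [CommRing 𝒪] [IsDomain 𝒪] [IsDiscreteValuationRing 𝒪] (n : ℕ)
    (J : Ideal (MvPowerSeries (Fin n) 𝒪)),
    J ≤ RingHom.ker (MvPowerSeries.constantCoeff (σ := Fin n) (R := 𝒪)) →
    Module.Finite 𝒪 (MvPowerSeries (Fin n) 𝒪 ⧸ J) →
    ∀ Λ : Matrix (Fin n) (Fin n) 𝒪,
      (∀ i, ∃ h ∈ J, s59ncLin h = Λ i) →
      ∃ D : S59ncData 𝒪 n, (∀ i, (D.f i : MvPowerSeries (Fin n) 𝒪) ∈ J) ∧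
        ∀ i j, constantCoeff (D.G i j) = Λ i j

/-- **NC-Crit** (the criterion, core).  `J ⊆ (X)` with `𝒪`-torsion-free quotient, monomial-dominant
data with `f i ∈ J`, `δ = det G (0) ≠ 0`, and `η ⊆ (δ)`, i.e. `δ ∣ a(0)` whenever `a·(X) ⊆ J`.
Then `J = (f)`. -/
def s59nc_StmtCrit : Prop :=
  ∀ (𝒪 : Type u) [CommRing 𝒪] [IsDomain 𝒪] [IsDiscreteValuationRing 𝒪] (n : ℕ)
    (J : Ideal (MvPowerSeries (Fin n) 𝒪)) (D : S59ncData 𝒪 n),
    J ≤ RingHom.ker (MvPowerSeries.constantCoeff (σ := Fin n) (R := 𝒪)) →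
    (∀ (c : 𝒪) (a : MvPowerSeries (Fin n) 𝒪), c ≠ 0 → c • a ∈ J → a ∈ J) →
    (∀ i, (D.f i : MvPowerSeries (Fin n) 𝒪) ∈ J) →
    constantCoeff D.d ≠ 0 →
    (∀ a : MvPowerSeries (Fin n) 𝒪, (∀ i, a * MvPowerSeries.X i ∈ J) →
      constantCoeff D.d ∣ MvPowerSeries.constantCoeff a) →
    J = D.idealPS

/-- **NC-Mat** (matrix lemma).  `I ⊆ (f₁,…,f_n)`, `f i(0) = 0`, the linear parts of the `f i`
independent, and each of them is the linear part of an element of `I`: then `I = (f)`. -/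
def s59nc_StmtMat : Prop :=
  ∀ (𝒪 : Type u) [CommRing 𝒪] [IsDomain 𝒪] (n : ℕ)
    (f : Fin n → MvPowerSeries (Fin n) 𝒪) (I : Ideal (MvPowerSeries (Fin n) 𝒪)),
    (∀ i, MvPowerSeries.constantCoeff (f i) = 0) →
    (Matrix.of fun i => s59ncLin (f i)).det ≠ 0 →
    I ≤ Ideal.span (Set.range f) →
    (∀ i, ∃ g ∈ I, s59ncLin g = s59ncLin (f i)) →
    I = Ideal.span (Set.range f)

/-! ## C. Lengths over a discrete valuation ring -/

/-- **NC-LenDet**: `length (𝒪ⁿ / rows Λ) = length (𝒪 / det Λ)` for `det Λ ≠ 0`. -/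
def s59nc_StmtLenDet : Prop :=
  ∀ (𝒪 : Type u) [CommRing 𝒪] [IsDomain 𝒪] [IsDiscreteValuationRing 𝒪] (n : ℕ)
    (Λ : Matrix (Fin n) (Fin n) 𝒪), Λ.det ≠ 0 →
    Module.length 𝒪 ((Fin n → 𝒪) ⧸ Submodule.span 𝒪 (Set.range fun i => Λ i)) =
      Module.length 𝒪 (𝒪 ⧸ Ideal.span {Λ.det})

/-- **NC-LenBasis**: a submodule of `𝒪ⁿ` with quotient of finite length is spanned by the rows of
a square matrix with non-zero determinant. -/
def s59nc_StmtLenBasis : Prop :=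
  ∀ (𝒪 : Type u) [CommRing 𝒪] [IsDomain 𝒪] [IsDiscreteValuationRing 𝒪] (n : ℕ)
    (L : Submodule 𝒪 (Fin n → 𝒪)), Module.length 𝒪 ((Fin n → 𝒪) ⧸ L) ≠ ⊤ →
    ∃ Λ : Matrix (Fin n) (Fin n) 𝒪, Λ.det ≠ 0 ∧ L = Submodule.span 𝒪 (Set.range fun i => Λ i)

/-- The linear-part map `𝒪⟦X⟧ → 𝒪ⁿ` as an `𝒪`-linear map. -/
noncomputable def s59ncLinMap (𝒪 : Type*) [CommRing 𝒪] (n : ℕ) :
    MvPowerSeries (Fin n) 𝒪 →ₗ[𝒪] (Fin n → 𝒪) :=
  LinearMap.pi fun j => MvPowerSeries.coeff (R := 𝒪) (Finsupp.single j 1)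

@[simp] theorem s59ncLinMap_apply {𝒪 : Type*} [CommRing 𝒪] {n : ℕ}
    (h : MvPowerSeries (Fin n) 𝒪) : s59ncLinMap 𝒪 n h = s59ncLin h := rfl

/-- The lattice of linear parts of an ideal. -/
noncomputable def s59ncLinSub {𝒪 : Type*} [CommRing 𝒪] {n : ℕ}
    (J : Ideal (MvPowerSeries (Fin n) 𝒪)) : Submodule 𝒪 (Fin n → 𝒪) :=
  Submodule.map (s59ncLinMap 𝒪 n) (J.restrictScalars 𝒪)

/-- **NC-Cot** (cotangent dictionary).  For an augmented algebra `A = 𝒪⟦X⟧/J` with `X_i ↦ ker π`: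
`Φ_A = ker π / (ker π)² ≅ 𝒪ⁿ / lin J`. -/
def s59nc_StmtCot : Prop :=
  ∀ (𝒪 : Type u) [CommRing 𝒪] (n : ℕ) (A : Type u) [CommRing A] [Algebra 𝒪 A]
    (γ : MvPowerSeries (Fin n) 𝒪 →ₐ[𝒪] A) (π : A →ₐ[𝒪] 𝒪),
    Function.Surjective γ → (∀ i, π (γ (MvPowerSeries.X i)) = 0) →
    Nonempty ((RingHom.ker (π : A →+* 𝒪)).Cotangent ≃ₗ[𝒪]
      ((Fin n → 𝒪) ⧸ s59ncLinSub (RingHom.ker (γ : MvPowerSeries (Fin n) 𝒪 →+* A))))

end Fermat.Agent.S59.NC
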