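/-
S59-NC, piece NC-LenDet (helper13): lengths over a discrete valuation ring and determinants.

`s59ncld_stmtLenDet : s59nc_StmtLenDet` :
for a square matrix `Λ` over a discrete valuation ring `𝒪` with `det Λ ≠ 0`,
`length (𝒪ⁿ / rows Λ) = length (𝒪 / det Λ)`.

Route: Mathlib's Smith normal form of a submodule of full rank
(`Submodule.quotientEquivPiSpan`), `IsDiscreteValuationRing.length_quotient_pow_maximalIdeal`,
and the invariance of the determinant up to units (`LinearMap.associated_det_comp_equiv`).
-/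
import Fermat.Agent.S59.NC.Plan
import Mathlib.LinearAlgebra.FreeModule.Finite.Quotient
import Mathlib.LinearAlgebra.Determinant
import Mathlib.LinearAlgebra.Matrix.Determinant.Basic
import Mathlib.RingTheory.DiscreteValuationRing.Basic
import Mathlib.RingTheory.Length

set_option autoImplicit false

namespace Fermat.Agent.S59.NC

open Module IsLocalRing

universe u

section DVR

variable {𝒪 : Type*} [CommRing 𝒪] [IsDomain 𝒪] [IsDiscreteValuationRing 𝒪]

/-- A non-zero principal ideal of a discrete valuation ring is a power of the maximal ideal. -/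
theorem s59ncld_span_eq_pow {a : 𝒪} (ha : a ≠ 0) :
    ∃ k : ℕ, Ideal.span {a} = maximalIdeal 𝒪 ^ k := by
  obtain ⟨ϖ, hϖ⟩ := IsDiscreteValuationRing.exists_irreducible 𝒪
  have hne : Ideal.span {a} ≠ (⊥ : Ideal 𝒪) := by
    rw [Ne, Ideal.span_singleton_eq_bot]
    exact ha
  obtain ⟨k, hk⟩ := IsDiscreteValuationRing.ideal_eq_span_pow_irreducible hne hϖ
  refine ⟨k, ?_⟩
  rw [hk, hϖ.maximalIdeal_eq, Ideal.span_singleton_pow]

/-- The length of `𝒪 / (a)` is finite for `a ≠ 0`. -/
theorem s59ncld_length_span_ne_top {a : 𝒪} (ha : a ≠ 0) :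
    Module.length 𝒪 (𝒪 ⧸ Ideal.span {a}) ≠ ⊤ := by
  obtain ⟨k, hk⟩ := s59ncld_span_eq_pow ha
  rw [hk, IsDiscreteValuationRing.length_quotient_pow_maximalIdeal]
  exact ENat.natCast_ne_top k

/-- `length 𝒪/(ab) = length 𝒪/(a) + length 𝒪/(b)` for non-zero `a`, `b`. -/
theorem s59ncld_length_span_mul {a b : 𝒪} (ha : a ≠ 0) (hb : b ≠ 0) :
    Module.length 𝒪 (𝒪 ⧸ Ideal.span {a * b}) =
      Module.length 𝒪 (𝒪 ⧸ Ideal.span {a}) + Module.length 𝒪 (𝒪 ⧸ Ideal.span {b}) := by
  obtain ⟨k, hk⟩ := s59ncld_span_eq_pow ha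
  obtain ⟨l, hl⟩ := s59ncld_span_eq_pow hb
  have hab : Ideal.span {a * b} = maximalIdeal 𝒪 ^ (k + l) := by
    rw [← Ideal.span_singleton_mul_span_singleton, hk, hl, pow_add]
  rw [hab, hk, hl, IsDiscreteValuationRing.length_quotient_pow_maximalIdeal,
    IsDiscreteValuationRing.length_quotient_pow_maximalIdeal,
    IsDiscreteValuationRing.length_quotient_pow_maximalIdeal]
  push_cast
  rfl

/-- `length 𝒪/(∏ a i) = ∑ length 𝒪/(a i)` for non-zero `a i`. -/
theorem s59ncld_length_span_prod {ι : Type*} (s : Finset ι) (a : ι → 𝒪) (ha : ∀ i ∈ s, a i ≠ 0) :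
    Module.length 𝒪 (𝒪 ⧸ Ideal.span {∏ i ∈ s, a i}) =
      ∑ i ∈ s, Module.length 𝒪 (𝒪 ⧸ Ideal.span {a i}) := by
  classical
  induction s using Finset.induction_on with
  | empty =>
    rw [Finset.prod_empty, Finset.sum_empty, Module.length_eq_zero_iff]
    rw [Ideal.span_singleton_one]
    exact (Ideal.Quotient.subsingleton_iff).2 rfl
  | insert i s hi ih =>
    rw [Finset.prod_insert hi, Finset.sum_insert hi]
    have h1 : a i ≠ 0 := ha i (Finset.mem_insert_self i s)
    have h2 : ∏ j ∈ s, a j ≠ 0 :=
      Finset.prod_ne_zero_iff.2 fun j hj => ha j (Finset.mem_insert_of_mem hj)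
    rw [s59ncld_length_span_mul h1 h2, ih fun j hj => ha j (Finset.mem_insert_of_mem hj)]

omit [IsDiscreteValuationRing 𝒪] in
/-- The length only depends on the generator up to units. -/
theorem s59ncld_length_span_of_associated {a b : 𝒪} (h : Associated a b) :
    Module.length 𝒪 (𝒪 ⧸ Ideal.span {a}) = Module.length 𝒪 (𝒪 ⧸ Ideal.span {b}) := by
  rw [Ideal.span_singleton_eq_span_singleton.2 h]

end DVR

section PID

variable {R : Type*} [CommRing R] [IsDomain R] [IsPrincipalIdealRing R]
variable {M : Type*} [AddCommGroup M] [Module R M]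

/-- **Determinant and Smith coefficients.**  If `bN` is a basis of a submodule `N` of the free
module `M` with basis `b` (same index type), then the determinant of `bN` over `b` is associated
to the product of the Smith coefficients of `N`. -/
theorem s59ncld_associated_det_prod {ι : Type*} [Fintype ι] [DecidableEq ι] (b : Basis ι R M)
    (N : Submodule R M) (bN : Basis ι R N) (h : Module.finrank R N = Module.finrank R M) :
    Associated (b.det ((↑) ∘ bN)) (∏ i, Submodule.smithNormalFormCoeffs b h i) := by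
  let a := Submodule.smithNormalFormCoeffs b h
  let b' := Submodule.smithNormalFormTopBasis b h
  let ab := Submodule.smithNormalFormBotBasis b h
  have ab_eq := Submodule.smithNormalFormBotBasis_def b h
  let e : M ≃ₗ[R] N := b.equiv bN (Equiv.refl _)
  let e' : M ≃ₗ[R] N := b'.equiv ab (Equiv.refl _)
  let f : M →ₗ[R] M := N.subtype.comp (e' : M →ₗ[R] N)
  have ha : ∀ i, f (b' i) = a i • b' i := by
    intro i
    show (N.subtype (b'.equiv ab (Equiv.refl _) (b' i)) : M) = _
    rw [Basis.equiv_apply, Equiv.refl_apply]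
    exact ab_eq i
  have hdet : LinearMap.det f = ∏ i, a i := by
    rw [← LinearMap.det_toMatrix b']
    have : LinearMap.toMatrix b' b' f = Matrix.diagonal a := by
      ext i j
      rw [LinearMap.toMatrix_apply, ha, map_smul, Basis.repr_self, Finsupp.smul_single,
        smul_eq_mul, mul_one]
      by_cases hij : i = j
      · rw [hij, Matrix.diagonal_apply_eq, Finsupp.single_eq_same]
      · rw [Matrix.diagonal_apply_ne _ hij, Finsupp.single_eq_of_ne hij]
    rw [this, Matrix.det_diagonal]
  have h1 : b.det ((↑) ∘ bN) = LinearMap.det (N.subtype ∘ₗ (e : M →ₗ[R] N)) := by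
    have := Basis.det_comp_basis bN b N.subtype
    exact this
  rw [h1, ← hdet]
  exact LinearMap.associated_det_comp_equiv _ _ _

end PID

/-- **NC-LenDet.** -/
theorem s59ncld_stmtLenDet : s59nc_StmtLenDet.{u} := by
  intro 𝒪 _ _ _ n Λ hΛ
  classical
  -- the rows form a basis of their span
  have hli : LinearIndependent 𝒪 (fun i => Λ i) :=
    Matrix.linearIndependent_rows_of_det_ne_zero hΛ
  let N : Submodule 𝒪 (Fin n → 𝒪) := Submodule.span 𝒪 (Set.range fun i => Λ i)
  let bN : Basis (Fin n) 𝒪 N := Basis.span hli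
  let b : Basis (Fin n) 𝒪 (Fin n → 𝒪) := Pi.basisFun 𝒪 (Fin n)
  have hrank : Module.finrank 𝒪 N = Module.finrank 𝒪 (Fin n → 𝒪) := by
    rw [Module.finrank_eq_card_basis bN, Module.finrank_eq_card_basis b]
  -- the determinant of the rows over the standard basis
  have hdet : b.det ((↑) ∘ bN) = Λ.det := by
    rw [Basis.det_apply, ← Matrix.det_transpose]
    congr 1
    ext i j
    rw [Matrix.transpose_apply, Basis.toMatrix_apply, Function.comp_apply]
    have : ((bN i : N) : Fin n → 𝒪) = Λ i := congrArg Subtype.val (Basis.span_apply hli i)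
    rw [this]
    exact Pi.basisFun_repr (R := 𝒪) (η := Fin n) (Λ i) j
  have hass := s59ncld_associated_det_prod b N bN hrank
  rw [hdet] at hass
  -- lengths
  have e := Submodule.quotientEquivPiSpan N b hrank
  show Module.length 𝒪 ((Fin n → 𝒪) ⧸ N) = _
  rw [e.length_eq, Module.length_pi_of_fintype, s59ncld_length_span_of_associated hass,
    s59ncld_length_span_prod Finset.univ _
      fun i _ => Submodule.smithNormalFormCoeffs_ne_zero b hrank i]

end Fermat.Agent.S59.NC
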