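/-
S59-NC, piece NC-CI (Tate), part 4 (helper25): the abstract `𝒪`-side.

* `s59tate_length_quot_bot` : `length (𝒪 ⧸ ⊥) = ⊤` for a DVR;
* `s59tate_eta_eq`  : if `d̄ ∈ Ann_T(ker π)`, `d̄ ∉ ϖ T` and `η ≠ 0`, then `η = (π d̄)`;
* `s59tate_cot_le`  : `length (ker π / (ker π)²) ≤ length (𝒪^r / rows Λ)` when `ker π = (t₁..t_r)`
                      and `∑ j, M i j * t j = 0` with `π (M i j) = Λ i j`;
* `s59tate_pow_mem` : `T` local, finite over the DVR `𝒪`: `∃ N, ∀ t ∈ 𝔪_T, t ^ N ∈ ϖ T`.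
-/
import Mathlib.RingTheory.Ideal.Cotangent
import Mathlib.RingTheory.DiscreteValuationRing.Basic
import Mathlib.RingTheory.Length
import Mathlib.RingTheory.Artinian.Ring
import Mathlib.RingTheory.Nakayama
import Mathlib.LinearAlgebra.Matrix.Determinant.Basic

set_option autoImplicit false

namespace Fermat.Agent.S59

open IsLocalRing

section Gen

variable {𝒪 : Type*} [CommRing 𝒪] {T : Type*} [CommRing T] [Algebra 𝒪 T]

theorem s59tate_pi_surjective (π : T →ₐ[𝒪] 𝒪) : Function.Surjective π := fun c =>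
  ⟨algebraMap 𝒪 T c, by rw [AlgHom.commutes]; rfl⟩

theorem s59tate_sub_mem_ker (π : T →ₐ[𝒪] 𝒪) (t : T) :
    t - algebraMap 𝒪 T (π t) ∈ RingHom.ker (π : T →+* 𝒪) := by
  rw [RingHom.mem_ker, map_sub]
  change π t - π (algebraMap 𝒪 T (π t)) = 0
  rw [AlgHom.commutes]
  exact sub_self _

end Gen

section DVR

variable {𝒪 : Type*} [CommRing 𝒪] [IsDomain 𝒪] [IsDiscreteValuationRing 𝒪]

/-- A DVR has infinite length over itself. -/
theorem s59tate_length_self : Module.length 𝒪 𝒪 = ⊤ := by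
  by_contra h
  rw [← ne_eq, Module.length_ne_top_iff, isFiniteLength_iff_isNoetherian_isArtinian] at h
  haveI : IsArtinianRing 𝒪 := h.2
  exact IsDiscreteValuationRing.not_isField 𝒪 (IsArtinianRing.isField_of_isDomain 𝒪)

theorem s59tate_length_quot_bot : Module.length 𝒪 (𝒪 ⧸ (⊥ : Ideal 𝒪)) = ⊤ := by
  rw [← s59tate_length_self (𝒪 := 𝒪)]
  exact (Submodule.quotEquivOfEqBot (⊥ : Ideal 𝒪) rfl).length_eq

variable {T : Type*} [CommRing T] [Algebra 𝒪 T]

/-- **Saturation.**  If `d̄` annihilates `ker π`, `d̄ ∉ ϖ T`, `T` is torsion-free and `η ≠ 0`, then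
`η = (π d̄)`. -/
theorem s59tate_eta_eq [Module.IsTorsionFree 𝒪 T] (π : T →ₐ[𝒪] 𝒪) (ϖ : 𝒪)
    (hϖ : Irreducible ϖ) (dbar : T)
    (hd : ∀ t ∈ RingHom.ker (π : T →+* 𝒪), dbar * t = 0)
    (hnd : ∀ t : T, dbar ≠ ϖ • t)
    (hη : Ideal.map π (Submodule.annihilator (RingHom.ker (π : T →+* 𝒪))) ≠ ⊥) :
    Ideal.map π (Submodule.annihilator (RingHom.ker (π : T →+* 𝒪))) = Ideal.span {π dbar} := by
  set p := RingHom.ker (π : T →+* 𝒪) with hp
  have hsurj := s59tate_pi_surjective π
  have hdAnn : dbar ∈ Submodule.annihilator p := by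
    rw [Submodule.mem_annihilator]
    intro n hn
    exact hd n hn
  -- a witness with non-zero image
  obtain ⟨x₀, hx₀, hx₀ne⟩ := (Submodule.ne_bot_iff _).1 hη
  obtain ⟨e₀, he₀, rfl⟩ := (Ideal.mem_map_iff_of_surjective (π : T →+* 𝒪) hsurj).1 hx₀
  -- `π` is injective on the annihilator
  have hinj : ∀ x ∈ Submodule.annihilator p, π x = 0 → x = 0 := by
    intro x hx hπx
    have hxp : x ∈ p := hπx
    have h1 : e₀ * x = 0 := by
      have := (Submodule.mem_annihilator.1 he₀) x hxp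
      simpa using this
    have h2 : x * (e₀ - algebraMap 𝒪 T (π e₀)) = 0 := by
      have := (Submodule.mem_annihilator.1 hx) _ (s59tate_sub_mem_ker π e₀)
      simpa using this
    have h3 : (π e₀) • x = 0 := by
      rw [Algebra.smul_def]
      have : algebraMap 𝒪 T (π e₀) * x = e₀ * x - x * (e₀ - algebraMap 𝒪 T (π e₀)) := by ring
      rw [this, h1, h2, sub_zero]
    rcases smul_eq_zero.1 h3 with h | h
    · exact absurd h hx₀ne
    · exact h
  apply le_antisymm
  · intro x hx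
    obtain ⟨e, he, rfl⟩ := (Ideal.mem_map_iff_of_surjective (π : T →+* 𝒪) hsurj).1 hx
    rw [Ideal.mem_span_singleton]
    -- `π d̄ • e = π e • d̄`
    have hz : (π dbar) • e - (π e) • dbar = 0 := by
      apply hinj
      · refine Submodule.sub_mem _ ?_ ?_
        · rw [Algebra.smul_def]; exact Ideal.mul_mem_left _ _ he
        · rw [Algebra.smul_def]; exact Ideal.mul_mem_left _ _ hdAnn
      · rw [map_sub, map_smul, map_smul, smul_eq_mul, smul_eq_mul, mul_comm, sub_self]
    rcases ValuationRing.dvd_total (π dbar) (π e) with h | ⟨c, hc⟩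
    · exact h
    · by_cases hcu : IsUnit c
      · obtain ⟨u, rfl⟩ := hcu
        exact ⟨↑u⁻¹, by rw [hc]; simp [mul_assoc]⟩
      · have hcm : c ∈ maximalIdeal 𝒪 := hcu
        rw [(IsDiscreteValuationRing.irreducible_iff_uniformizer ϖ).1 hϖ,
          Ideal.mem_span_singleton] at hcm
        obtain ⟨c', rfl⟩ := hcm
        have h4 : (π e) • ((ϖ * c') • e - dbar) = 0 := by
          rw [smul_sub, smul_smul, ← hc]
          exact hz
        rcases smul_eq_zero.1 h4 with h | h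
        · have h' : (π : T →+* 𝒪) e = 0 := h
          rw [h']; exact dvd_zero _
        · exfalso
          apply hnd (c' • e)
          rw [smul_smul]
          exact (sub_eq_zero.1 h).symm
  · rw [Ideal.span_le, Set.singleton_subset_iff]
    exact Ideal.mem_map_of_mem _ hdAnn

end DVR

section Cot

variable {𝒪 : Type*} [CommRing 𝒪] {T : Type*} [CommRing T] [Algebra 𝒪 T]

/-- **Cotangent bound.**  If `ker π = (t₁, …, t_r)` and `∑ j, Mt i j * t j = 0` with
`π (Mt i j) = Λ i j`, then `ker π / (ker π)²` is a quotient of `𝒪^r / rows Λ`. -/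
theorem s59tate_cot_le {r : ℕ} (π : T →ₐ[𝒪] 𝒪) (t : Fin r → T)
    (ht : RingHom.ker (π : T →+* 𝒪) = Ideal.span (Set.range t))
    (Mt : Matrix (Fin r) (Fin r) T) (hM : ∀ i, ∑ j, Mt i j * t j = 0)
    (Λ : Matrix (Fin r) (Fin r) 𝒪) (hΛ : ∀ i j, π (Mt i j) = Λ i j) :
    Module.length 𝒪 (RingHom.ker (π : T →+* 𝒪)).Cotangent ≤
      Module.length 𝒪 ((Fin r → 𝒪) ⧸ Submodule.span 𝒪 (Set.range fun i => Λ i)) := by
  classical
  set p := RingHom.ker (π : T →+* 𝒪) with hp
  have htp : ∀ j, t j ∈ p := fun j => by rw [ht]; exact Ideal.subset_span ⟨j, rfl⟩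
  have hutp : ∀ (u : T) j, u * t j ∈ p := fun u j => Ideal.mul_mem_left _ _ (htp j)
  let v : Fin r → p.Cotangent := fun j => p.toCotangent ⟨t j, htp j⟩
  let L : (Fin r → 𝒪) →ₗ[𝒪] p.Cotangent := Fintype.linearCombination 𝒪 v
  have hL : ∀ c, L c = ∑ j, c j • v j := fun c => Fintype.linearCombination_apply 𝒪 v c
  have key1 : ∀ (u : T) j, p.toCotangent ⟨u * t j, hutp u j⟩ = (π u) • v j := by
    intro u j
    have e1 : (π u) • v j = p.toCotangent ((algebraMap 𝒪 T (π u)) • ⟨t j, htp j⟩) := by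
      rw [map_smul, algebraMap_smul]
    rw [e1, Ideal.toCotangent_eq]
    have : ((⟨u * t j, hutp u j⟩ : p) : T) - (((algebraMap 𝒪 T (π u)) • (⟨t j, htp j⟩ : p) : p) : T)
        = (u - algebraMap 𝒪 T (π u)) * t j := by
      simp only [Submodule.coe_smul, smul_eq_mul]
      ring
    rw [this, pow_two]
    exact Ideal.mul_mem_mul (s59tate_sub_mem_ker π u) (htp j)
  have hsum : ∀ (u : Fin r → T) (h : ∑ j, u j * t j ∈ p),
      p.toCotangent ⟨∑ j, u j * t j, h⟩ = ∑ j, (π (u j)) • v j := by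
    intro u h
    have : (⟨∑ j, u j * t j, h⟩ : p) = ∑ j, (⟨u j * t j, hutp (u j) j⟩ : p) := by
      apply Subtype.ext
      rw [Submodule.coe_sum]
    rw [this, map_sum]
    exact Finset.sum_congr rfl fun j _ => key1 (u j) j
  have hLsurj : Function.Surjective L := by
    intro x
    obtain ⟨⟨y, hy⟩, rfl⟩ := p.toCotangent_surjective x
    have hy' : y ∈ Ideal.span (Set.range t) := by rw [← ht]; exact hy
    obtain ⟨u, hu⟩ := Ideal.mem_span_range_iff_exists_fun.1 hy'
    refine ⟨fun j => π (u j), ?_⟩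
    rw [hL]
    subst hu
    exact (hsum u hy).symm
  have hker : Submodule.span 𝒪 (Set.range fun i => Λ i) ≤ LinearMap.ker L := by
    rw [Submodule.span_le]
    rintro _ ⟨i, rfl⟩
    rw [SetLike.mem_coe, LinearMap.mem_ker, hL]
    have h0 : (∑ j, Mt i j * t j) ∈ p := by rw [hM i]; exact Submodule.zero_mem _
    have := hsum (fun j => Mt i j) h0
    simp only [hΛ] at this
    rw [← this]
    have : (⟨∑ j, Mt i j * t j, h0⟩ : p) = 0 := Subtype.ext (hM i)
    rw [this, map_zero]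
  have hsurj' : Function.Surjective
      ((Submodule.span 𝒪 (Set.range fun i => Λ i)).liftQ L hker) := by
    intro x
    obtain ⟨c, hc⟩ := hLsurj x
    exact ⟨Submodule.Quotient.mk c, by rw [Submodule.liftQ_apply]; exact hc⟩
  exact Module.length_le_of_surjective _ hsurj'

end Cot

end Fermat.Agent.S59
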