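/-
S59-NC, piece NC-CI (Tate), part 1 (helper25): pure linear algebra over a commutative ring.

`s59tate_det_wd` (DET-WD): if the syzygies of a vector `x` are generated by the Koszul syzygies
`x j • e_i - x i • e_j`, and `D *ᵥ x = D' *ᵥ x`, then `det D - det D' ∈ (D *ᵥ x)`.
-/
import Mathlib.LinearAlgebra.Matrix.Adjugate
import Mathlib.RingTheory.Ideal.Span

set_option autoImplicit false

namespace Fermat.Agent.S59

open Matrix

variable {R : Type*} [CommRing R] {ι : Type*} [Fintype ι] [DecidableEq ι]

/-- If all entries of column `j` lie in an ideal, so does the determinant. -/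
theorem s59tate_det_mem_of_col (I : Ideal R) (A : Matrix ι ι R) (j : ι)
    (h : ∀ l, A l j ∈ I) : A.det ∈ I := by
  rw [Matrix.det_eq_sum_mul_adjugate_col A j]
  exact I.sum_mem fun l _ => I.mul_mem_right _ (h l)

/-- `det (B.updateCol j u) = det B` as soon as row `k` of `B` is `e_j` and `u k = 1`. -/
theorem s59tate_det_updateCol_of_row (B : Matrix ι ι R) (j k : ι)
    (hB : B k = Pi.single j 1) (u : ι → R) (hu : u k = 1) :
    (B.updateCol j u).det = B.det := by
  rw [← Matrix.cramer_apply, Matrix.cramer_eq_adjugate_mulVec, Matrix.mulVec, dotProduct]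
  rw [Finset.sum_eq_single k]
  · rw [hu, mul_one, Matrix.adjugate_apply, ← hB, Matrix.updateRow_eq_self]
  · intro l _ hlk
    rw [Matrix.adjugate_apply]
    have : (B.updateRow l (Pi.single j 1)).det = 0 := by
      apply Matrix.det_zero_of_row_eq hlk
      rw [Matrix.updateRow_self, Matrix.updateRow_ne (Ne.symm hlk), hB]
    rw [this, zero_mul]
  · intro hk
    exact absurd (Finset.mem_univ k) hk

/-- The entry `(j, k)` of the adjugate does not depend on column `j`. -/
theorem s59tate_adjugate_updateCol (A : Matrix ι ι R) (j k : ι) (c : ι → R) :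
    adjugate (A.updateCol j c) j k = adjugate A j k := by
  rw [Matrix.adjugate_apply, Matrix.adjugate_apply]
  set B := A.updateRow k (Pi.single j 1) with hBdef
  have hB : B k = Pi.single j 1 := by rw [hBdef, Matrix.updateRow_self]
  have h1 : (A.updateCol j c).updateRow k (Pi.single j 1)
      = B.updateCol j (Function.update c k 1) := by
    ext a b
    by_cases hak : a = k
    · subst hak
      by_cases hbj : b = j
      · subst hbj
        simp [hBdef, Matrix.updateRow_apply, Matrix.updateCol_apply]
      · simp [hBdef, Matrix.updateRow_apply, Matrix.updateCol_apply, hbj]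
    · by_cases hbj : b = j
      · subst hbj
        simp [hBdef, Matrix.updateRow_apply, Matrix.updateCol_apply, hak]
      · simp [hBdef, Matrix.updateRow_apply, Matrix.updateCol_apply, hbj, hak]
  rw [h1, s59tate_det_updateCol_of_row B j k hB _ (by simp)]

/-- Cramer: `det (A.updateCol j (A *ᵥ x)) = x j * det A`. -/
theorem s59tate_det_updateCol_mulVec (A : Matrix ι ι R) (x : ι → R) (j : ι) :
    (A.updateCol j (A *ᵥ x)).det = x j * A.det := by
  rw [← Matrix.cramer_apply, Matrix.cramer_eq_adjugate_mulVec, Matrix.mulVec_mulVec,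
    Matrix.adjugate_mul, Matrix.smul_mulVec, Matrix.one_mulVec, Pi.smul_apply, smul_eq_mul,
    mul_comm]

/-- **Key identity.**  With `g = D *ᵥ x`:
`x j * adj(D) i k - x i * adj(D) j k ∈ (g)`. -/
theorem s59tate_adj_mem (D : Matrix ι ι R) (x : ι → R) (k i j : ι) :
    x j * adjugate D i k - x i * adjugate D j k ∈ Ideal.span (Set.range (D *ᵥ x)) := by
  classical
  set I := Ideal.span (Set.range (D *ᵥ x)) with hI
  by_cases hij : i = j
  · subst hij
    simp
  -- `Q₃ = D` with row `k` replaced by `e_i`
  set Q₃ := D.updateRow k (Pi.single i 1) with hQ₃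
  have hdet₃ : Q₃.det = adjugate D i k := by rw [Matrix.adjugate_apply]
  have hcr := s59tate_det_updateCol_mulVec Q₃ x j
  -- the matrix `Q₅ = D` with column `j` replaced by `g`
  set Q₅ := D.updateCol j (D *ᵥ x) with hQ₅
  have hQ₄ : Q₃.updateCol j (Q₃ *ᵥ x)
      = Q₅.updateRow k (Pi.single i 1 + x i • Pi.single j 1) := by
    ext a b
    by_cases hak : a = k
    · subst hak
      by_cases hbj : b = j
      · subst hbj
        have hne : b ≠ i := fun h => hij h.symm
        simp [hQ₃, Matrix.updateRow_apply, Matrix.updateCol_apply, Matrix.mulVec, dotProduct,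
          Pi.single_apply, hne]
      · simp [hQ₃, hQ₅, Matrix.updateRow_apply, Matrix.updateCol_apply, hbj, Pi.single_apply]
    · by_cases hbj : b = j
      · subst hbj
        simp [hQ₃, hQ₅, Matrix.updateRow_apply, Matrix.updateCol_apply, hak, Matrix.mulVec,
          dotProduct]
      · simp [hQ₃, hQ₅, Matrix.updateRow_apply, Matrix.updateCol_apply, hbj, hak]
  rw [hQ₄, Matrix.det_updateRow_add, Matrix.det_updateRow_smul] at hcr
  have h1 : (Q₅.updateRow k (Pi.single i 1)).det ∈ I := by
    apply s59tate_det_mem_of_col I _ j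
    intro l
    by_cases hlk : l = k
    · subst hlk
      have hne : j ≠ i := fun h => hij h.symm
      simp [Matrix.updateRow_apply, Pi.single_apply, hne]
    · simp only [Matrix.updateRow_apply, hlk, if_false, hQ₅, Matrix.updateCol_apply, if_true]
      exact Ideal.subset_span ⟨l, rfl⟩
  have h2 : (Q₅.updateRow k (Pi.single j 1)).det = adjugate D j k := by
    rw [← Matrix.adjugate_apply, hQ₅, s59tate_adjugate_updateCol]
  rw [h2, hdet₃] at hcr
  have : x j * adjugate D i k - x i * adjugate D j k
      = (Q₅.updateRow k (Pi.single i 1)).det := by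
    rw [← hcr]; ring
  rw [this]
  exact h1

/-- The module of Koszul syzygies of `x`. -/
def s59tateKoszul (x : ι → R) : Submodule R (ι → R) :=
  Submodule.span R (Set.range fun p : ι × ι =>
    x p.2 • (Pi.single p.1 (1 : R) : ι → R) - x p.1 • (Pi.single p.2 (1 : R) : ι → R))

/-- `x` has only Koszul syzygies (e.g. `x` a regular sequence; the variables of a power series
ring). -/
def S59TateKoszulSyz (x : ι → R) : Prop :=
  ∀ v : ι → R, v ⬝ᵥ x = 0 → v ∈ s59tateKoszul x

/-- Replacing a row by a Koszul syzygy gives a determinant in `(D *ᵥ x)`. -/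
theorem s59tate_det_updateRow_koszul (D : Matrix ι ι R) (x : ι → R) (k : ι) (v : ι → R)
    (hv : v ∈ s59tateKoszul x) :
    (D.updateRow k v).det ∈ Ideal.span (Set.range (D *ᵥ x)) := by
  induction hv using Submodule.span_induction with
  | mem v hv =>
    obtain ⟨⟨i, j⟩, rfl⟩ := hv
    simp only
    rw [sub_eq_add_neg, ← neg_smul, Matrix.det_updateRow_add, Matrix.det_updateRow_smul,
      Matrix.det_updateRow_smul, ← Matrix.adjugate_apply, ← Matrix.adjugate_apply]
    have := s59tate_adj_mem D x k i j
    rwa [sub_eq_add_neg, ← neg_mul] at this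
  | zero =>
    have : (D.updateRow k 0).det = 0 := Matrix.det_eq_zero_of_row_eq_zero k (by simp)
    rw [this]; exact Ideal.zero_mem _
  | add u v _ _ hu hv =>
    rw [Matrix.det_updateRow_add]; exact Ideal.add_mem _ hu hv
  | smul a v _ hv =>
    rw [Matrix.det_updateRow_smul]; exact Ideal.mul_mem_left _ _ hv

/-- **DET-WD.**  If `x` has only Koszul syzygies and `D *ᵥ x = D' *ᵥ x`, then
`det D - det D' ∈ (D *ᵥ x)`. -/
theorem s59tate_det_wd (x : ι → R) (hx : S59TateKoszulSyz x) (D D' : Matrix ι ι R)
    (h : D *ᵥ x = D' *ᵥ x) :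
    D.det - D'.det ∈ Ideal.span (Set.range (D *ᵥ x)) := by
  classical
  set I := Ideal.span (Set.range (D *ᵥ x)) with hI
  -- interpolate row by row
  let Ds : Finset ι → Matrix ι ι R := fun s => Matrix.of fun l => if l ∈ s then D' l else D l
  have hmul : ∀ s, Ds s *ᵥ x = D *ᵥ x := by
    intro s
    funext l
    by_cases hl : l ∈ s
    · have : (Ds s) l = D' l := by funext b; simp [Ds, hl]
      change (Ds s) l ⬝ᵥ x = _
      rw [this]; exact (congrFun h l).symm
    · have : (Ds s) l = D l := by funext b; simp [Ds, hl]
      change (Ds s) l ⬝ᵥ x = _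
      rw [this]; rfl
  have key : ∀ s : Finset ι, (Ds s).det - D.det ∈ I := by
    intro s
    induction s using Finset.induction_on with
    | empty =>
      have : Ds ∅ = D := by ext a b; simp [Ds]
      rw [this, sub_self]; exact Ideal.zero_mem _
    | insert k s hk ih =>
      have hrow : (Ds s) k = D k := by funext b; simp [Ds, hk]
      have hupd : Ds (insert k s) = (Ds s).updateRow k ((Ds s) k + (D' k - D k)) := by
        ext a b
        by_cases hak : a = k
        · subst hak
          simp [Ds, Matrix.updateRow_apply, hk]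
        · by_cases has : a ∈ s
          · simp [Ds, Matrix.updateRow_apply, hak, has]
          · simp [Ds, Matrix.updateRow_apply, hak, has]
      have hsyz : (D' k - D k) ⬝ᵥ x = 0 := by
        rw [sub_dotProduct]
        have := congrFun h k
        simp only [Matrix.mulVec] at this
        rw [this, sub_self]
      have hmem := s59tate_det_updateRow_koszul (Ds s) x k _ (hx _ hsyz)
      rw [hmul s] at hmem
      rw [hupd, Matrix.det_updateRow_add, Matrix.updateRow_eq_self]
      have : (Ds s).det + ((Ds s).updateRow k (D' k - D k)).det - D.det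
          = ((Ds s).det - D.det) + ((Ds s).updateRow k (D' k - D k)).det := by ring
      rw [this]
      exact Ideal.add_mem _ ih hmem
  have huniv : Ds Finset.univ = D' := by ext a b; simp [Ds]
  have := key Finset.univ
  rw [huniv] at this
  have h2 : D.det - D'.det = -(D'.det - D.det) := by ring
  rw [h2]
  exact Ideal.neg_mem_iff _ |>.mpr this

end Fermat.Agent.S59
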