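/-
S59-NC, piece NC-CI (Tate), part 2 (helper25): the variables of a power series ring.

* `s59tate_dec`  : a power series whose coefficients vanish at all monomials not involving the
                   variables of `s` is a combination of the `X i`, `i ∈ s`;
* `s59tate_koszulSyz_X` : the syzygies of `(X i)_i` are generated by the Koszul syzygies.
-/
import Mathlib.RingTheory.MvPowerSeries.Basic
import Fermat.Agent.S59.NC.TateDet

set_option autoImplicit false

namespace Fermat.Agent.S59

open MvPowerSeries

variable {σ : Type*} [DecidableEq σ] {R : Type*} [CommRing R]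

/-- **DEC.**  If `coeff m g = 0` for every monomial `m` with `m i = 0` for all `i ∈ s`, then
`g = ∑ i ∈ s, b i * X i`. -/
theorem s59tate_dec (s : Finset σ) (g : MvPowerSeries σ R)
    (hg : ∀ m : σ →₀ ℕ, (∀ i ∈ s, m i = 0) → coeff m g = 0) :
    ∃ b : σ → MvPowerSeries σ R, g = ∑ i ∈ s, b i * X i := by
  induction s using Finset.induction_on generalizing g with
  | empty =>
    refine ⟨0, ?_⟩
    rw [Finset.sum_empty]
    ext m
    rw [hg m (by simp), map_zero]
  | insert k s hk ih =>
    let g₁ : MvPowerSeries σ R := fun m => if m k = 0 then 0 else coeff m g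
    have hg₁ : ∀ m, coeff m g₁ = if m k = 0 then 0 else coeff m g := fun m => rfl
    have h1 : (X k : MvPowerSeries σ R) ∣ g₁ := by
      rw [X_dvd_iff]
      intro m hm
      rw [hg₁, if_pos hm]
    obtain ⟨h, hh⟩ := h1
    have h2 : ∀ m : σ →₀ ℕ, (∀ i ∈ s, m i = 0) → coeff m (g - g₁) = 0 := by
      intro m hm
      rw [map_sub, hg₁]
      by_cases hmk : m k = 0
      · rw [if_pos hmk, sub_zero]
        apply hg
        intro i hi
        rcases Finset.mem_insert.1 hi with rfl | hi
        · exact hmk
        · exact hm i hi
      · rw [if_neg hmk, sub_self]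
    obtain ⟨b, hb⟩ := ih (g - g₁) h2
    refine ⟨Function.update b k h, ?_⟩
    rw [Finset.sum_insert hk, Function.update_self]
    have : ∑ i ∈ s, Function.update b k h i * X i = ∑ i ∈ s, b i * X i := by
      apply Finset.sum_congr rfl
      intro i hi
      rw [Function.update_of_ne (fun e : i = k => hk (e ▸ hi))]
    rw [this, ← hb, mul_comm, ← hh]
    ring

/-- Every power series is its constant term plus a combination of the variables. -/
theorem s59tate_dec_const [Fintype σ] (g : MvPowerSeries σ R) :
    ∃ b : σ → MvPowerSeries σ R, g = C (constantCoeff g) + ∑ i, b i * X i := by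
  obtain ⟨b, hb⟩ := s59tate_dec (Finset.univ : Finset σ) (g - C (constantCoeff g)) (by
    intro m hm
    have : m = 0 := by
      ext i
      simpa using hm i (Finset.mem_univ i)
    subst this
    rw [map_sub, coeff_zero_eq_constantCoeff_apply, coeff_zero_eq_constantCoeff_apply]
    simp)
  exact ⟨b, by rw [← hb]; ring⟩

theorem s59tate_koszul_aux [Fintype σ] (s : Finset σ) (v : σ → MvPowerSeries σ R)
    (hv : ∀ i, i ∉ s → v i = 0) (h : ∑ i, v i * X i = 0) :
    v ∈ s59tateKoszul (fun i : σ => (X i : MvPowerSeries σ R)) := by
  induction s using Finset.induction_on generalizing v with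
  | empty =>
    have : v = 0 := by
      funext i
      exact hv i (by simp)
    rw [this]
    exact Submodule.zero_mem _
  | insert k s hk ih =>
    -- the sum over `insert k s`
    have hsum : v k * X k + ∑ i ∈ s, v i * X i = 0 := by
      rw [← Finset.sum_insert (f := fun i => v i * X i) hk, ← h]
      apply Finset.sum_subset (Finset.subset_univ _)
      intro i _ hi
      rw [hv i hi, zero_mul]
    -- `v k` is a combination of the `X i`, `i ∈ s`
    have hdec : ∀ m : σ →₀ ℕ, (∀ i ∈ s, m i = 0) → coeff m (v k) = 0 := by
      intro m hm
      have e1 : coeff (m + Finsupp.single k 1) (v k * X k) = coeff m (v k) := by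
        have := coeff_add_mul_monomial (σ := σ) m (Finsupp.single k 1) (v k) (1 : R)
        rw [mul_one] at this
        exact this
      have e2 : coeff (m + Finsupp.single k 1) (∑ i ∈ s, v i * X i) = 0 := by
        rw [map_sum]
        apply Finset.sum_eq_zero
        intro i hi
        have hd : (X i : MvPowerSeries σ R) ∣ v i * X i := Dvd.intro_left _ rfl
        rw [X_dvd_iff] at hd
        apply hd
        have hik : k ≠ i := fun e => hk (e ▸ hi)
        simp [Finsupp.add_apply, hm i hi, Finsupp.single_eq_of_ne' hik]
      have := congrArg (coeff (m + Finsupp.single k 1)) hsum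
      rw [map_add, e1, e2, add_zero, map_zero] at this
      exact this
    obtain ⟨b, hb⟩ := s59tate_dec s (v k) hdec
    -- the corrected vector
    let v' : σ → MvPowerSeries σ R := fun i => if i ∈ s then v i + b i * X k else 0
    have hv' : ∀ i, i ∉ s → v' i = 0 := fun i hi => by simp [v', hi]
    have hsum' : ∑ i, v' i * X i = 0 := by
      have : ∑ i, v' i * X i = ∑ i ∈ s, v' i * X i := by
        symm
        apply Finset.sum_subset (Finset.subset_univ _)
        intro i _ hi
        rw [hv' i hi, zero_mul]
      rw [this]
      have : ∑ i ∈ s, v' i * X i = ∑ i ∈ s, v i * X i + X k * ∑ i ∈ s, b i * X i := by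
        rw [Finset.mul_sum, ← Finset.sum_add_distrib]
        apply Finset.sum_congr rfl
        intro i hi
        simp only [v', if_pos hi]
        ring
      rw [this, ← hb, mul_comm (X k), add_comm]
      exact hsum
    have hmem' := ih v' hv' hsum'
    -- `v = v' + ∑ i ∈ s, b i • (X i • e_k - X k • e_i)`
    have hv_eq : v = v' + ∑ i ∈ s, b i • ((X i : MvPowerSeries σ R) •
        (Pi.single k (1 : MvPowerSeries σ R) : σ → MvPowerSeries σ R)
        - (X k : MvPowerSeries σ R) • (Pi.single i (1 : MvPowerSeries σ R))) := by
      funext j
      simp only [Pi.add_apply, Finset.sum_apply, Pi.smul_apply, Pi.sub_apply, smul_eq_mul,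
        Pi.single_apply, mul_ite, mul_one, mul_zero]
      by_cases hjk : j = k
      · subst hjk
        have hjs : ∀ i ∈ s, ¬ (j = i) := fun i hi e => hk (e ▸ hi)
        have : ∑ i ∈ s, b i * ((if j = j then X i else 0) - if j = i then X j else 0)
            = ∑ i ∈ s, b i * X i := by
          apply Finset.sum_congr rfl
          intro i hi
          rw [if_pos rfl, if_neg (hjs i hi), sub_zero]
        rw [this, ← hb]
        simp [v', hk]
      · by_cases hjs : j ∈ s
        · have : ∑ i ∈ s, b i * ((if j = k then X i else 0) - if j = i then X k else 0)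
              = - (b j * X k) := by
            rw [Finset.sum_eq_single j]
            · rw [if_neg hjk, if_pos rfl]; ring
            · intro i _ hij
              rw [if_neg hjk, if_neg (Ne.symm hij)]; ring
            · intro hj; exact absurd hjs hj
          rw [this]
          simp only [v', if_pos hjs]
          ring
        · have : ∑ i ∈ s, b i * ((if j = k then X i else 0) - if j = i then X k else 0) = 0 := by
            apply Finset.sum_eq_zero
            intro i hi
            have : ¬ (j = i) := fun e => hjs (e ▸ hi)
            rw [if_neg hjk, if_neg this]; ring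
          rw [this, hv' j hjs, hv j (by simp [hjk, hjs])]
          ring
    rw [hv_eq]
    refine Submodule.add_mem _ hmem' (Submodule.sum_mem _ fun i _ => Submodule.smul_mem _ _ ?_)
    exact Submodule.subset_span ⟨(k, i), rfl⟩

/-- The syzygies of the variables of a power series ring are the Koszul syzygies. -/
theorem s59tate_koszulSyz_X [Fintype σ] :
    S59TateKoszulSyz (fun i : σ => (X i : MvPowerSeries σ R)) := by
  intro v hv
  exact s59tate_koszul_aux Finset.univ v (fun i hi => absurd (Finset.mem_univ i) hi)
    (by simpa [dotProduct] using hv)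

end Fermat.Agent.S59
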