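/-
S59-NC, piece NC-CI (Tate), part 3 (helper25): **TATE-k**.

In a power series ring `R⟦X⟧` (`R` nontrivial), if `f = M • X` and `X i ^ N ∈ (f)` for all `i`,
then `det M ∉ (f)`.
Proof: `X^(N+1) = C f = (C M) X = diag(X^N) X`, so by DET-WD
`det C * det M ≡ ∏ X_i^N mod (X^(N+1))`, `det C * (f) ⊆ (X^(N+1))`, `∏ X_i^N ∉ (X^(N+1))`.
-/
import Mathlib.RingTheory.Ideal.Operations
import Fermat.Agent.S59.NC.TateSyz

set_option autoImplicit false

namespace Fermat.Agent.S59

open MvPowerSeries Matrix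

variable {σ : Type*} [Fintype σ] [DecidableEq σ] {R : Type*} [CommRing R]

/-- Elements of `(X_i^(N+1))_i` have zero coefficient at the monomial `(N, …, N)`. -/
theorem s59tate_coeff_of_mem (N : ℕ) (g : MvPowerSeries σ R)
    (hg : g ∈ Ideal.span (Set.range fun i : σ => (X i : MvPowerSeries σ R) ^ (N + 1))) :
    coeff (∑ i : σ, Finsupp.single i N) g = 0 := by
  obtain ⟨c, rfl⟩ := Ideal.mem_span_range_iff_exists_fun.1 hg
  rw [map_sum]
  apply Finset.sum_eq_zero
  intro i _
  have hd : (X i : MvPowerSeries σ R) ^ (N + 1) ∣ c i * X i ^ (N + 1) := Dvd.intro_left _ rfl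
  rw [X_pow_dvd_iff] at hd
  apply hd
  rw [Finsupp.finset_sum_apply, Finsupp.univ_sum_single_apply']
  exact Nat.lt_succ_self N

theorem s59tate_prod_notMem [Nontrivial R] (N : ℕ) :
    (∏ i : σ, (X i : MvPowerSeries σ R) ^ N) ∉
      Ideal.span (Set.range fun i : σ => (X i : MvPowerSeries σ R) ^ (N + 1)) := by
  intro h
  have h0 := s59tate_coeff_of_mem N _ h
  have h1 : (∏ i : σ, (X i : MvPowerSeries σ R) ^ N)
      = monomial (∑ i : σ, Finsupp.single i N) (1 : R) := by
    have := prod_monomial (R := R) (fun i : σ => Finsupp.single i N) (fun _ => (1 : R))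
      Finset.univ
    rw [Finset.prod_const_one] at this
    rw [← this]
    apply Finset.prod_congr rfl
    intro i _
    rw [X_pow_eq]
  rw [h1, coeff_monomial_same] at h0
  exact one_ne_zero h0

/-- **TATE-k.** -/
theorem s59tate_det_notMem [Nontrivial R] (f : σ → MvPowerSeries σ R)
    (M : Matrix σ σ (MvPowerSeries σ R))
    (hf : ∀ i, f i = ∑ j, M i j * X j) (N : ℕ)
    (hN : ∀ i, (X i : MvPowerSeries σ R) ^ N ∈ Ideal.span (Set.range f)) :
    M.det ∉ Ideal.span (Set.range f) := by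
  intro hdet
  set x : σ → MvPowerSeries σ R := fun i => X i with hx
  have hN' : ∀ i, (X i : MvPowerSeries σ R) ^ (N + 1) ∈ Ideal.span (Set.range f) := fun i => by
    rw [pow_succ]; exact Ideal.mul_mem_right _ _ (hN i)
  choose C hC using fun i => Ideal.mem_span_range_iff_exists_fun.1 (hN' i)
  set Cm : Matrix σ σ (MvPowerSeries σ R) := Matrix.of C with hCm
  set J := Ideal.span (Set.range fun i : σ => (X i : MvPowerSeries σ R) ^ (N + 1)) with hJ
  have hMx : M *ᵥ x = f := by
    funext i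
    rw [hf i]
    rfl
  have hCf : Cm *ᵥ f = fun i => (X i : MvPowerSeries σ R) ^ (N + 1) := by
    funext i
    rw [← hC i]
    rfl
  have hDx : (Cm * M) *ᵥ x = fun i => (X i : MvPowerSeries σ R) ^ (N + 1) := by
    rw [← Matrix.mulVec_mulVec, hMx, hCf]
  have hD'x : (Matrix.diagonal fun i : σ => (X i : MvPowerSeries σ R) ^ N) *ᵥ x
      = fun i => (X i : MvPowerSeries σ R) ^ (N + 1) := by
    funext i
    rw [Matrix.mulVec_diagonal, pow_succ]
  have wd := s59tate_det_wd x s59tate_koszulSyz_X (Cm * M)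
    (Matrix.diagonal fun i : σ => (X i : MvPowerSeries σ R) ^ N) (by rw [hDx, hD'x])
  rw [hDx, Matrix.det_mul, Matrix.det_diagonal] at wd
  -- `det C * f j ∈ J`
  have hCfj : ∀ j, Cm.det * f j ∈ J := by
    intro j
    have h1 : Cm.det • f = Cm.adjugate *ᵥ (Cm *ᵥ f) := by
      rw [Matrix.mulVec_mulVec, Matrix.adjugate_mul, Matrix.smul_mulVec, Matrix.one_mulVec]
    have h2 : Cm.det * f j = (Cm.adjugate *ᵥ (Cm *ᵥ f)) j := by
      rw [← h1]; rfl
    rw [h2, hCf]
    change ∑ i, Cm.adjugate j i * (X i : MvPowerSeries σ R) ^ (N + 1) ∈ J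
    exact J.sum_mem fun i _ => J.mul_mem_left _ (Ideal.subset_span ⟨i, rfl⟩)
  have hCM : Cm.det * M.det ∈ J := by
    obtain ⟨c, hc⟩ := Ideal.mem_span_range_iff_exists_fun.1 hdet
    rw [← hc, Finset.mul_sum]
    refine J.sum_mem fun j _ => ?_
    have : Cm.det * (c j * f j) = c j * (Cm.det * f j) := by ring
    rw [this]
    exact J.mul_mem_left _ (hCfj j)
  have hprod : (∏ i : σ, (X i : MvPowerSeries σ R) ^ N) ∈ J := by
    have : (∏ i : σ, (X i : MvPowerSeries σ R) ^ N)
        = Cm.det * M.det - (Cm.det * M.det - ∏ i : σ, (X i : MvPowerSeries σ R) ^ N) := by ring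
    rw [this]
    exact J.sub_mem hCM wd
  exact s59tate_prod_notMem N hprod

end Fermat.Agent.S59
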