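/-
S59-NC, piece NC-CI (Tate), part 5 (helper25): `T` local and finite over a DVR `𝒪` with
uniformizer `ϖ` (not a unit of `T`): some power of the maximal ideal of `T` lies in `ϖ T`.
-/
import Mathlib.RingTheory.DiscreteValuationRing.Basic
import Mathlib.RingTheory.Artinian.Ring
import Mathlib.RingTheory.LocalRing.Quotient
import Mathlib.RingTheory.Jacobson.Ideal
import Mathlib.RingTheory.LocalRing.ResidueField.Basic

set_option autoImplicit false

namespace Fermat.Agent.S59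

open IsLocalRing

variable {𝒪 : Type*} [CommRing 𝒪] [IsDomain 𝒪] [IsDiscreteValuationRing 𝒪]
variable {T : Type*} [CommRing T] [Algebra 𝒪 T] [IsLocalRing T] [Module.Finite 𝒪 T]

theorem s59tate_pow_mem (ϖ : 𝒪) (hϖ : Irreducible ϖ) (hnu : ¬ IsUnit (algebraMap 𝒪 T ϖ)) :
    ∃ N : ℕ, ∀ t ∈ maximalIdeal T, t ^ N ∈ Ideal.span {algebraMap 𝒪 T ϖ} := by
  classical
  set I : Ideal T := Ideal.span {algebraMap 𝒪 T ϖ} with hI
  have hIm : I ≤ maximalIdeal T := by
    rw [hI, Ideal.span_le, Set.singleton_subset_iff]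
    exact hnu
  have hItop : I ≠ ⊤ := fun h => by
    have : (1 : T) ∈ maximalIdeal T := hIm (h ▸ Submodule.mem_top)
    exact (Ideal.ne_top_iff_one _).1 (maximalIdeal.isMaximal T).ne_top this
  haveI : Nontrivial (T ⧸ I) := Ideal.Quotient.nontrivial_iff.2 hItop
  haveI : IsLocalRing (T ⧸ I) :=
    IsLocalRing.of_surjective' (Ideal.Quotient.mk I) Ideal.Quotient.mk_surjective
  -- the residue field acts on `T ⧸ I`
  have hle : maximalIdeal 𝒪 ≤ I.comap (algebraMap 𝒪 T) := by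
    rw [(IsDiscreteValuationRing.irreducible_iff_uniformizer ϖ).1 hϖ, Ideal.span_le,
      Set.singleton_subset_iff]
    exact Ideal.subset_span rfl
  let φ : ResidueField 𝒪 →+* T ⧸ I := Ideal.quotientMap I (algebraMap 𝒪 T) hle
  letI : Algebra (ResidueField 𝒪) (T ⧸ I) := φ.toAlgebra
  haveI : IsScalarTower 𝒪 (ResidueField 𝒪) (T ⧸ I) :=
    IsScalarTower.of_algebraMap_eq fun x => rfl
  haveI : Module.Finite 𝒪 (T ⧸ I) :=
    Module.Finite.of_surjective (Ideal.Quotient.mkₐ 𝒪 I).toLinearMap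
      (Ideal.Quotient.mkₐ_surjective 𝒪 I)
  haveI : Module.Finite (ResidueField 𝒪) (T ⧸ I) :=
    Module.Finite.of_restrictScalars_finite 𝒪 (ResidueField 𝒪) (T ⧸ I)
  haveI : IsArtinianRing (T ⧸ I) := IsArtinianRing.of_finite (ResidueField 𝒪) (T ⧸ I)
  obtain ⟨N, hN⟩ := IsArtinianRing.isNilpotent_jacobson_bot (R := T ⧸ I)
  refine ⟨N, fun t ht => ?_⟩
  have h1 : Ideal.Quotient.mk I t ∈ maximalIdeal (T ⧸ I) := by
    intro hu
    apply ht
    obtain ⟨s, hs⟩ := Ideal.Quotient.mk_surjective (hu.unit⁻¹ : (T ⧸ I)ˣ).val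
    have h2 : Ideal.Quotient.mk I (t * s - 1) = 0 := by
      rw [map_sub, map_mul, hs, map_one, IsUnit.mul_val_inv, sub_self]
    have h3 : t * s - 1 ∈ maximalIdeal T := hIm (Ideal.Quotient.eq_zero_iff_mem.1 h2)
    have h4 : IsUnit (t * s) := by
      by_contra h
      have h5 : t * s ∈ maximalIdeal T := h
      have : (1 : T) ∈ maximalIdeal T := by
        have := Ideal.sub_mem _ h5 h3
        simpa using this
      exact (Ideal.ne_top_iff_one _).1 (maximalIdeal.isMaximal T).ne_top this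
    exact isUnit_of_mul_isUnit_left h4
  rw [← IsLocalRing.jacobson_eq_maximalIdeal (⊥ : Ideal (T ⧸ I)) bot_ne_top] at h1
  have h6 := Ideal.pow_mem_pow h1 N
  rw [hN, Ideal.zero_eq_bot, Ideal.mem_bot, ← map_pow] at h6
  exact Ideal.Quotient.eq_zero_iff_mem.1 h6

end Fermat.Agent.S59
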