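/-
S59-NC, piece NC-CI (Tate), part 6 (helper25): the power series side.

`A = 𝒪⟦X₁..X_r⟧`, `γ : A ↠ T`, `ker γ = (f)`, `π : T → 𝒪`, `ψ = π ∘ γ`, `a i = ψ (X i)`,
`y i = X i - C (a i)`.  Then (`s59tate_ps_main`):
`ker π = (γ y)`, `f = M • y`, `γ (det M)` kills `ker π` and `γ (det M) ∉ ϖ T`.
No completeness of `𝒪` is used: `ker ψ = (y)` by Nakayama.
-/
import Mathlib.RingTheory.MvPowerSeries.Inverse
import Mathlib.RingTheory.Finiteness.Ideal
import Mathlib.RingTheory.Noetherian.Basic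
import Mathlib.RingTheory.PrincipalIdealDomain
import Fermat.Agent.S59.NC.TateK
import Fermat.Agent.S59.NC.TateAbs
import Fermat.Agent.S59.NC.TateNil

set_option autoImplicit false

namespace Fermat.Agent.S59

open IsLocalRing MvPowerSeries Matrix

variable {𝒪 : Type*} [CommRing 𝒪] [IsDomain 𝒪] [IsDiscreteValuationRing 𝒪]
variable {T : Type*} [CommRing T] [Algebra 𝒪 T] [IsLocalRing T] [Module.Finite 𝒪 T]
variable {r : ℕ}

theorem s59tate_gamma_C (γ : MvPowerSeries (Fin r) 𝒪 →ₐ[𝒪] T) (c : 𝒪) :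
    γ (C c) = algebraMap 𝒪 T c := by
  rw [c_eq_algebraMap, AlgHom.commutes]

theorem s59tate_pi_algebraMap (π : T →ₐ[𝒪] 𝒪) (c : 𝒪) : π (algebraMap 𝒪 T c) = c := by
  rw [AlgHom.commutes]; rfl

/-- `a i = π (γ (X i))` is not a unit. -/
theorem s59tate_a_mem (γ : MvPowerSeries (Fin r) 𝒪 →ₐ[𝒪] T) (π : T →ₐ[𝒪] 𝒪) (i : Fin r) :
    π (γ (X i)) ∈ maximalIdeal 𝒪 := by
  intro hu
  obtain ⟨u, hu'⟩ := hu
  -- `w = 1 - X i * C u⁻¹` is a unit mapped to `0`
  have hw : IsUnit (1 - (X i : MvPowerSeries (Fin r) 𝒪) * C (↑u⁻¹ : 𝒪)) := by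
    rw [MvPowerSeries.isUnit_iff_constantCoeff]
    simp
  have h0 : π (γ (1 - (X i : MvPowerSeries (Fin r) 𝒪) * C (↑u⁻¹ : 𝒪))) = 0 := by
    rw [map_sub, map_mul, map_one, map_sub, map_mul, map_one, s59tate_gamma_C,
      s59tate_pi_algebraMap, ← hu']
    simp
  have h1 : IsUnit (π (γ (1 - (X i : MvPowerSeries (Fin r) 𝒪) * C (↑u⁻¹ : 𝒪)))) :=
    (hw.map γ).map π
  rw [h0] at h1
  exact not_isUnit_zero h1

/-- The translated variables `y i = X i - C (π (γ (X i)))`. -/
noncomputable def s59tateY (γ : MvPowerSeries (Fin r) 𝒪 →ₐ[𝒪] T) (π : T →ₐ[𝒪] 𝒪) (i : Fin r) :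
    MvPowerSeries (Fin r) 𝒪 :=
  X i - C (π (γ (X i)))

theorem s59tate_psi_C (γ : MvPowerSeries (Fin r) 𝒪 →ₐ[𝒪] T) (π : T →ₐ[𝒪] 𝒪) (c : 𝒪) :
    π (γ (C c)) = c := by
  rw [s59tate_gamma_C, s59tate_pi_algebraMap]

theorem s59tate_psi_Y (γ : MvPowerSeries (Fin r) 𝒪 →ₐ[𝒪] T) (π : T →ₐ[𝒪] 𝒪) (i : Fin r) :
    π (γ (s59tateY γ π i)) = 0 := by
  rw [s59tateY, map_sub, map_sub, s59tate_psi_C, sub_self]

/-- **`ker ψ = (y)`**, by Nakayama (no completeness). -/
theorem s59tate_ker_psi (γ : MvPowerSeries (Fin r) 𝒪 →ₐ[𝒪] T)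
    (f : Fin r → MvPowerSeries (Fin r) 𝒪) (hsurj : Function.Surjective γ)
    (hker : RingHom.ker (γ : MvPowerSeries (Fin r) 𝒪 →+* T) = Ideal.span (Set.range f))
    (π : T →ₐ[𝒪] 𝒪) :
    RingHom.ker ((π : T →+* 𝒪).comp (γ : MvPowerSeries (Fin r) 𝒪 →+* T))
      = Ideal.span (Set.range (s59tateY γ π)) := by
  classical
  set ψ := (π : T →+* 𝒪).comp (γ : MvPowerSeries (Fin r) 𝒪 →+* T) with hψ
  have hψapp : ∀ g, ψ g = π (γ g) := fun g => rfl
  set Q := Ideal.span (Set.range (s59tateY γ π)) with hQ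
  apply le_antisymm
  · -- Nakayama
    haveI : IsNoetherianRing T := IsNoetherianRing.of_finite 𝒪 T
    have hPfg : (RingHom.ker ψ).FG := by
      refine Ideal.fg_ker_comp (γ : MvPowerSeries (Fin r) 𝒪 →+* T) (π : T →+* 𝒪) ?_ ?_ hsurj
      · rw [hker]; exact Submodule.fg_span (Set.finite_range f)
      · exact IsNoetherian.noetherian _
    set 𝔞 : Ideal (MvPowerSeries (Fin r) 𝒪) :=
      Ideal.span (Set.range fun i : Fin r => (C (π (γ (X i))) : MvPowerSeries (Fin r) 𝒪)) with h𝔞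
    have h𝔞j : 𝔞 ≤ Ideal.jacobson ⊥ := by
      rw [IsLocalRing.jacobson_eq_maximalIdeal ⊥ bot_ne_top, h𝔞, Ideal.span_le]
      rintro _ ⟨i, rfl⟩
      change ¬ IsUnit _
      rw [MvPowerSeries.isUnit_iff_constantCoeff, constantCoeff_C]
      exact s59tate_a_mem γ π i
    refine Submodule.le_of_le_smul_of_le_jacobson_bot hPfg h𝔞j ?_
    intro g hg
    rw [RingHom.mem_ker, hψapp] at hg
    obtain ⟨b, hb⟩ := s59tate_dec_const g
    -- `ψ g = g₀ + ∑ ψ (b i) * a i`
    have h1 : constantCoeff g + ∑ i, π (γ (b i)) * π (γ (X i)) = 0 := by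
      have := hg
      rw [hb, map_add, map_add, s59tate_psi_C, map_sum, map_sum] at this
      simpa only [map_mul] using this
    have h2 : g = ∑ i, b i * s59tateY γ π i
        + ∑ i, (C (π (γ (X i))) : MvPowerSeries (Fin r) 𝒪) * (b i - C (π (γ (b i)))) := by
      have h3 : (C (constantCoeff g) : MvPowerSeries (Fin r) 𝒪)
          = - ∑ i, C (π (γ (b i))) * C (π (γ (X i))) := by
        rw [eq_neg_of_add_eq_zero_left h1, map_neg, map_sum]
        simp only [map_mul]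
      conv_lhs => rw [hb, h3]
      simp only [s59tateY, mul_sub, Finset.sum_sub_distrib]
      have : ∑ i, (C (π (γ (X i))) : MvPowerSeries (Fin r) 𝒪) * b i
          = ∑ i, b i * C (π (γ (X i))) :=
        Finset.sum_congr rfl fun i _ => mul_comm _ _
      have h4 : ∑ i, (C (π (γ (X i))) : MvPowerSeries (Fin r) 𝒪) * C (π (γ (b i)))
          = ∑ i, C (π (γ (b i))) * C (π (γ (X i))) :=
        Finset.sum_congr rfl fun i _ => mul_comm _ _
      rw [this, h4]
      ring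
    rw [h2]
    refine Submodule.add_mem_sup ?_ ?_
    · exact Ideal.sum_mem _ fun i _ => Ideal.mul_mem_left _ _ (Ideal.subset_span ⟨i, rfl⟩)
    · refine Submodule.sum_mem _ fun i _ => ?_
      refine Submodule.smul_mem_smul (Ideal.subset_span ⟨i, rfl⟩) ?_
      rw [RingHom.mem_ker, hψapp, map_sub, map_sub, s59tate_psi_C, sub_self]
  · rw [hQ, Ideal.span_le]
    rintro _ ⟨i, rfl⟩
    rw [SetLike.mem_coe, RingHom.mem_ker, hψapp]
    exact s59tate_psi_Y γ π i

/-- **The power series side of Tate's theorem.** -/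
theorem s59tate_ps_main (γ : MvPowerSeries (Fin r) 𝒪 →ₐ[𝒪] T)
    (f : Fin r → MvPowerSeries (Fin r) 𝒪) (hsurj : Function.Surjective γ)
    (hker : RingHom.ker (γ : MvPowerSeries (Fin r) 𝒪 →+* T) = Ideal.span (Set.range f))
    (π : T →ₐ[𝒪] 𝒪) (ϖ : 𝒪) (hϖ : Irreducible ϖ) :
    ∃ M : Matrix (Fin r) (Fin r) (MvPowerSeries (Fin r) 𝒪),
      RingHom.ker (π : T →+* 𝒪) = Ideal.span (Set.range fun j => γ (s59tateY γ π j)) ∧
      (∀ i, f i = ∑ j, M i j * s59tateY γ π j) ∧
      (∀ t ∈ RingHom.ker (π : T →+* 𝒪), γ M.det * t = 0) ∧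
      (∀ t : T, γ M.det ≠ ϖ • t) := by
  classical
  set y := s59tateY γ π with hy
  have hP := s59tate_ker_psi γ f hsurj hker π
  have hkerγ : ∀ g, g ∈ Ideal.span (Set.range f) → γ g = 0 := by
    intro g hg
    rw [← hker] at hg
    exact hg
  have hkerγ' : ∀ g, γ g = 0 → g ∈ Ideal.span (Set.range f) := by
    intro g hg
    rw [← hker]
    exact hg
  -- `ker π = (γ y)`
  have hkerπ : RingHom.ker (π : T →+* 𝒪) = Ideal.span (Set.range fun j => γ (y j)) := by
    have h1 := Ideal.map_comap_of_surjective (γ : MvPowerSeries (Fin r) 𝒪 →+* T) hsurj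
      (RingHom.ker (π : T →+* 𝒪))
    rw [RingHom.comap_ker, hP, Ideal.map_span, ← Set.range_comp] at h1
    exact h1.symm
  -- the matrix
  have hfy : ∀ i, f i ∈ Ideal.span (Set.range y) := by
    intro i
    rw [← hP, RingHom.mem_ker]
    change π (γ (f i)) = 0
    rw [hkerγ _ (Ideal.subset_span ⟨i, rfl⟩), map_zero]
  choose Mf hMf using fun i => Ideal.mem_span_range_iff_exists_fun.1 (hfy i)
  set M : Matrix (Fin r) (Fin r) (MvPowerSeries (Fin r) 𝒪) := Matrix.of Mf with hM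
  have hMy : M *ᵥ y = f := by
    funext i
    rw [← hMf i]
    rfl
  have hdy : ∀ j, M.det * y j ∈ Ideal.span (Set.range f) := by
    intro j
    have h1 : M.det • y = M.adjugate *ᵥ (M *ᵥ y) := by
      rw [Matrix.mulVec_mulVec, Matrix.adjugate_mul, Matrix.smul_mulVec, Matrix.one_mulVec]
    have h2 : M.det * y j = (M.adjugate *ᵥ (M *ᵥ y)) j := by
      rw [← h1]; rfl
    rw [h2, hMy]
    change ∑ i, M.adjugate j i * f i ∈ _
    exact Ideal.sum_mem _ fun i _ => Ideal.mul_mem_left _ _ (Ideal.subset_span ⟨i, rfl⟩)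
  refine ⟨M, hkerπ, fun i => (hMf i).symm, ?_, ?_⟩
  · intro t ht
    rw [hkerπ] at ht
    obtain ⟨c, rfl⟩ := Ideal.mem_span_range_iff_exists_fun.1 ht
    rw [Finset.mul_sum]
    apply Finset.sum_eq_zero
    intro j _
    have : γ M.det * (c j * γ (y j)) = c j * γ (M.det * y j) := by
      rw [map_mul]; ring
    rw [this, hkerγ _ (hdy j), mul_zero]
  · -- reduction to the residue field
    set red : MvPowerSeries (Fin r) 𝒪 →+* MvPowerSeries (Fin r) (ResidueField 𝒪) :=
      MvPowerSeries.map (residue 𝒪) with hred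
    have hϖm : ϖ ∈ maximalIdeal 𝒪 := hϖ.not_isUnit
    have hredC : red (C ϖ) = 0 := by
      rw [hred, map_C, (residue_eq_zero_iff ϖ).2 hϖm, map_zero]
    have hredY : ∀ j, red (y j) = X j := by
      intro j
      rw [hy, s59tateY, map_sub, hred, map_X, map_C,
        (residue_eq_zero_iff _).2 (s59tate_a_mem γ π j), map_zero, sub_zero]
    set fbar : Fin r → MvPowerSeries (Fin r) (ResidueField 𝒪) := fun i => red (f i) with hfbar
    set Mbar : Matrix (Fin r) (Fin r) (MvPowerSeries (Fin r) (ResidueField 𝒪)) :=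
      M.map red with hMbar
    have hfM : ∀ i, fbar i = ∑ j, Mbar i j * X j := by
      intro i
      rw [hfbar]
      simp only
      rw [← hMf i, map_sum]
      refine Finset.sum_congr rfl fun j _ => ?_
      rw [map_mul, hredY j]
      rfl
    have hmapspan : ∀ g, γ g = 0 → red g ∈ Ideal.span (Set.range fbar) := by
      intro g hg
      have h1 := Ideal.mem_map_of_mem red (hkerγ' g hg)
      rw [Ideal.map_span, ← Set.range_comp] at h1
      exact h1
    have hnu : ¬ IsUnit (algebraMap 𝒪 T ϖ) := by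
      intro hu
      have := hu.map π
      rw [s59tate_pi_algebraMap] at this
      exact hϖ.not_isUnit this
    obtain ⟨N, hN⟩ := s59tate_pow_mem (T := T) ϖ hϖ hnu
    have hXN : ∀ i, (X i : MvPowerSeries (Fin r) (ResidueField 𝒪)) ^ N
        ∈ Ideal.span (Set.range fbar) := by
      intro i
      have hm : γ (X i) ∈ maximalIdeal T := by
        intro hu
        exact s59tate_a_mem γ π i (hu.map π)
      obtain ⟨t, ht⟩ := Ideal.mem_span_singleton.1 (hN _ hm)
      obtain ⟨g, rfl⟩ := hsurj t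
      have h0 : γ ((X i : MvPowerSeries (Fin r) 𝒪) ^ N - C ϖ * g) = 0 := by
        rw [map_sub, map_pow, map_mul, s59tate_gamma_C, ht, sub_self]
      have := hmapspan _ h0
      rw [map_sub, map_pow, map_mul, hredC, zero_mul, sub_zero, hred, map_X] at this
      exact this
    have hT := s59tate_det_notMem fbar Mbar hfM N hXN
    intro t ht
    obtain ⟨g, rfl⟩ := hsurj t
    have h0 : γ (M.det - C ϖ * g) = 0 := by
      rw [map_sub, map_mul, s59tate_gamma_C, ht, Algebra.smul_def, sub_self]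
    have := hmapspan _ h0
    rw [map_sub, map_mul, hredC, zero_mul, sub_zero, RingHom.map_det] at this
    exact hT this

end Fermat.Agent.S59
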