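/-
S59-NC, piece NC-CI (Tate), final assembly (helper25):
`s59tate_stmtNCCI 𝒪 : s59p_StmtNCCI 𝒪` — a finite free local `𝒪`-algebra `T = 𝒪⟦X₁..X_r⟧/(f₁..f_r)`
satisfies `length Φ_T ≤ length (𝒪 ⧸ η_T)` for every augmentation.
-/
import Fermat.Agent.S59.Plan
import Fermat.Agent.S59.NC.LenDet
import Fermat.Agent.S59.NC.TatePS

set_option autoImplicit false

namespace Fermat.Agent.S59

open IsLocalRing MvPowerSeries Matrix

/-- **NC-CI (Tate).** -/
theorem s59tate_stmtNCCI (𝒪 : Type) [CommRing 𝒪] [IsDomain 𝒪] [IsDiscreteValuationRing 𝒪] :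
    s59p_StmtNCCI 𝒪 := by
  intro T _ _ _ _ _ r γ f hsurj hker πT
  classical
  by_cases hη : s59p_eta 𝒪 πT = ⊥
  · rw [hη, s59tate_length_quot_bot]
    exact le_top
  obtain ⟨ϖ, hϖ⟩ := IsDiscreteValuationRing.exists_irreducible 𝒪
  obtain ⟨M, hkerπ, hfM, hkill, hnd⟩ := s59tate_ps_main γ f hsurj hker πT ϖ hϖ
  have hkerγ : ∀ i, γ (f i) = 0 := by
    intro i
    have : f i ∈ RingHom.ker (γ : MvPowerSeries (Fin r) 𝒪 →+* T) := by
      rw [hker]; exact Ideal.subset_span ⟨i, rfl⟩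
    exact this
  -- `η = (π (γ (det M)))`
  have hηeq : s59p_eta 𝒪 πT = Ideal.span {πT (γ M.det)} :=
    s59tate_eta_eq πT ϖ hϖ (γ M.det) hkill hnd hη
  -- the matrix `Λ = ψ(M)`
  set ψ : MvPowerSeries (Fin r) 𝒪 →+* 𝒪 :=
    (πT : T →+* 𝒪).comp (γ : MvPowerSeries (Fin r) 𝒪 →+* T) with hψ
  set Λ : Matrix (Fin r) (Fin r) 𝒪 := M.map ψ with hΛ
  have hdet : πT (γ M.det) = Λ.det := by
    have := RingHom.map_det ψ M
    exact this
  have hΛ0 : Λ.det ≠ 0 := by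
    intro h0
    apply hη
    rw [hηeq, hdet, h0]
    exact Ideal.span_singleton_eq_bot.2 rfl
  -- the cotangent bound
  have hcot := s59tate_cot_le πT (fun j => γ (s59tateY γ πT j)) hkerπ (M.map γ)
    (fun i => by
      have := hkerγ i
      rw [hfM i, map_sum] at this
      simpa only [map_mul, Matrix.map_apply] using this)
    Λ (fun i j => rfl)
  have hlen := NC.s59ncld_stmtLenDet.{0} 𝒪 r Λ hΛ0
  rw [hηeq, hdet, ← hlen]
  exact hcot

end Fermat.Agent.S59
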