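/-
S59-NC, piece NC-Fit (owner helper5): `s59nc_fit : s59nc_StmtFit` (Cramer; `Fitt Φ ⊆ η`).

Toolbox (used by NC-Mat and NC-Cot as well):
* `s59ncf_mem_span_X`      : `h(0) = 0 → h ∈ (X₁,…,X_n)`;
* `s59ncf_exists_sum`      : `h(0) = 0 → ∃ q, ∑ j, q j * X j = h`;
* `s59ncf_coeff_single_mul`: Leibniz rule for the linear coefficients;
* `s59ncf_lin_sum_mul_X`   : `lin (∑ k, q k * X k) j = q j (0)`;
* `s59ncf_adjugate_mulVec` : `B v = w → det B * v i = ∑ k, adj B i k * w k`.
Mathlib + S53/PowerSeries.lean only.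
-/
import Fermat.Agent.S59.NC.Plan
import Fermat.Agent.S53.PowerSeries
import Mathlib.LinearAlgebra.Matrix.Adjugate
import Mathlib.RingTheory.MvPowerSeries.Trunc

set_option autoImplicit false

namespace Fermat.Agent.S59.NC

open MvPowerSeries

universe u

/-- A power series without constant term lies in the ideal `(X₁,…,X_n)`. -/
theorem s59ncf_mem_span_X {𝒪 : Type*} [CommRing 𝒪] {n : ℕ} (h : MvPowerSeries (Fin n) 𝒪)
    (h0 : constantCoeff h = 0) :
    h ∈ Ideal.span (Set.range (X : Fin n → MvPowerSeries (Fin n) 𝒪)) := by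
  have h1 := Fermat.Agent.S53.mvPowerSeries_sub_truncTotal_mem_pow (σ := Fin n) h 1
  have h2 : truncTotal 1 h = 0 := by
    ext x
    rw [coeff_truncTotal_eq_ite]
    split_ifs with hx
    · have hx0 : x = 0 := by
        have : x.degree = 0 := by omega
        exact (Finsupp.degree_eq_zero_iff x).mp this
      subst hx0
      rw [MvPolynomial.coeff_zero]
      rw [coeff_zero_eq_constantCoeff_apply]
      exact h0
    · rw [MvPolynomial.coeff_zero]
  rw [h2, pow_one] at h1
  simpa using h1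

/-- A power series without constant term is `∑ j, q j * X j`. -/
theorem s59ncf_exists_sum {𝒪 : Type*} [CommRing 𝒪] {n : ℕ} (h : MvPowerSeries (Fin n) 𝒪)
    (h0 : constantCoeff h = 0) :
    ∃ q : Fin n → MvPowerSeries (Fin n) 𝒪, ∑ j, q j * X j = h :=
  Ideal.mem_span_range_iff_exists_fun.mp (s59ncf_mem_span_X h h0)

/-- Leibniz rule for the linear coefficients. -/
theorem s59ncf_coeff_single_mul {𝒪 : Type*} [CommRing 𝒪] {n : ℕ}
    (φ ψ : MvPowerSeries (Fin n) 𝒪) (i : Fin n) :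
    coeff (Finsupp.single i 1) (φ * ψ) =
      constantCoeff φ * coeff (Finsupp.single i 1) ψ +
        coeff (Finsupp.single i 1) φ * constantCoeff ψ := by
  classical
  rw [coeff_mul, Finsupp.antidiagonal_single, Finset.sum_map]
  simp [Finset.Nat.antidiagonal_succ, coeff_zero_eq_constantCoeff_apply]

theorem s59ncf_lin_mul {𝒪 : Type*} [CommRing 𝒪] {n : ℕ}
    (φ ψ : MvPowerSeries (Fin n) 𝒪) (i : Fin n) :
    s59ncLin (φ * ψ) i =
      constantCoeff φ * s59ncLin ψ i + s59ncLin φ i * constantCoeff ψ :=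
  s59ncf_coeff_single_mul φ ψ i

theorem s59ncf_lin_X {𝒪 : Type*} [CommRing 𝒪] {n : ℕ} (k j : Fin n) :
    s59ncLin (X k : MvPowerSeries (Fin n) 𝒪) j = if j = k then 1 else 0 := by
  classical
  exact coeff_index_single_X (R := 𝒪) k j

theorem s59ncf_lin_sum {𝒪 : Type*} [CommRing 𝒪] {n : ℕ} {ι : Type*} (s : Finset ι)
    (F : ι → MvPowerSeries (Fin n) 𝒪) (j : Fin n) :
    s59ncLin (∑ k ∈ s, F k) j = ∑ k ∈ s, s59ncLin (F k) j := by
  unfold s59ncLin
  rw [map_sum]

/-- `lin (∑ k, q k * X k) j = q j (0)`. -/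
theorem s59ncf_lin_sum_mul_X {𝒪 : Type*} [CommRing 𝒪] {n : ℕ}
    (q : Fin n → MvPowerSeries (Fin n) 𝒪) (j : Fin n) :
    s59ncLin (∑ k, q k * X k) j = constantCoeff (q j) := by
  classical
  rw [s59ncf_lin_sum]
  simp only [s59ncf_lin_mul, s59ncf_lin_X, constantCoeff_X, mul_zero, add_zero, mul_ite, mul_one]
  rw [Finset.sum_ite_eq]
  simp

/-- Cramer: `B v = w` implies `det B * v i = ∑ k, adj B i k * w k`. -/
theorem s59ncf_adjugate_mulVec {R : Type*} [CommRing R] {n : ℕ}
    (B : Matrix (Fin n) (Fin n) R) (v w : Fin n → R) (hB : ∀ i, ∑ j, B i j * v j = w i)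
    (i : Fin n) : B.det * v i = ∑ k, B.adjugate i k * w k := by
  have h1 : B.mulVec v = w := by
    ext k
    simpa [Matrix.mulVec, dotProduct] using hB k
  have h2 : (B.adjugate * B).mulVec v = B.adjugate.mulVec w := by
    rw [← Matrix.mulVec_mulVec, h1]
  rw [Matrix.adjugate_mul, Matrix.smul_mulVec, Matrix.one_mulVec] at h2
  have h3 := congrFun h2 i
  simpa [Matrix.mulVec, dotProduct] using h3

/-- **NC-Fit**. -/
theorem s59nc_fit : s59nc_StmtFit.{u} := by
  intro 𝒪 _ n J Λ hΛ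
  classical
  choose h hJ h0 hlin using hΛ
  have hdec : ∀ i, ∃ q : Fin n → MvPowerSeries (Fin n) 𝒪, ∑ j, q j * X j = h i :=
    fun i => s59ncf_exists_sum (h i) (h0 i)
  choose B hB using hdec
  refine ⟨(Matrix.of B).det, ?_, ?_⟩
  · intro i
    rw [s59ncf_adjugate_mulVec (Matrix.of B) (fun j => X j) h (fun k => by simpa using hB k) i]
    exact J.sum_mem fun k _ => J.mul_mem_left _ (hJ k)
  · rw [RingHom.map_det]
    congr 1
    ext i j
    simp only [RingHom.mapMatrix_apply, Matrix.map_apply, Matrix.of_apply]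
    rw [← s59ncf_lin_sum_mul_X (B i) j, hB i, hlin i]

end Fermat.Agent.S59.NC
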