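/-
S59-NC, piece NC-Cot (owner helper5): `s59nc_cot : s59nc_StmtCot` (cotangent dictionary).

For `γ : 𝒪⟦X⟧ ↠ A`, `π : A → 𝒪` with `π (γ X_i) = 0`:  `π ∘ γ` is the constant coefficient,
`ker π = γ (X)`, and `v ↦ [∑ v_j γ(X_j)]` induces `𝒪ⁿ / lin (ker γ) ≅ ker π / (ker π)²`.
-/
import Fermat.Agent.S59.NC.Fit
import Mathlib.LinearAlgebra.Isomorphisms

set_option autoImplicit false

namespace Fermat.Agent.S59.NC

open MvPowerSeries

universe u

section

variable {𝒪 : Type*} [CommRing 𝒪] {n : ℕ} {A : Type*} [CommRing A] [Algebra 𝒪 A]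
  (γ : MvPowerSeries (Fin n) 𝒪 →ₐ[𝒪] A) (π : A →ₐ[𝒪] 𝒪)

/-- `π ∘ γ` is the constant coefficient. -/
theorem s59ncc_pi_gamma (hX : ∀ i, π (γ (X i)) = 0) (h : MvPowerSeries (Fin n) 𝒪) :
    π (γ h) = constantCoeff h := by
  have h1 : constantCoeff (h - C (constantCoeff h)) = 0 := by simp
  obtain ⟨q, hq⟩ := s59ncf_exists_sum _ h1
  have h2 : h = ∑ j, q j * X j + C (constantCoeff h) := by rw [hq]; ring
  have h3 : π (γ (C (constantCoeff h))) = constantCoeff h := by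
    rw [c_eq_algebraMap, AlgHom.commutes, AlgHom.commutes]
    rfl
  conv_lhs => rw [h2]
  rw [map_add, map_add, h3, map_sum, map_sum]
  simp [hX]

/-- The linear part of an element of `(X)²` vanishes. -/
theorem s59ncc_lin_eq_zero_of_mem_sq (w : MvPowerSeries (Fin n) 𝒪)
    (hw : w ∈ (RingHom.ker (constantCoeff (σ := Fin n) (R := 𝒪))) ^ 2) :
    s59ncLinMap 𝒪 n w = 0 := by
  rw [pow_two] at hw
  refine Submodule.mul_induction_on hw ?_ ?_
  · intro a ha b hb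
    ext j
    rw [s59ncLinMap_apply, s59ncf_lin_mul, RingHom.mem_ker.mp ha, RingHom.mem_ker.mp hb]
    simp
  · intro x y hx hy
    rw [map_add, hx, hy, add_zero]

/-- `γ h ≡ ∑ j, lin h j • γ X_j` modulo `(ker π)²` for `h(0) = 0`. -/
theorem s59ncc_sub_mem_sq (hX : ∀ i, π (γ (X i)) = 0) (h : MvPowerSeries (Fin n) 𝒪)
    (h0 : constantCoeff h = 0) :
    γ h - ∑ j, s59ncLin h j • γ (X j) ∈ (RingHom.ker (π : A →+* 𝒪)) ^ 2 := by
  obtain ⟨q, rfl⟩ := s59ncf_exists_sum h h0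
  have e : γ (∑ j, q j * X j) - ∑ j, s59ncLin (∑ j, q j * X j) j • γ (X j) =
      ∑ j, γ (q j - C (constantCoeff (q j))) * γ (X j) := by
    rw [map_sum, ← Finset.sum_sub_distrib]
    refine Finset.sum_congr rfl fun j _ => ?_
    rw [s59ncf_lin_sum_mul_X, map_mul, map_sub, sub_mul, Algebra.smul_def, c_eq_algebraMap,
      AlgHom.commutes]
  rw [e, pow_two]
  refine Ideal.sum_mem _ fun j _ => Ideal.mul_mem_mul ?_ ?_
  · rw [RingHom.mem_ker]
    show π (γ _) = 0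
    rw [s59ncc_pi_gamma γ π hX]
    simp
  · rw [RingHom.mem_ker]
    exact hX j

/-- The map `v ↦ [∑ v_j γ(X_j)]`. -/
noncomputable def s59nccPhi (hX : ∀ i, π (γ (X i)) = 0) :
    (Fin n → 𝒪) →ₗ[𝒪] (RingHom.ker (π : A →+* 𝒪)).Cotangent :=
  ((RingHom.ker (π : A →+* 𝒪)).toCotangent.restrictScalars 𝒪).comp
    (Fintype.linearCombination 𝒪
      (fun j => (⟨γ (X j), RingHom.mem_ker.mpr (hX j)⟩ : RingHom.ker (π : A →+* 𝒪))))

theorem s59ncc_phi_eq (hX : ∀ i, π (γ (X i)) = 0) (v : Fin n → 𝒪)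
    (x : RingHom.ker (π : A →+* 𝒪)) :
    s59nccPhi γ π hX v = (RingHom.ker (π : A →+* 𝒪)).toCotangent x ↔
      ∑ j, v j • γ (X j) - (x : A) ∈ (RingHom.ker (π : A →+* 𝒪)) ^ 2 := by
  show (RingHom.ker (π : A →+* 𝒪)).toCotangent (Fintype.linearCombination 𝒪 _ v) = _ ↔ _
  rw [Ideal.toCotangent_eq, Fintype.linearCombination_apply]
  simp

theorem s59ncc_phi_eq_zero (hX : ∀ i, π (γ (X i)) = 0) (v : Fin n → 𝒪) :
    s59nccPhi γ π hX v = 0 ↔ ∑ j, v j • γ (X j) ∈ (RingHom.ker (π : A →+* 𝒪)) ^ 2 := by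
  have := s59ncc_phi_eq γ π hX v 0
  simpa using this

theorem s59ncc_phi_surjective (hγ : Function.Surjective γ) (hX : ∀ i, π (γ (X i)) = 0) :
    Function.Surjective (s59nccPhi γ π hX) := by
  intro c
  obtain ⟨⟨a, ha⟩, rfl⟩ := (RingHom.ker (π : A →+* 𝒪)).toCotangent_surjective c
  obtain ⟨h, rfl⟩ := hγ a
  have h0 : constantCoeff h = 0 := by
    rw [← s59ncc_pi_gamma γ π hX]
    exact RingHom.mem_ker.mp ha
  refine ⟨s59ncLin h, ?_⟩
  rw [s59ncc_phi_eq]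
  have := s59ncc_sub_mem_sq γ π hX h h0
  have h2 := neg_mem this
  rwa [neg_sub] at h2

theorem s59ncc_phi_ker (hγ : Function.Surjective γ) (hX : ∀ i, π (γ (X i)) = 0) :
    LinearMap.ker (s59nccPhi γ π hX) =
      s59ncLinSub (RingHom.ker (γ : MvPowerSeries (Fin n) 𝒪 →+* A)) := by
  ext v
  rw [LinearMap.mem_ker, s59ncc_phi_eq_zero]
  constructor
  · intro hv
    -- `(ker π)² = γ ((X)²)`
    have hγ' : Function.Surjective (γ : MvPowerSeries (Fin n) 𝒪 →+* A) := hγ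
    have hcomap : Ideal.comap (γ : MvPowerSeries (Fin n) 𝒪 →+* A)
        (RingHom.ker (π : A →+* 𝒪)) = RingHom.ker (constantCoeff (σ := Fin n) (R := 𝒪)) := by
      ext h
      rw [Ideal.mem_comap, RingHom.mem_ker, RingHom.mem_ker]
      show π (γ h) = 0 ↔ _
      rw [s59ncc_pi_gamma γ π hX]
    have hmap : Ideal.map (γ : MvPowerSeries (Fin n) 𝒪 →+* A)
        ((RingHom.ker (constantCoeff (σ := Fin n) (R := 𝒪))) ^ 2) =
        (RingHom.ker (π : A →+* 𝒪)) ^ 2 := by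
      rw [Ideal.map_pow, ← hcomap, Ideal.map_comap_of_surjective _ hγ']
    rw [← hmap, Ideal.mem_map_iff_of_surjective _ hγ'] at hv
    obtain ⟨w, hw, hwv⟩ := hv
    have hwlin := s59ncc_lin_eq_zero_of_mem_sq w hw
    refine ⟨∑ j, C (v j) * X j - w, ?_, ?_⟩
    · show _ ∈ RingHom.ker (γ : MvPowerSeries (Fin n) 𝒪 →+* A)
      rw [RingHom.mem_ker]
      show γ _ = 0
      have hwv' : γ w = ∑ j, v j • γ (X j) := hwv
      rw [map_sub, hwv', map_sum, sub_eq_zero]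
      refine Finset.sum_congr rfl fun j _ => ?_
      rw [map_mul, Algebra.smul_def, c_eq_algebraMap, AlgHom.commutes]
    · rw [map_sub, hwlin, sub_zero]
      ext k
      rw [s59ncLinMap_apply, s59ncf_lin_sum_mul_X, constantCoeff_C]
  · rintro ⟨h, hh, rfl⟩
    have hγh : γ h = 0 := RingHom.mem_ker.mp hh
    have h0 : constantCoeff h = 0 := by
      rw [← s59ncc_pi_gamma γ π hX, hγh, map_zero]
    have := s59ncc_sub_mem_sq γ π hX h h0
    rw [hγh, zero_sub] at this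
    have h2 := neg_mem this
    rwa [neg_neg] at h2

end

/-- **NC-Cot**. -/
theorem s59nc_cot : s59nc_StmtCot.{u} := by
  intro 𝒪 _ n A _ _ γ π hγ hX
  exact ⟨((Submodule.quotEquivOfEq _ _ (s59ncc_phi_ker γ π hγ hX)).symm.trans
    ((s59nccPhi γ π hX).quotKerEquivOfSurjective (s59ncc_phi_surjective γ π hγ hX))).symm⟩

end Fermat.Agent.S59.NC
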