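/-
S59-NC, piece NC-Basis (helper2): NORMAL FORMS for a monomial-dominant complete intersection.

`D : S59ncData R n`, `f i = X_i ^ (e i) + (total degree < e i)`.  Every monomial is uniquely
`X ^ (e q + a)` with `a i < e i`; put `g b = f ^ q * X ^ a = X ^ b + (degree < deg b)`.
The linear map `Φ : X ^ b ↦ g b` is unitriangular for the degree filtration, hence bijective;
`ρ = Std ∘ Φ⁻¹` (`Std` = projection onto the standard monomials) is the normal form.

* `s59ncb_stmtBasis : s59nc_StmtBasis`.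
-/
import Fermat.Agent.S59.NC.Plan

set_option autoImplicit false

noncomputable section

namespace Fermat.Agent.S59.NC

open MvPolynomial

universe u

section Filtration

variable {R : Type*} [CommRing R] {σ : Type*}

/-- polynomials all of whose monomials have degree `< N` -/
def s59ncbLT (R : Type*) [CommRing R] (σ : Type*) (N : ℕ) : Submodule R (MvPolynomial σ R) :=
  restrictSupport R {m : σ →₀ ℕ | m.degree < N}

theorem s59ncb_mem_LT {N : ℕ} {p : MvPolynomial σ R} :
    p ∈ s59ncbLT R σ N ↔ ∀ m ∈ p.support, m.degree < N := by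
  rw [s59ncbLT, mem_restrictSupport_iff]
  exact Iff.rfl

theorem s59ncb_LT_mono {N N' : ℕ} (h : N ≤ N') : s59ncbLT R σ N ≤ s59ncbLT R σ N' := by
  intro p hp
  rw [s59ncb_mem_LT] at hp ⊢
  exact fun m hm => lt_of_lt_of_le (hp m hm) h

theorem s59ncb_LT_zero {p : MvPolynomial σ R} (hp : p ∈ s59ncbLT R σ 0) : p = 0 := by
  rw [s59ncb_mem_LT] at hp
  rw [← MvPolynomial.support_eq_empty]
  exact Finset.eq_empty_of_forall_notMem fun m hm => absurd (hp m hm) (Nat.not_lt_zero _)

theorem s59ncb_exists_LT (p : MvPolynomial σ R) : ∃ N, p ∈ s59ncbLT R σ N := by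
  classical
  refine ⟨p.support.sup (fun m => m.degree) + 1, ?_⟩
  rw [s59ncb_mem_LT]
  intro m hm
  exact Nat.lt_succ_of_le (Finset.le_sup (f := fun m : σ →₀ ℕ => m.degree) hm)

theorem s59ncb_monomial_mem (m : σ →₀ ℕ) (c : R) : monomial m c ∈ s59ncbLT R σ (m.degree + 1) := by
  classical
  rw [s59ncb_mem_LT]
  intro m' hm'
  have := MvPolynomial.support_monomial_subset hm'
  rw [Finset.mem_singleton] at this
  rw [this]
  exact Nat.lt_succ_self _

theorem s59ncb_mul_mem {a b : ℕ} {p q : MvPolynomial σ R} (hp : p ∈ s59ncbLT R σ a)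
    (hq : q ∈ s59ncbLT R σ (b + 1)) : p * q ∈ s59ncbLT R σ (a + b) := by
  classical
  rw [s59ncb_mem_LT] at hp hq ⊢
  intro m hm
  obtain ⟨m₁, hm₁, m₂, hm₂, rfl⟩ := Finset.mem_add.mp (MvPolynomial.support_mul p q hm)
  have h1 := hp m₁ hm₁
  have h2 := hq m₂ hm₂
  rw [map_add]
  omega

/-- `P = X ^ m + (degree < deg m)` -/
def S59ncbLeads (P : MvPolynomial σ R) (m : σ →₀ ℕ) : Prop :=
  P - monomial m 1 ∈ s59ncbLT R σ m.degree

theorem S59ncbLeads.mem {P : MvPolynomial σ R} {m : σ →₀ ℕ} (h : S59ncbLeads P m) :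
    P ∈ s59ncbLT R σ (m.degree + 1) := by
  have : P = (P - monomial m 1) + monomial m 1 := by ring
  rw [this]
  exact Submodule.add_mem _ (s59ncb_LT_mono (Nat.le_succ _) h) (s59ncb_monomial_mem m 1)

theorem s59ncb_leads_monomial (m : σ →₀ ℕ) : S59ncbLeads (monomial m (1 : R)) m := by
  rw [S59ncbLeads, sub_self]
  exact Submodule.zero_mem _

theorem s59ncb_leads_one : S59ncbLeads (1 : MvPolynomial σ R) 0 :=
  s59ncb_leads_monomial 0

theorem S59ncbLeads.mul {P Q : MvPolynomial σ R} {m m' : σ →₀ ℕ} (hP : S59ncbLeads P m)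
    (hQ : S59ncbLeads Q m') : S59ncbLeads (P * Q) (m + m') := by
  rw [S59ncbLeads, map_add]
  have e : P * Q - monomial (m + m') 1 =
      (P - monomial m 1) * Q + (Q - monomial m' 1) * monomial m 1 := by
    have : (monomial (m + m') (1 : R)) = monomial m 1 * monomial m' 1 := by
      rw [monomial_mul, one_mul]
    rw [this]; ring
  rw [e]
  refine Submodule.add_mem _ (s59ncb_mul_mem hP hQ.mem) ?_
  rw [add_comm]
  exact s59ncb_mul_mem hQ (s59ncb_monomial_mem m 1)

theorem S59ncbLeads.pow {P : MvPolynomial σ R} {m : σ →₀ ℕ} (hP : S59ncbLeads P m) (k : ℕ) :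
    S59ncbLeads (P ^ k) (k • m) := by
  induction k with
  | zero => rw [pow_zero, zero_smul]; exact s59ncb_leads_one
  | succ k ih => rw [pow_succ, succ_nsmul]; exact ih.mul hP

theorem s59ncb_leads_prod {ι : Type*} (s : Finset ι) (P : ι → MvPolynomial σ R)
    (m : ι → σ →₀ ℕ) (h : ∀ i ∈ s, S59ncbLeads (P i) (m i)) :
    S59ncbLeads (∏ i ∈ s, P i) (∑ i ∈ s, m i) := by
  classical
  induction s using Finset.induction_on with
  | empty => rw [Finset.prod_empty, Finset.sum_empty]; exact s59ncb_leads_one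
  | insert a s ha ih =>
    rw [Finset.prod_insert ha, Finset.sum_insert ha]
    exact (h a (Finset.mem_insert_self a s)).mul
      (ih fun i hi => h i (Finset.mem_insert_of_mem hi))

end Filtration

section Data

variable {R : Type u} [CommRing R] {n : ℕ} (D : S59ncData R n)

/-- `f i = X_i ^ (e i) + (degree < e i)` -/
theorem s59ncb_leads_f (i : Fin n) :
    S59ncbLeads (D.f i) (Finsupp.single i (D.e i)) := by
  classical
  rw [S59ncbLeads, Finsupp.degree_single]
  have he := D.he i
  have hX : (monomial (Finsupp.single i (D.e i)) (1 : R)) =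
      (X i : MvPolynomial (Fin n) R) ^ (D.e i - 1) * X i := by
    rw [← pow_succ, Nat.sub_add_cancel he, X_pow_eq_monomial]
  have e : D.f i - monomial (Finsupp.single i (D.e i)) 1 =
      ∑ j, (D.G i j - if i = j then (X i : MvPolynomial (Fin n) R) ^ (D.e i - 1) else 0) *
        X j := by
    rw [S59ncData.f, hX]
    simp only [sub_mul, Finset.sum_sub_distrib, ite_mul, zero_mul, Finset.sum_ite_eq,
      Finset.mem_univ, if_true]
  rw [e]
  refine Submodule.sum_mem _ fun j _ => ?_
  have h1 : (D.G i j - if i = j then (X i : MvPolynomial (Fin n) R) ^ (D.e i - 1) else 0) ∈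
      s59ncbLT R (Fin n) (D.e i - 1) := by
    rw [s59ncb_mem_LT]
    intro m hm
    have := D.hG i j m hm
    omega
  have h2 : (X j : MvPolynomial (Fin n) R) ∈ s59ncbLT R (Fin n) (1 + 1) := by
    have := s59ncb_monomial_mem (R := R) (Finsupp.single j 1) 1
    rwa [Finsupp.degree_single] at this
  have := s59ncb_mul_mem h1 h2
  rwa [Nat.sub_add_cancel he] at this

/-- the remainder `a = b mod e` of a monomial -/
def s59ncbRem (b : Fin n →₀ ℕ) : Fin n →₀ ℕ :=
  Finsupp.equivFunOnFinite.symm fun i => b i % D.e i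

@[simp] theorem s59ncbRem_apply (b : Fin n →₀ ℕ) (i : Fin n) :
    s59ncbRem D b i = b i % D.e i := rfl

/-- the basis element `g b = f ^ q * X ^ a`, `b = e q + a` -/
def s59ncbG (b : Fin n →₀ ℕ) : MvPolynomial (Fin n) R :=
  (∏ i, D.f i ^ (b i / D.e i)) * monomial (s59ncbRem D b) 1

theorem s59ncb_leads_g (b : Fin n →₀ ℕ) : S59ncbLeads (s59ncbG D b) b := by
  have h1 : S59ncbLeads (∏ i, D.f i ^ (b i / D.e i))
      (∑ i, (b i / D.e i) • Finsupp.single i (D.e i)) :=
    s59ncb_leads_prod _ _ _ fun i _ => (s59ncb_leads_f D i).pow _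
  have h2 := h1.mul (s59ncb_leads_monomial (R := R) (s59ncbRem D b))
  have e : (∑ i, (b i / D.e i) • Finsupp.single i (D.e i)) + s59ncbRem D b = b := by
    ext j
    rw [Finsupp.add_apply, Finsupp.finsetSum_apply, s59ncbRem_apply]
    simp only [Finsupp.smul_apply, Finsupp.single_apply, smul_eq_mul, mul_ite, mul_zero,
      Finset.sum_ite_eq', Finset.mem_univ, if_true]
    exact Nat.div_add_mod' (b j) (D.e j)
  rw [e] at h2
  exact h2

/-- standard monomials -/
def S59ncbStd (b : Fin n →₀ ℕ) : Prop := ∀ i, b i < D.e i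

theorem s59ncb_g_std {b : Fin n →₀ ℕ} (hb : S59ncbStd D b) : s59ncbG D b = monomial b 1 := by
  have h1 : ∀ i, b i / D.e i = 0 := fun i => Nat.div_eq_of_lt (hb i)
  have h2 : s59ncbRem D b = b := by
    ext i
    rw [s59ncbRem_apply, Nat.mod_eq_of_lt (hb i)]
  rw [s59ncbG, h2]
  simp [h1]

theorem s59ncb_g_mem {b : Fin n →₀ ℕ} (hb : ¬ S59ncbStd D b) : s59ncbG D b ∈ D.idealPoly := by
  classical
  rw [S59ncbStd, not_forall] at hb
  obtain ⟨i, hi⟩ := hb
  rw [not_lt] at hi
  have h1 : 0 < b i / D.e i := Nat.div_pos hi (D.he i)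
  have hfi : D.f i ∈ D.idealPoly := Ideal.subset_span ⟨i, rfl⟩
  have h2 : D.f i ^ (b i / D.e i) ∈ D.idealPoly := by
    obtain ⟨k, hk⟩ := Nat.exists_eq_succ_of_ne_zero h1.ne'
    rw [hk, pow_succ]
    exact Ideal.mul_mem_left _ _ hfi
  rw [s59ncbG]
  refine Ideal.mul_mem_right _ _ ?_
  rw [← Finset.mul_prod_erase Finset.univ _ (Finset.mem_univ i)]
  exact Ideal.mul_mem_right _ _ h2

theorem s59ncb_f_mul_g (i : Fin n) (b : Fin n →₀ ℕ) :
    D.f i * s59ncbG D b = s59ncbG D (b + Finsupp.single i (D.e i)) := by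
  classical
  have he := D.he i
  have hrem : s59ncbRem D (b + Finsupp.single i (D.e i)) = s59ncbRem D b := by
    ext j
    rw [s59ncbRem_apply, s59ncbRem_apply, Finsupp.add_apply, Finsupp.single_apply]
    split_ifs with h
    · subst h
      rw [Nat.add_mod_right]
    · rw [add_zero]
  rw [s59ncbG, s59ncbG, hrem, ← mul_assoc]
  congr 1
  rw [← Finset.mul_prod_erase Finset.univ _ (Finset.mem_univ i),
    ← Finset.mul_prod_erase Finset.univ (fun j => D.f j ^ ((b + Finsupp.single i (D.e i)) j / D.e j))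
      (Finset.mem_univ i), ← mul_assoc]
  congr 1
  · rw [Finsupp.add_apply, Finsupp.single_eq_same, Nat.add_div_right _ he, pow_succ, mul_comm]
  · refine Finset.prod_congr rfl fun j hj => ?_
    have hji : j ≠ i := Finset.ne_of_mem_erase hj
    rw [Finsupp.add_apply, Finsupp.single_eq_of_ne hji, add_zero]

theorem s59ncb_not_std_add (i : Fin n) (b : Fin n →₀ ℕ) :
    ¬ S59ncbStd D (b + Finsupp.single i (D.e i)) := by
  intro h
  have := h i
  rw [Finsupp.add_apply, Finsupp.single_eq_same] at this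
  omega

/-- the unitriangular map `X ^ b ↦ g b` -/
def s59ncbPhi : MvPolynomial (Fin n) R →ₗ[R] MvPolynomial (Fin n) R :=
  (basisMonomials (Fin n) R).constr R (s59ncbG D)

theorem s59ncbPhi_monomial (b : Fin n →₀ ℕ) : s59ncbPhi D (monomial b 1) = s59ncbG D b := by
  have := (basisMonomials (Fin n) R).constr_basis R (s59ncbG D) b
  rwa [coe_basisMonomials] at this

theorem s59ncbPhi_eq (p : MvPolynomial (Fin n) R) :
    s59ncbPhi D p = ∑ b ∈ p.support, coeff b p • s59ncbG D b := by
  conv_lhs => rw [← support_sum_monomial_coeff p]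
  rw [map_sum]
  refine Finset.sum_congr rfl fun b _ => ?_
  have : monomial b (coeff b p) = coeff b p • monomial b (1 : R) := by
    rw [smul_monomial, smul_eq_mul, mul_one]
  rw [this, map_smul, s59ncbPhi_monomial]

theorem s59ncbPhi_sub_mem {N : ℕ} {p : MvPolynomial (Fin n) R} (hp : p ∈ s59ncbLT R (Fin n) N) :
    s59ncbPhi D p - p ∈ s59ncbLT R (Fin n) (N - 1) := by
  have e : s59ncbPhi D p - p =
      ∑ b ∈ p.support, coeff b p • (s59ncbG D b - monomial b 1) := by
    calc s59ncbPhi D p - p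
        = (∑ b ∈ p.support, coeff b p • s59ncbG D b) -
            ∑ b ∈ p.support, monomial b (coeff b p) := by
          rw [s59ncbPhi_eq, support_sum_monomial_coeff]
      _ = ∑ b ∈ p.support, coeff b p • (s59ncbG D b - monomial b 1) := by
          rw [← Finset.sum_sub_distrib]
          refine Finset.sum_congr rfl fun b _ => ?_
          rw [smul_sub, smul_monomial, smul_eq_mul, mul_one]
  rw [e]
  refine Submodule.sum_mem _ fun b hb => Submodule.smul_mem _ _ ?_
  rw [s59ncb_mem_LT] at hp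
  have := hp b hb
  exact s59ncb_LT_mono (by omega) (s59ncb_leads_g D b)

theorem s59ncbPhi_mem {N : ℕ} {p : MvPolynomial (Fin n) R} (hp : p ∈ s59ncbLT R (Fin n) N) :
    s59ncbPhi D p ∈ s59ncbLT R (Fin n) N := by
  have h := s59ncb_LT_mono (Nat.sub_le N 1) (s59ncbPhi_sub_mem D hp)
  have : s59ncbPhi D p = (s59ncbPhi D p - p) + p := by ring
  rw [this]
  exact Submodule.add_mem _ h hp

theorem s59ncbPhi_surj_aux (N : ℕ) : ∀ p ∈ s59ncbLT R (Fin n) N,
    ∃ s ∈ s59ncbLT R (Fin n) N, s59ncbPhi D s = p := by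
  induction N with
  | zero =>
    intro p hp
    exact ⟨0, Submodule.zero_mem _, by rw [map_zero, s59ncb_LT_zero hp]⟩
  | succ N ih =>
    intro p hp
    have h1 := s59ncbPhi_sub_mem D hp
    rw [Nat.add_sub_cancel] at h1
    obtain ⟨s', hs', hs'p⟩ := ih _ h1
    refine ⟨p - s', Submodule.sub_mem _ hp (s59ncb_LT_mono (Nat.le_succ N) hs'), ?_⟩
    rw [map_sub, hs'p]
    ring

theorem s59ncbPhi_inj_aux (N : ℕ) : ∀ s ∈ s59ncbLT R (Fin n) N, s59ncbPhi D s = 0 → s = 0 := by
  induction N with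
  | zero => exact fun s hs _ => s59ncb_LT_zero hs
  | succ N ih =>
    intro s hs h0
    have h1 := s59ncbPhi_sub_mem D hs
    rw [Nat.add_sub_cancel, h0, zero_sub] at h1
    exact ih s (by simpa using Submodule.neg_mem _ h1) h0

theorem s59ncbPhi_bijective : Function.Bijective (s59ncbPhi D) := by
  constructor
  · rw [← LinearMap.ker_eq_bot, LinearMap.ker_eq_bot']
    intro s hs
    obtain ⟨N, hN⟩ := s59ncb_exists_LT s
    exact s59ncbPhi_inj_aux D N s hN hs
  · intro p
    obtain ⟨N, hN⟩ := s59ncb_exists_LT p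
    obtain ⟨s, -, hs⟩ := s59ncbPhi_surj_aux D N p hN
    exact ⟨s, hs⟩

/-- `Φ` as a linear equivalence -/
def s59ncbPhiEquiv : MvPolynomial (Fin n) R ≃ₗ[R] MvPolynomial (Fin n) R :=
  LinearEquiv.ofBijective (s59ncbPhi D) (s59ncbPhi_bijective D)

theorem s59ncbPhiEquiv_apply (p : MvPolynomial (Fin n) R) :
    s59ncbPhiEquiv D p = s59ncbPhi D p := rfl

theorem s59ncbPhiEquiv_symm_mem {N : ℕ} {p : MvPolynomial (Fin n) R}
    (hp : p ∈ s59ncbLT R (Fin n) N) : (s59ncbPhiEquiv D).symm p ∈ s59ncbLT R (Fin n) N := by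
  obtain ⟨s, hs, hsp⟩ := s59ncbPhi_surj_aux D N p hp
  have : (s59ncbPhiEquiv D).symm p = s := by
    rw [LinearEquiv.symm_apply_eq, s59ncbPhiEquiv_apply, hsp]
  rw [this]
  exact hs

end Data

section Final

variable {R : Type u} [CommRing R] {n : ℕ} (D : S59ncData R n)

open Classical in
/-- the projection onto the span of the standard monomials -/
def s59ncbStdProj : MvPolynomial (Fin n) R →ₗ[R] MvPolynomial (Fin n) R :=
  (basisMonomials (Fin n) R).constr R fun b => if S59ncbStd D b then monomial b 1 else 0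

open Classical in
theorem s59ncbStdProj_monomial (b : Fin n →₀ ℕ) :
    s59ncbStdProj D (monomial b 1) = if S59ncbStd D b then monomial b 1 else 0 := by
  have := (basisMonomials (Fin n) R).constr_basis R
    (fun b => if S59ncbStd D b then monomial b (1 : R) else 0) b
  rwa [coe_basisMonomials] at this

open Classical in
theorem s59ncb_coeff_stdProj (p : MvPolynomial (Fin n) R) (m : Fin n →₀ ℕ) :
    coeff m (s59ncbStdProj D p) = if S59ncbStd D m then coeff m p else 0 := by
  have h : (lcoeff R m).comp (s59ncbStdProj D) =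
      if S59ncbStd D m then lcoeff R m else 0 := by
    refine (basisMonomials (Fin n) R).ext fun b => ?_
    rw [coe_basisMonomials, LinearMap.comp_apply, s59ncbStdProj_monomial]
    by_cases hm : S59ncbStd D m
    · rw [if_pos hm]
      by_cases hb : S59ncbStd D b
      · rw [if_pos hb]
      · rw [if_neg hb, map_zero, lcoeff_apply, coeff_monomial, if_neg]
        rintro rfl
        exact hb hm
    · rw [if_neg hm, LinearMap.zero_apply]
      by_cases hb : S59ncbStd D b
      · rw [if_pos hb, lcoeff_apply, coeff_monomial, if_neg]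
        rintro rfl
        exact hm hb
      · rw [if_neg hb, map_zero]
  have := congrArg (fun φ => φ p) h
  simp only [LinearMap.comp_apply, lcoeff_apply] at this
  rw [this]
  split_ifs
  · rfl
  · rfl

theorem s59ncb_stdProj_support {p : MvPolynomial (Fin n) R} {m : Fin n →₀ ℕ}
    (hm : m ∈ (s59ncbStdProj D p).support) : S59ncbStd D m ∧ m ∈ p.support := by
  classical
  rw [mem_support_iff, s59ncb_coeff_stdProj] at hm
  by_cases h : S59ncbStd D m
  · rw [if_pos h] at hm
    exact ⟨h, mem_support_iff.mpr hm⟩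
  · rw [if_neg h] at hm
    exact absurd rfl hm

theorem s59ncb_stdProj_mem {N : ℕ} {p : MvPolynomial (Fin n) R}
    (hp : p ∈ s59ncbLT R (Fin n) N) : s59ncbStdProj D p ∈ s59ncbLT R (Fin n) N := by
  rw [s59ncb_mem_LT] at hp ⊢
  exact fun m hm => hp m (s59ncb_stdProj_support D hm).2

/-- the normal form -/
def s59ncbRho : MvPolynomial (Fin n) R →ₗ[R] MvPolynomial (Fin n) R :=
  (s59ncbStdProj D).comp (s59ncbPhiEquiv D).symm.toLinearMap

theorem s59ncbRho_apply (p : MvPolynomial (Fin n) R) :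
    s59ncbRho D p = s59ncbStdProj D ((s59ncbPhiEquiv D).symm p) := rfl

theorem s59ncbRho_phi (s : MvPolynomial (Fin n) R) :
    s59ncbRho D (s59ncbPhi D s) = s59ncbStdProj D s := by
  rw [s59ncbRho_apply, ← s59ncbPhiEquiv_apply, LinearEquiv.symm_apply_apply]

/-- `Φ s - Std s ∈ (f)` -/
theorem s59ncb_phi_sub_std_mem (s : MvPolynomial (Fin n) R) :
    s59ncbPhi D s - s59ncbStdProj D s ∈ D.idealPoly := by
  classical
  have e : s59ncbPhi D s - s59ncbStdProj D s =
      ∑ b ∈ s.support, coeff b s • (s59ncbG D b -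
        if S59ncbStd D b then monomial b 1 else 0) := by
    have h2 : s59ncbStdProj D s =
        ∑ b ∈ s.support, coeff b s • (if S59ncbStd D b then monomial b (1 : R) else 0) := by
      conv_lhs => rw [← support_sum_monomial_coeff s]
      rw [map_sum]
      refine Finset.sum_congr rfl fun b _ => ?_
      have : monomial b (coeff b s) = coeff b s • monomial b (1 : R) := by
        rw [smul_monomial, smul_eq_mul, mul_one]
      rw [this, map_smul, s59ncbStdProj_monomial]
    rw [s59ncbPhi_eq, h2, ← Finset.sum_sub_distrib]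
    exact Finset.sum_congr rfl fun b _ => (smul_sub _ _ _).symm
  rw [e]
  refine Ideal.sum_mem _ fun b _ => ?_
  rw [MvPolynomial.smul_eq_C_mul]
  refine Ideal.mul_mem_left _ _ ?_
  by_cases hb : S59ncbStd D b
  · rw [if_pos hb, s59ncb_g_std D hb, sub_self]
    exact Ideal.zero_mem _
  · rw [if_neg hb, sub_zero]
    exact s59ncb_g_mem D hb

theorem s59ncbRho_sub_mem (p : MvPolynomial (Fin n) R) : p - s59ncbRho D p ∈ D.idealPoly := by
  obtain ⟨s, rfl⟩ := (s59ncbPhi_bijective D).2 p
  rw [s59ncbRho_phi]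
  exact s59ncb_phi_sub_std_mem D s

theorem s59ncbRho_f_mul (i : Fin n) (q : MvPolynomial (Fin n) R) :
    s59ncbRho D (D.f i * q) = 0 := by
  classical
  obtain ⟨s, rfl⟩ := (s59ncbPhi_bijective D).2 q
  have e : D.f i * s59ncbPhi D s =
      s59ncbPhi D (∑ b ∈ s.support,
        coeff b s • monomial (b + Finsupp.single i (D.e i)) (1 : R)) := by
    rw [s59ncbPhi_eq D s, Finset.mul_sum, map_sum]
    refine Finset.sum_congr rfl fun b _ => ?_
    rw [map_smul, s59ncbPhi_monomial, ← s59ncb_f_mul_g, mul_smul_comm]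
  rw [e, s59ncbRho_phi, map_sum]
  refine Finset.sum_eq_zero fun b _ => ?_
  rw [map_smul, s59ncbStdProj_monomial, if_neg (s59ncb_not_std_add D i b), smul_zero]

theorem s59ncbRho_eq_zero {p : MvPolynomial (Fin n) R} (hp : p ∈ D.idealPoly) :
    s59ncbRho D p = 0 := by
  rw [S59ncData.idealPoly, Ideal.mem_span_range_iff_exists_fun] at hp
  obtain ⟨c, rfl⟩ := hp
  rw [map_sum]
  refine Finset.sum_eq_zero fun i _ => ?_
  rw [mul_comm]
  exact s59ncbRho_f_mul D i (c i)

theorem s59ncbRho_std {a : Fin n →₀ ℕ} (ha : S59ncbStd D a) :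
    s59ncbRho D (monomial a 1) = monomial a 1 := by
  classical
  have h1 : s59ncbPhi D (monomial a 1) = monomial a 1 := by
    rw [s59ncbPhi_monomial, s59ncb_g_std D ha]
  have h2 := s59ncbRho_phi D (monomial a (1 : R))
  rw [h1, s59ncbStdProj_monomial, if_pos ha] at h2
  exact h2

theorem s59ncbRho_mem {N : ℕ} {p : MvPolynomial (Fin n) R} (hp : p ∈ s59ncbLT R (Fin n) N) :
    s59ncbRho D p ∈ s59ncbLT R (Fin n) N :=
  s59ncb_stdProj_mem D (s59ncbPhiEquiv_symm_mem D hp)

theorem s59ncbRho_not_std {b : Fin n →₀ ℕ} (hb : ¬ S59ncbStd D b) :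
    s59ncbRho D (monomial b 1) ∈ s59ncbLT R (Fin n) b.degree := by
  classical
  have h1 : s59ncbRho D (s59ncbG D b) = 0 := by
    rw [← s59ncbPhi_monomial, s59ncbRho_phi, s59ncbStdProj_monomial, if_neg hb]
  have h2 : s59ncbRho D (monomial b 1) = - s59ncbRho D (s59ncbG D b - monomial b 1) := by
    rw [map_sub, h1, zero_sub, neg_neg]
  rw [h2]
  exact Submodule.neg_mem _ (s59ncbRho_mem D (s59ncb_leads_g D b))

/-- **NC-Basis.** -/
theorem s59ncb_stmtBasis : s59nc_StmtBasis.{u} := by
  intro R _ n D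
  refine ⟨s59ncbRho D, s59ncbRho_sub_mem D, fun p hp => s59ncbRho_eq_zero D hp,
    fun p m hm => (s59ncb_stdProj_support D hm).1, fun a ha => s59ncbRho_std D ha,
    fun p N hp m hm => ?_, fun b hb m hm => ?_⟩
  · have h1 : p ∈ s59ncbLT R (Fin n) (N + 1) :=
      s59ncb_mem_LT.mpr fun m hm => Nat.lt_succ_of_le (hp m hm)
    exact Nat.lt_succ_iff.mp (s59ncb_mem_LT.mp (s59ncbRho_mem D h1) m hm)
  · have hb' : ¬ S59ncbStd D b := by
      obtain ⟨i, hi⟩ := hb
      exact fun h => absurd (h i) (not_lt.mpr hi)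
    exact s59ncb_mem_LT.mp (s59ncbRho_not_std D hb') m hm

end Final

end Fermat.Agent.S59.NC

end
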