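/-
S59-NC, piece NC-Cover (helper87), part A: `T = 𝒪⟦X⟧/J` finite over the local ring `𝒪`
⇒ the variables are integral, nilpotent modulo `𝔪_𝒪`, and polynomials surject onto `T`.
-/
import Fermat.Agent.S59.NC.Plan
import Fermat.Agent.S53.PowerSeries
import Mathlib.RingTheory.IntegralClosure.IsIntegral.Basic
import Mathlib.RingTheory.IntegralClosure.Algebra.Basic
import Mathlib.RingTheory.Nakayama
import Mathlib.Algebra.Polynomial.RingDivision
import Mathlib.Algebra.Polynomial.Roots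
import Mathlib.RingTheory.LocalRing.ResidueField.Basic

set_option autoImplicit false
set_option linter.unusedSectionVars false
set_option linter.style.haveILetI false

namespace Fermat.Agent.S59.NC

open IsLocalRing

section CoverA

variable {𝒪 : Type*} [CommRing 𝒪] [IsLocalRing 𝒪] {n : ℕ}

local notation "P" => MvPowerSeries (Fin n) 𝒪

/-- The variables are integral over `𝒪` modulo `J`. -/
theorem s59ncv_exists_monic (J : Ideal (MvPowerSeries (Fin n) 𝒪))
    (hfin : Module.Finite 𝒪 (MvPowerSeries (Fin n) 𝒪 ⧸ J)) (i : Fin n) :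
    ∃ μ : Polynomial 𝒪, μ.Monic ∧
      Polynomial.aeval (MvPowerSeries.X i : MvPowerSeries (Fin n) 𝒪) μ ∈ J := by
  haveI := hfin
  have hint : IsIntegral 𝒪 (Ideal.Quotient.mkₐ 𝒪 J (MvPowerSeries.X i)) :=
    Algebra.IsIntegral.isIntegral _
  obtain ⟨μ, hμ, h0⟩ := hint
  refine ⟨μ, hμ, ?_⟩
  rw [← Ideal.Quotient.eq_zero_iff_mem]
  have h1 := Polynomial.aeval_algHom_apply (Ideal.Quotient.mkₐ 𝒪 J)
    (MvPowerSeries.X i : MvPowerSeries (Fin n) 𝒪) μ
  have h2 : Polynomial.aeval (Ideal.Quotient.mkₐ 𝒪 J (MvPowerSeries.X i)) μ = 0 := h0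
  rw [h2] at h1
  exact h1.symm

/-- The constant coefficient of `q (X_i)`. -/
theorem s59ncv_constantCoeff_aeval (q : Polynomial 𝒪) (i : Fin n) :
    MvPowerSeries.constantCoeff
      (Polynomial.aeval (MvPowerSeries.X i : MvPowerSeries (Fin n) 𝒪) q) = q.coeff 0 := by
  rw [Polynomial.aeval_def, Polynomial.hom_eval₂]
  have h1 : (MvPowerSeries.constantCoeff (σ := Fin n) (R := 𝒪)).comp
      (algebraMap 𝒪 (MvPowerSeries (Fin n) 𝒪)) = RingHom.id 𝒪 := by
    ext c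
    simp [MvPowerSeries.algebraMap_apply]
  rw [h1, MvPowerSeries.constantCoeff_X, Polynomial.eval₂_at_zero]
  rfl

/-- A polynomial with coefficients in `𝔪` evaluates into `𝔪 P`. -/
theorem s59ncv_aeval_mem_map (r : Polynomial 𝒪) (hr : ∀ k, r.coeff k ∈ maximalIdeal 𝒪)
    (x : MvPowerSeries (Fin n) 𝒪) :
    Polynomial.aeval x r ∈
      (maximalIdeal 𝒪).map (algebraMap 𝒪 (MvPowerSeries (Fin n) 𝒪)) := by
  rw [Polynomial.aeval_eq_sum_range]
  refine Ideal.sum_mem _ fun k _ => ?_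
  rw [Algebra.smul_def]
  exact Ideal.mul_mem_right _ _ (Ideal.mem_map_of_mem _ (hr k))

/-- The variables are nilpotent modulo `J + 𝔪 P`. -/
theorem s59ncv_X_pow_mem (J : Ideal (MvPowerSeries (Fin n) 𝒪))
    (hfin : Module.Finite 𝒪 (MvPowerSeries (Fin n) 𝒪 ⧸ J)) (i : Fin n) :
    ∃ a : ℕ, (MvPowerSeries.X i : MvPowerSeries (Fin n) 𝒪) ^ a ∈
      J ⊔ (maximalIdeal 𝒪).map (algebraMap 𝒪 (MvPowerSeries (Fin n) 𝒪)) := by
  classical
  obtain ⟨μ, hμ, hμJ⟩ := s59ncv_exists_monic J hfin i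
  set μb : Polynomial (ResidueField 𝒪) := μ.map (residue 𝒪) with hμb
  have hμb0 : μb ≠ 0 := (hμ.map (residue 𝒪)).ne_zero
  obtain ⟨qb, hqb, hnd⟩ := Polynomial.exists_eq_pow_rootMultiplicity_mul_and_not_dvd μb hμb0 0
  set m := Polynomial.rootMultiplicity 0 μb with hm
  obtain ⟨q, hq⟩ := Polynomial.map_surjective (residue 𝒪) IsLocalRing.residue_surjective qb
  have hq0 : IsUnit (q.coeff 0) := by
    by_contra hnu
    have h1 : q.coeff 0 ∈ maximalIdeal 𝒪 := (IsLocalRing.mem_maximalIdeal _).2 hnu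
    have h2 : qb.coeff 0 = 0 := by
      rw [← hq, Polynomial.coeff_map]
      exact (IsLocalRing.residue_eq_zero_iff _).2 h1
    apply hnd
    rw [map_zero, sub_zero]
    exact Polynomial.X_dvd_iff.2 h2
  set r : Polynomial 𝒪 := μ - Polynomial.X ^ m * q with hr
  have hrmap : r.map (residue 𝒪) = 0 := by
    rw [hr, Polynomial.map_sub, Polynomial.map_mul, Polynomial.map_pow, Polynomial.map_X, hq,
      ← hμb, hqb, map_zero, sub_zero, sub_self]
  have hrc : ∀ k, r.coeff k ∈ maximalIdeal 𝒪 := by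
    intro k
    have := congrArg (fun p => Polynomial.coeff p k) hrmap
    simp only [Polynomial.coeff_map, Polynomial.coeff_zero] at this
    exact (IsLocalRing.residue_eq_zero_iff _).1 this
  set x : MvPowerSeries (Fin n) 𝒪 := MvPowerSeries.X i with hx
  set u : MvPowerSeries (Fin n) 𝒪 := Polynomial.aeval x q with hu
  have huu : IsUnit u := by
    rw [MvPowerSeries.isUnit_iff_constantCoeff, hu, hx, s59ncv_constantCoeff_aeval]
    exact hq0
  have hsum : x ^ m * u = Polynomial.aeval x μ - Polynomial.aeval x r := by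
    rw [hr, map_sub, map_mul, map_pow, Polynomial.aeval_X]
    ring
  have hmem : x ^ m * u ∈
      J ⊔ (maximalIdeal 𝒪).map (algebraMap 𝒪 (MvPowerSeries (Fin n) 𝒪)) := by
    rw [hsum]
    exact Ideal.sub_mem _ (Ideal.mem_sup_left hμJ)
      (Ideal.mem_sup_right (s59ncv_aeval_mem_map r hrc x))
  obtain ⟨v, hv⟩ := huu.exists_right_inv
  refine ⟨m, ?_⟩
  have : x ^ m = (x ^ m * u) * v := by rw [mul_assoc, hv, mul_one]
  rw [this]
  exact Ideal.mul_mem_right _ _ hmem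

/-- A power of the ideal of the variables lies in `J + 𝔪 P`. -/
theorem s59ncv_pow_le (J : Ideal (MvPowerSeries (Fin n) 𝒪))
    (hfin : Module.Finite 𝒪 (MvPowerSeries (Fin n) 𝒪 ⧸ J)) :
    ∃ N : ℕ, Ideal.span (Set.range (MvPowerSeries.X : Fin n → MvPowerSeries (Fin n) 𝒪)) ^ N ≤
      J ⊔ (maximalIdeal 𝒪).map (algebraMap 𝒪 (MvPowerSeries (Fin n) 𝒪)) := by
  set K : Ideal (MvPowerSeries (Fin n) 𝒪) :=
    J ⊔ (maximalIdeal 𝒪).map (algebraMap 𝒪 (MvPowerSeries (Fin n) 𝒪)) with hK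
  have hnil : ∀ i, IsNilpotent (Ideal.Quotient.mk K (MvPowerSeries.X i)) := by
    intro i
    obtain ⟨a, ha⟩ := s59ncv_X_pow_mem J hfin i
    exact ⟨a, by rw [← map_pow, Ideal.Quotient.eq_zero_iff_mem]; exact ha⟩
  obtain ⟨N, hN⟩ := Fermat.Agent.S53.exists_pow_span_range_eq_bot_of_isNilpotent
    (fun i => Ideal.Quotient.mk K (MvPowerSeries.X i)) hnil
  refine ⟨N, ?_⟩
  have h1 : (Ideal.span (Set.range (MvPowerSeries.X : Fin n → MvPowerSeries (Fin n) 𝒪)) ^ N).map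
      (Ideal.Quotient.mk K) = ⊥ := by
    rw [Ideal.map_pow, Ideal.map_span, ← Set.range_comp]
    exact hN
  intro g hg
  have h2 := Ideal.mem_map_of_mem (Ideal.Quotient.mk K) hg
  rw [h1, Ideal.mem_bot, Ideal.Quotient.eq_zero_iff_mem] at h2
  exact h2

/-- Polynomials surject onto `𝒪⟦X⟧/J`. -/
theorem s59ncv_exists_poly (J : Ideal (MvPowerSeries (Fin n) 𝒪))
    (hfin : Module.Finite 𝒪 (MvPowerSeries (Fin n) 𝒪 ⧸ J)) (g : MvPowerSeries (Fin n) 𝒪) :
    ∃ p : MvPolynomial (Fin n) 𝒪, g - (p : MvPowerSeries (Fin n) 𝒪) ∈ J := by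
  haveI := hfin
  obtain ⟨N, hN⟩ := s59ncv_pow_le J hfin
  -- the `𝒪`-linear map `p ↦ [p]`
  let ψ : MvPolynomial (Fin n) 𝒪 →ₗ[𝒪] (MvPowerSeries (Fin n) 𝒪 ⧸ J) :=
    ((Ideal.Quotient.mkₐ 𝒪 J).comp
      (MvPolynomial.coeToMvPowerSeries.algHom (σ := Fin n) (R := 𝒪) 𝒪)).toLinearMap
  have hψ : ∀ p, ψ p = Ideal.Quotient.mk J (p : MvPowerSeries (Fin n) 𝒪) := fun p => rfl
  have htop : (⊤ : Submodule 𝒪 (MvPowerSeries (Fin n) 𝒪 ⧸ J)) ≤
      LinearMap.range ψ ⊔ (maximalIdeal 𝒪) • (⊤ : Submodule 𝒪 (MvPowerSeries (Fin n) 𝒪 ⧸ J)) := by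
    intro t _
    obtain ⟨g, rfl⟩ := Ideal.Quotient.mk_surjective t
    have h1 := hN (Fermat.Agent.S53.mvPowerSeries_sub_truncTotal_mem_pow (𝒪 := 𝒪) g N)
    obtain ⟨j, hj, w, hw, hjw⟩ := Submodule.mem_sup.1 h1
    have h2 : Ideal.Quotient.mk J g =
        ψ (MvPowerSeries.truncTotal N g) + Ideal.Quotient.mk J w := by
      rw [hψ, ← map_add, eq_comm, ← sub_eq_zero, ← map_sub, Ideal.Quotient.eq_zero_iff_mem]
      have : ((MvPowerSeries.truncTotal N g : MvPolynomial (Fin n) 𝒪) :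
          MvPowerSeries (Fin n) 𝒪) + w - g = - j := by
        have hg : g = j + w + ((MvPowerSeries.truncTotal N g : MvPolynomial (Fin n) 𝒪) :
            MvPowerSeries (Fin n) 𝒪) := by rw [hjw]; ring
        nth_rewrite 2 [hg]
        ring
      rw [this]
      exact J.neg_mem hj
    rw [h2]
    refine Submodule.add_mem_sup ⟨_, rfl⟩ ?_
    -- `[w] ∈ 𝔪 • ⊤`
    have hw' : ∀ w ∈ (maximalIdeal 𝒪).map (algebraMap 𝒪 (MvPowerSeries (Fin n) 𝒪)),
        Ideal.Quotient.mk J w ∈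
          (maximalIdeal 𝒪) • (⊤ : Submodule 𝒪 (MvPowerSeries (Fin n) 𝒪 ⧸ J)) := by
      intro w hw
      refine Submodule.span_induction (p := fun w _ => Ideal.Quotient.mk J w ∈
          (maximalIdeal 𝒪) • (⊤ : Submodule 𝒪 (MvPowerSeries (Fin n) 𝒪 ⧸ J))) ?_ ?_ ?_ ?_ hw
      · rintro _ ⟨c, hc, rfl⟩
        have : Ideal.Quotient.mk J (algebraMap 𝒪 (MvPowerSeries (Fin n) 𝒪) c) =
            c • (1 : MvPowerSeries (Fin n) 𝒪 ⧸ J) := by
          rw [Algebra.smul_def (R := 𝒪) (A := MvPowerSeries (Fin n) 𝒪 ⧸ J), mul_one]; rfl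
        rw [this]
        exact Submodule.smul_mem_smul hc trivial
      · rw [map_zero]; exact Submodule.zero_mem _
      · intro a b _ _ ha hb
        rw [map_add]; exact Submodule.add_mem _ ha hb
      · intro a b _ hb
        rw [smul_eq_mul, map_mul]
        -- multiplication by `[a]` preserves `𝔪 • ⊤`
        refine Submodule.smul_induction_on hb ?_ ?_
        · intro c hc t _
          have : Ideal.Quotient.mk J a * c • t = c • (Ideal.Quotient.mk J a * t) := by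
            rw [mul_smul_comm]
          rw [this]
          exact Submodule.smul_mem_smul hc trivial
        · intro s t hs ht
          rw [mul_add]; exact Submodule.add_mem _ hs ht
    exact hw' w hw
  have hrange : (⊤ : Submodule 𝒪 (MvPowerSeries (Fin n) 𝒪 ⧸ J)) ≤ LinearMap.range ψ :=
    Submodule.le_of_le_smul_of_le_jacobson_bot (Module.Finite.fg_top)
      (IsLocalRing.maximalIdeal_le_jacobson _) htop
  obtain ⟨p, hp⟩ := hrange (Submodule.mem_top : Ideal.Quotient.mk J g ∈ ⊤)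
  refine ⟨p, ?_⟩
  rw [← Ideal.Quotient.eq_zero_iff_mem, map_sub, ← hψ, hp, sub_self]

end CoverA

end Fermat.Agent.S59.NC
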