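/-
S59-NC, piece NC-Iso (helper87), part 1: dictionary between an augmented presentation
`γ : 𝒪⟦X⟧ ↠ A`, `π : A → 𝒪`, `π (γ X_i) = 0` and the power series ring.
-/
import Fermat.Agent.S59.NC.Plan
import Fermat.Agent.S53.PowerSeries

set_option autoImplicit false

namespace Fermat.Agent.S59.NC

section Aug

variable {𝒪 : Type*} [CommRing 𝒪] {n : ℕ}

/-- `g - g(0)` lies in the ideal generated by the variables. -/
theorem s59nci_sub_C_mem (g : MvPowerSeries (Fin n) 𝒪) :
    g - MvPowerSeries.C (MvPowerSeries.constantCoeff g) ∈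
      Ideal.span (Set.range (MvPowerSeries.X : Fin n → MvPowerSeries (Fin n) 𝒪)) := by
  have h := Fermat.Agent.S53.mvPowerSeries_sub_truncTotal_mem_pow (𝒪 := 𝒪) g 1
  rw [pow_one] at h
  have h2 : ((MvPowerSeries.truncTotal 1 g : MvPolynomial (Fin n) 𝒪) :
      MvPowerSeries (Fin n) 𝒪) = MvPowerSeries.C (MvPowerSeries.constantCoeff g) := by
    ext m
    rw [MvPolynomial.coeff_coe, MvPowerSeries.coeff_truncTotal_eq_ite, MvPowerSeries.coeff_C]
    by_cases hm : m = 0
    · subst hm; simp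
    · have : ¬ (Finsupp.degree m < 1) := by
        intro h1
        apply hm
        have h0 : Finsupp.degree m = 0 := by omega
        exact (Finsupp.degree_eq_zero_iff m).1 h0
      simp [hm, this]
  rwa [h2] at h

variable {A : Type*} [CommRing A] [Algebra 𝒪 A]

/-- An augmentation composed with a presentation killing the variables is the constant
coefficient. -/
theorem s59nci_aug_eq (γ : MvPowerSeries (Fin n) 𝒪 →ₐ[𝒪] A) (π : A →ₐ[𝒪] 𝒪)
    (hX : ∀ i, π (γ (MvPowerSeries.X i)) = 0) (g : MvPowerSeries (Fin n) 𝒪) :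
    π (γ g) = MvPowerSeries.constantCoeff g := by
  have hker : Ideal.span (Set.range (MvPowerSeries.X : Fin n → MvPowerSeries (Fin n) 𝒪)) ≤
      RingHom.ker ((π : A →+* 𝒪).comp (γ : MvPowerSeries (Fin n) 𝒪 →+* A)) := by
    rw [Ideal.span_le]
    rintro _ ⟨i, rfl⟩
    exact hX i
  have h1 := hker (s59nci_sub_C_mem g)
  rw [RingHom.mem_ker, map_sub] at h1
  have h2 : ((π : A →+* 𝒪).comp (γ : MvPowerSeries (Fin n) 𝒪 →+* A))
      (MvPowerSeries.C (MvPowerSeries.constantCoeff g)) = MvPowerSeries.constantCoeff g := by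
    have : (MvPowerSeries.C (MvPowerSeries.constantCoeff g) : MvPowerSeries (Fin n) 𝒪) =
        algebraMap 𝒪 (MvPowerSeries (Fin n) 𝒪) (MvPowerSeries.constantCoeff g) := rfl
    rw [this]
    simp
  rw [h2] at h1
  have h3 : π (γ g) = ((π : A →+* 𝒪).comp (γ : MvPowerSeries (Fin n) 𝒪 →+* A)) g := rfl
  rw [h3]
  exact sub_eq_zero.1 h1

/-- The kernel of the presentation lies in the augmentation ideal of the power series ring. -/
theorem s59nci_ker_le (γ : MvPowerSeries (Fin n) 𝒪 →ₐ[𝒪] A) (π : A →ₐ[𝒪] 𝒪)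
    (hX : ∀ i, π (γ (MvPowerSeries.X i)) = 0) :
    RingHom.ker (γ : MvPowerSeries (Fin n) 𝒪 →+* A) ≤
      RingHom.ker (MvPowerSeries.constantCoeff (σ := Fin n) (R := 𝒪)) := by
  intro g hg
  rw [RingHom.mem_ker] at hg ⊢
  rw [← s59nci_aug_eq γ π hX g]
  have : γ g = 0 := hg
  rw [this, map_zero]

/-- The kernel of the augmentation is generated by the images of the variables. -/
theorem s59nci_ker_aug (γ : MvPowerSeries (Fin n) 𝒪 →ₐ[𝒪] A) (π : A →ₐ[𝒪] 𝒪)
    (hγ : Function.Surjective γ) (hX : ∀ i, π (γ (MvPowerSeries.X i)) = 0) :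
    RingHom.ker (π : A →+* 𝒪) =
      Ideal.span (Set.range fun i : Fin n => γ (MvPowerSeries.X i)) := by
  apply le_antisymm
  · intro x hx
    obtain ⟨g, rfl⟩ := hγ x
    have hx' : π (γ g) = 0 := hx
    rw [s59nci_aug_eq γ π hX g] at hx'
    have h := s59nci_sub_C_mem g
    rw [hx', map_zero, sub_zero] at h
    have h2 := Ideal.mem_map_of_mem (γ : MvPowerSeries (Fin n) 𝒪 →+* A) h
    rw [Ideal.map_span, ← Set.range_comp] at h2
    exact h2
  · rw [Ideal.span_le]
    rintro _ ⟨i, rfl⟩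
    exact hX i

/-- Membership in the annihilator of the augmentation ideal, in terms of the presentation. -/
theorem s59nci_mem_ann_iff (γ : MvPowerSeries (Fin n) 𝒪 →ₐ[𝒪] A) (π : A →ₐ[𝒪] 𝒪)
    (hγ : Function.Surjective γ) (hX : ∀ i, π (γ (MvPowerSeries.X i)) = 0)
    (a : MvPowerSeries (Fin n) 𝒪) :
    γ a ∈ Submodule.annihilator (RingHom.ker (π : A →+* 𝒪)) ↔
      ∀ i, a * MvPowerSeries.X i ∈ RingHom.ker (γ : MvPowerSeries (Fin n) 𝒪 →+* A) := by
  rw [Submodule.mem_annihilator]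
  constructor
  · intro h i
    rw [RingHom.mem_ker]
    have h1 := h (γ (MvPowerSeries.X i)) (hX i)
    rw [smul_eq_mul] at h1
    show γ (a * MvPowerSeries.X i) = 0
    rw [map_mul, h1]
  · intro h x hx0
    have hx : x ∈ Ideal.span (Set.range fun i : Fin n => γ (MvPowerSeries.X i)) := by
      rw [← s59nci_ker_aug γ π hγ hX]; exact hx0
    rw [smul_eq_mul]
    refine Submodule.span_induction (p := fun y _ => γ a * y = 0) ?_ ?_ ?_ ?_ hx
    · rintro _ ⟨i, rfl⟩
      have := h i
      rw [RingHom.mem_ker] at this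
      have h' : γ (a * MvPowerSeries.X i) = 0 := this
      rwa [map_mul] at h'
    · simp
    · intro y z _ _ hy hz
      rw [mul_add, hy, hz, add_zero]
    · intro c y _ hy
      rw [smul_eq_mul, mul_left_comm, hy, mul_zero]

end Aug

end Fermat.Agent.S59.NC
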