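/-
S59-NC, piece NC-Cover (helper87), part B: the monomial-dominant complete-intersection cover.
`s59ncv_stmtCover : s59nc_StmtCover`.
-/
import Fermat.Agent.S59.NC.CoverA
import Fermat.Agent.S59.NC.IsoAux
import Fermat.Agent.S59.NC.Basis

set_option autoImplicit false
set_option linter.unusedSectionVars false
set_option linter.style.haveILetI false

namespace Fermat.Agent.S59.NC

open IsLocalRing

universe u

section Lin

variable {𝒪 : Type*} [CommRing 𝒪] {n : ℕ}

/-- The coefficient of `X_j` in `∑ l, w l * X l` is `w j (0)`. -/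
theorem s59ncv_lin_sum (w : Fin n → MvPowerSeries (Fin n) 𝒪) (j : Fin n) :
    s59ncLin (∑ l, w l * MvPowerSeries.X l) j = MvPowerSeries.constantCoeff (w j) := by
  classical
  unfold s59ncLin
  rw [map_sum, Finset.sum_eq_single j]
  · have h := MvPowerSeries.coeff_add_mul_monomial (R := 𝒪) (σ := Fin n) (m := 0)
      (n := Finsupp.single j 1) (φ := w j) (1 : 𝒪)
    rw [zero_add, mul_one] at h
    exact h
  · intro l _ hl
    have h := MvPowerSeries.coeff_mul_monomial (R := 𝒪) (σ := Fin n) (m := Finsupp.single j 1)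
      (n := Finsupp.single l 1) (φ := w l) (1 : 𝒪)
    have hle : ¬ (Finsupp.single l 1 ≤ Finsupp.single j (1 : ℕ)) := by
      intro hle
      have := hle l
      rw [Finsupp.single_eq_same, Finsupp.single_eq_of_ne hl] at this
      exact absurd this (by norm_num)
    rw [if_neg hle] at h
    exact h
  · intro h; exact absurd (Finset.mem_univ j) h

end Lin

section Row

variable {𝒪 : Type*} [CommRing 𝒪] [IsLocalRing 𝒪] {n : ℕ}

/-- A row of polynomials `W` with `∑ j, W j * X j ∈ J` and prescribed constant terms. -/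
theorem s59ncv_exists_row (J : Ideal (MvPowerSeries (Fin n) 𝒪))
    (hJ : J ≤ RingHom.ker (MvPowerSeries.constantCoeff (σ := Fin n) (R := 𝒪)))
    (hfin : Module.Finite 𝒪 (MvPowerSeries (Fin n) 𝒪 ⧸ J))
    (g : MvPowerSeries (Fin n) 𝒪) (hg : g ∈ J) :
    ∃ W : Fin n → MvPolynomial (Fin n) 𝒪,
      (∑ j, ((W j : MvPolynomial (Fin n) 𝒪) : MvPowerSeries (Fin n) 𝒪) * MvPowerSeries.X j) ∈ J ∧
      ∀ j, MvPolynomial.constantCoeff (W j) = s59ncLin g j := by
  classical
  have hg0 : MvPowerSeries.constantCoeff g = 0 := by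
    have := hJ hg
    rwa [RingHom.mem_ker] at this
  have hgX : g ∈ Ideal.span (Set.range (MvPowerSeries.X : Fin n → MvPowerSeries (Fin n) 𝒪)) := by
    have := s59nci_sub_C_mem g
    rwa [hg0, map_zero, sub_zero] at this
  obtain ⟨w, hw⟩ := (Submodule.mem_span_range_iff_exists_fun (MvPowerSeries (Fin n) 𝒪)).1 hgX
  simp only [smul_eq_mul] at hw
  choose W hW using fun j => s59ncv_exists_poly J hfin (w j)
  refine ⟨W, ?_, ?_⟩
  · have h1 : (∑ j, ((W j : MvPolynomial (Fin n) 𝒪) : MvPowerSeries (Fin n) 𝒪) *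
        MvPowerSeries.X j) = g - ∑ j, (w j - (W j : MvPowerSeries (Fin n) 𝒪)) *
          MvPowerSeries.X j := by
      rw [← hw, ← Finset.sum_sub_distrib]
      refine Finset.sum_congr rfl fun j _ => ?_
      ring
    rw [h1]
    exact J.sub_mem hg (J.sum_mem fun j _ => J.mul_mem_right _ (hW j))
  · intro j
    have h1 : MvPowerSeries.constantCoeff (w j - (W j : MvPowerSeries (Fin n) 𝒪)) = 0 := by
      have := hJ (hW j)
      rwa [RingHom.mem_ker] at this
    rw [map_sub, sub_eq_zero] at h1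
    have h2 : MvPowerSeries.constantCoeff ((W j : MvPolynomial (Fin n) 𝒪) :
        MvPowerSeries (Fin n) 𝒪) = MvPolynomial.constantCoeff (W j) := by
      rw [← MvPowerSeries.coeff_zero_eq_constantCoeff_apply, MvPolynomial.coeff_coe,
        MvPolynomial.constantCoeff_eq]
    rw [← h2, ← h1, ← hw, s59ncv_lin_sum]

end Row

end Fermat.Agent.S59.NC

namespace Fermat.Agent.S59.NC

open IsLocalRing

universe u

section Tail

variable {𝒪 : Type*} [CommRing 𝒪] {n : ℕ}

/-- The one-variable tail `Q = ∑_{k < d} μ_k X_i^(N-1+k)`. -/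
noncomputable def s59ncvQ (μ : Polynomial 𝒪) (N : ℕ) (i : Fin n) : MvPolynomial (Fin n) 𝒪 :=
  ∑ k ∈ Finset.range μ.natDegree,
    MvPolynomial.C (μ.coeff k) * (MvPolynomial.X i : MvPolynomial (Fin n) 𝒪) ^ (N - 1 + k)

theorem s59ncvQ_mem (μ : Polynomial 𝒪) (N : ℕ) (i : Fin n) :
    s59ncvQ μ N i ∈ s59ncbLT 𝒪 (Fin n) (N - 1 + μ.natDegree) := by
  unfold s59ncvQ
  refine Submodule.sum_mem _ fun k hk => ?_
  rw [MvPolynomial.C_mul_X_pow_eq_monomial]
  refine s59ncb_LT_mono ?_ (s59ncb_monomial_mem _ _)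
  rw [Finsupp.degree_single]
  have := Finset.mem_range.1 hk
  omega

theorem s59ncvQ_constantCoeff (μ : Polynomial 𝒪) {N : ℕ} (hN : 2 ≤ N) (i : Fin n) :
    MvPolynomial.constantCoeff (s59ncvQ μ N i) = 0 := by
  unfold s59ncvQ
  rw [map_sum]
  refine Finset.sum_eq_zero fun k _ => ?_
  rw [map_mul, map_pow, MvPolynomial.constantCoeff_X, zero_pow (by omega), mul_zero]

theorem s59ncvQ_mul_X {μ : Polynomial 𝒪} (hμ : μ.Monic) {N : ℕ} (hN : 1 ≤ N) (i : Fin n) :
    ((MvPolynomial.X i : MvPolynomial (Fin n) 𝒪) ^ (N + μ.natDegree - 1) + s59ncvQ μ N i) *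
        MvPolynomial.X i =
      MvPolynomial.X i ^ N * Polynomial.aeval (MvPolynomial.X i : MvPolynomial (Fin n) 𝒪) μ := by
  rw [Polynomial.aeval_eq_sum_range, Finset.sum_range_succ, hμ.coeff_natDegree, one_smul]
  unfold s59ncvQ
  rw [add_mul, mul_add, Finset.sum_mul, Finset.mul_sum, add_comm]
  congr 1
  · refine Finset.sum_congr rfl fun k _ => ?_
    rw [MvPolynomial.smul_eq_C_mul, mul_assoc, ← pow_succ, mul_left_comm, ← pow_add]
    congr 2
    omega
  · rw [← pow_succ, ← pow_add]
    congr 1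
    omega

end Tail

section Main

/-- **NC-Cover.** -/
theorem s59ncv_stmtCover : s59nc_StmtCover.{u} := by
  intro 𝒪 _ _ _ n J hJ hfin Λ hΛ
  classical
  have hrow : ∀ i, ∃ W : Fin n → MvPolynomial (Fin n) 𝒪,
      (∑ j, ((W j : MvPolynomial (Fin n) 𝒪) : MvPowerSeries (Fin n) 𝒪) *
        MvPowerSeries.X j) ∈ J ∧ ∀ j, MvPolynomial.constantCoeff (W j) = Λ i j := by
    intro i
    obtain ⟨g, hg, hlin⟩ := hΛ i
    obtain ⟨W, hW, hW0⟩ := s59ncv_exists_row J hJ hfin g hg
    exact ⟨W, hW, fun j => by rw [hW0, hlin]⟩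
  choose W hWJ hW0 using hrow
  choose μ hμ hμJ using fun i => s59ncv_exists_monic J hfin i
  obtain ⟨B, hB⟩ : ∃ B, ∀ i j, W i j ∈ s59ncbLT 𝒪 (Fin n) B := by
    choose b hb using fun ij : Fin n × Fin n => s59ncb_exists_LT (W ij.1 ij.2)
    exact ⟨Finset.univ.sup b, fun i j =>
      s59ncb_LT_mono (Finset.le_sup (Finset.mem_univ (i, j))) (hb (i, j))⟩
  set N : ℕ := B + 2 with hN
  set e : Fin n → ℕ := fun i => N + (μ i).natDegree with he
  set G : Matrix (Fin n) (Fin n) (MvPolynomial (Fin n) 𝒪) := fun i j =>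
    W i j + if i = j then MvPolynomial.X i ^ (e i - 1) + s59ncvQ (μ i) N i else 0 with hGdef
  have hGdiff : ∀ i j, G i j -
      (if i = j then (MvPolynomial.X i : MvPolynomial (Fin n) 𝒪) ^ (e i - 1) else 0) =
      W i j + if i = j then s59ncvQ (μ i) N i else 0 := by
    intro i j
    simp only [hGdef]
    split_ifs <;> ring
  have hGmem : ∀ i j, (W i j + if i = j then s59ncvQ (μ i) N i else 0) ∈
      s59ncbLT 𝒪 (Fin n) (e i - 1) := by
    intro i j
    refine Submodule.add_mem _ (s59ncb_LT_mono (by simp only [he, hN]; omega) (hB i j)) ?_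
    split_ifs
    · exact s59ncb_LT_mono (by simp only [he, hN]; omega) (s59ncvQ_mem _ _ _)
    · exact Submodule.zero_mem _
  let D : S59ncData 𝒪 n :=
    { e := e
      he := fun i => by simp only [he, hN]; omega
      G := G
      hG := fun i j m hm => by
        rw [hGdiff] at hm
        have := (s59ncb_mem_LT.1 (hGmem i j)) m hm
        omega }
  refine ⟨D, ?_, ?_⟩
  · intro i
    have hf : D.f i = (∑ j, W i j * MvPolynomial.X j) +
        MvPolynomial.X i ^ N * Polynomial.aeval (MvPolynomial.X i : MvPolynomial (Fin n) 𝒪) (μ i) := by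
      have h1 : D.f i = ∑ j, G i j * MvPolynomial.X j := rfl
      rw [h1]
      simp only [hGdef, add_mul, Finset.sum_add_distrib, ite_mul, zero_mul]
      rw [Finset.sum_ite_eq Finset.univ i, if_pos (Finset.mem_univ i)]
      congr 1
      rw [← add_mul]
      exact s59ncvQ_mul_X (N := N) (hμ i) (by rw [hN]; omega) i
    rw [hf]
    set ι := MvPolynomial.coeToMvPowerSeries.algHom (σ := Fin n) (R := 𝒪) 𝒪 with hι
    have hcoe : ∀ p : MvPolynomial (Fin n) 𝒪, (p : MvPowerSeries (Fin n) 𝒪) = ι p := fun p => rfl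
    rw [hcoe, map_add, map_sum, map_mul, map_pow]
    refine J.add_mem ?_ (J.mul_mem_left _ ?_)
    · have := hWJ i
      simp only [hcoe] at this
      convert this using 2 with j
      rw [map_mul]
      congr 1
      rw [← hcoe, MvPolynomial.coe_X]
    · rw [← Polynomial.aeval_algHom_apply]
      have : ι (MvPolynomial.X i) = MvPowerSeries.X i := by
        rw [← hcoe, MvPolynomial.coe_X]
      rw [this]
      exact hμJ i
  · intro i j
    show MvPolynomial.constantCoeff (G i j) = Λ i j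
    simp only [hGdef]
    rw [map_add, hW0]
    split_ifs with hij
    · rw [map_add, map_pow, MvPolynomial.constantCoeff_X,
        zero_pow (by simp only [he, hN]; omega), s59ncvQ_constantCoeff _ (by rw [hN]; omega), add_zero,
        add_zero]
    · rw [map_zero, add_zero]

end Main

end Fermat.Agent.S59.NC
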