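/-
S59-NC, piece NC-Crit (helper13): the criterion, core.

`s59nce_stmtCrit_of : s59nc_StmtGorPS → s59nc_StmtCrit`.

`J ⊆ (X)` an ideal of `P = 𝒪⟦X⟧` with `𝒪`-torsion-free quotient, monomial-dominant data `D` with
`f i ∈ J`, `δ = det G (0) ≠ 0` and `δ ∣ a(0)` whenever `a·(X) ⊆ J`.  Then `J = (f)`:
* reduce modulo the uniformizer `ϖ`: `ρ : P → k⟦X⟧`;
* `d̄ = det Ḡ ∉ ρ(J)`: else `d = j + ϖ y`, `y·X_i ∈ J` (Cramer, torsion-free), so `δ ∣ y(0)` and
  `δ = ϖ y(0)`: a contradiction;
* (GorPS) `ρ(J) = (f̄)`, so `J ⊆ (f) + ϖ J`, and Nakayama in the Noetherian local ring `P`.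
-/
import Fermat.Agent.S59.NC.Plan
import Mathlib.RingTheory.MvPowerSeries.Equiv
import Mathlib.RingTheory.Nakayama
import Mathlib.LinearAlgebra.Matrix.Adjugate
import Mathlib.RingTheory.LocalRing.ResidueField.Basic

set_option autoImplicit false

namespace Fermat.Agent.S59.NC

open IsLocalRing

universe u

section Map

variable {R S : Type*} [CommRing R] [CommRing S] {n : ℕ}

/-- The coercion to power series commutes with base change. -/
theorem s59nce_coe_map (φ : R →+* S) (p : MvPolynomial (Fin n) R) :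
    ((MvPolynomial.map φ p : MvPolynomial (Fin n) S) : MvPowerSeries (Fin n) S) =
      MvPowerSeries.map φ (p : MvPowerSeries (Fin n) R) := by
  ext m
  rw [MvPolynomial.coeff_coe, MvPolynomial.coeff_map, MvPowerSeries.coeff_map,
    MvPolynomial.coeff_coe]

/-- Base change of power series along a surjection is surjective. -/
theorem s59nce_map_surjective (φ : R →+* S) (hφ : Function.Surjective φ) :
    Function.Surjective (MvPowerSeries.map (σ := Fin n) φ) := by
  intro g
  choose lift hlift using hφ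
  let x0 : MvPowerSeries (Fin n) R := fun m => lift (MvPowerSeries.coeff m g)
  have hx0 : ∀ m, MvPowerSeries.coeff m x0 = lift (MvPowerSeries.coeff m g) := fun m => rfl
  refine ⟨x0, ?_⟩
  ext m
  rw [MvPowerSeries.coeff_map, hx0]
  exact hlift _

/-- **Cramer**: `det G · X_i ∈ (f)` in the polynomial ring. -/
theorem s59nce_d_mul_X_mem (D : S59ncData R n) (i : Fin n) :
    D.d * MvPolynomial.X i ∈ D.idealPoly := by
  have h : D.d * MvPolynomial.X i = ∑ l, D.G.adjugate i l * D.f l := by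
    have h1 : D.G.adjugate * D.G = D.G.det • (1 : Matrix (Fin n) (Fin n) _) :=
      Matrix.adjugate_mul D.G
    have h2 : (D.G.adjugate * D.G).mulVec (fun j => (MvPolynomial.X j : MvPolynomial (Fin n) R)) i
        = D.G.det * MvPolynomial.X i := by
      rw [h1, Matrix.smul_mulVec, Matrix.one_mulVec, Pi.smul_apply, smul_eq_mul]
    rw [S59ncData.d, ← h2, ← Matrix.mulVec_mulVec]
    rfl
  rw [h]
  exact Ideal.sum_mem _ fun l _ => Ideal.mul_mem_left _ _ (Ideal.subset_span ⟨l, rfl⟩)

/-- The power series ideal `(f)` is the extension of the polynomial ideal `(f)`. -/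
theorem s59nce_idealPS_eq_map (D : S59ncData R n) :
    D.idealPS = Ideal.map (MvPolynomial.coeToMvPowerSeries.ringHom) D.idealPoly := by
  rw [S59ncData.idealPS, S59ncData.idealPoly, Ideal.map_span, ← Set.range_comp]
  rfl

/-- **Cramer**, in the power series ring. -/
theorem s59nce_d_mul_X_mem_PS (D : S59ncData R n) (i : Fin n) :
    (D.d : MvPowerSeries (Fin n) R) * MvPowerSeries.X i ∈ D.idealPS := by
  rw [s59nce_idealPS_eq_map]
  have := Ideal.mem_map_of_mem (MvPolynomial.coeToMvPowerSeries.ringHom)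
    (s59nce_d_mul_X_mem D i)
  rwa [MvPolynomial.coeToMvPowerSeries.ringHom_apply, MvPolynomial.coe_mul,
    MvPolynomial.coe_X] at this

/-- The base change of the ideal `(f)`. -/
theorem s59nce_map_idealPS (φ : R →+* S) (D : S59ncData R n) :
    Ideal.map (MvPowerSeries.map (σ := Fin n) φ) D.idealPS = (D.map φ).idealPS := by
  rw [S59ncData.idealPS, S59ncData.idealPS, Ideal.map_span, ← Set.range_comp]
  congr 2
  funext i
  rw [Function.comp_apply, S59ncData.map_f, s59nce_coe_map]

end Map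

section Red

variable {𝒪 : Type*} [CommRing 𝒪] [IsDomain 𝒪] [IsDiscreteValuationRing 𝒪] {n : ℕ}

/-- The kernel of the reduction of power series is generated by the uniformizer. -/
theorem s59nce_exists_smul_of_map_eq_zero {ϖ : 𝒪} (hϖ : Irreducible ϖ)
    (x : MvPowerSeries (Fin n) 𝒪) (hx : MvPowerSeries.map (residue 𝒪) x = 0) :
    ∃ y : MvPowerSeries (Fin n) 𝒪, x = ϖ • y := by
  have h : ∀ m, ∃ c, MvPowerSeries.coeff m x = ϖ * c := by
    intro m
    have h0 := congrArg (MvPowerSeries.coeff m) hx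
    rw [MvPowerSeries.coeff_map, map_zero, residue_eq_zero_iff, hϖ.maximalIdeal_eq,
      Ideal.mem_span_singleton] at h0
    exact h0
  choose c hc using h
  let y0 : MvPowerSeries (Fin n) 𝒪 := fun m => c m
  have hy0 : ∀ m, MvPowerSeries.coeff m y0 = c m := fun m => rfl
  refine ⟨y0, ?_⟩
  ext m
  rw [hc m, MvPowerSeries.smul_eq_C_mul, MvPowerSeries.coeff_C_mul, hy0]

/-- The uniformizer lies in the Jacobson radical of the power series ring. -/
theorem s59nce_span_le_jacobson {ϖ : 𝒪} (hϖ : Irreducible ϖ) :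
    Ideal.span {(MvPowerSeries.C ϖ : MvPowerSeries (Fin n) 𝒪)} ≤
      Ideal.jacobson (⊥ : Ideal (MvPowerSeries (Fin n) 𝒪)) := by
  rw [IsLocalRing.jacobson_eq_maximalIdeal ⊥ bot_ne_top, Ideal.span_le,
    Set.singleton_subset_iff, SetLike.mem_coe, IsLocalRing.mem_maximalIdeal, mem_nonunits_iff]
  intro hu
  have h1 : IsUnit (MvPowerSeries.constantCoeff (MvPowerSeries.C ϖ : MvPowerSeries (Fin n) 𝒪)) :=
    hu.map _
  rw [MvPowerSeries.constantCoeff_C] at h1
  exact hϖ.not_isUnit h1

end Red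

/-- **NC-Crit.** -/
theorem s59nce_stmtCrit_of (hG : s59nc_StmtGorPS.{u}) : s59nc_StmtCrit.{u} := by
  intro 𝒪 _ _ _ n J D hJ htf hf hδ hη
  classical
  obtain ⟨ϖ, hϖ⟩ := IsDiscreteValuationRing.exists_irreducible 𝒪
  have hϖ0 : ϖ ≠ 0 := hϖ.ne_zero
  let ρ : MvPowerSeries (Fin n) 𝒪 →+* MvPowerSeries (Fin n) (ResidueField 𝒪) :=
    MvPowerSeries.map (residue 𝒪)
  have hρ : Function.Surjective ρ := s59nce_map_surjective _ residue_surjective
  -- `(f) ≤ J`
  have hfJ : D.idealPS ≤ J := by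
    rw [S59ncData.idealPS, Ideal.span_le]
    rintro _ ⟨i, rfl⟩
    exact hf i
  -- the reduced data
  let Db : S59ncData (ResidueField 𝒪) n := D.map (residue 𝒪)
  have hDb : Db.idealPS = Ideal.map ρ D.idealPS := (s59nce_map_idealPS (residue 𝒪) D).symm
  have hle : Db.idealPS ≤ Ideal.map ρ J := by
    rw [hDb]
    exact Ideal.map_mono hfJ
  have hdb : (Db.d : MvPowerSeries (Fin n) (ResidueField 𝒪)) =
      ρ (D.d : MvPowerSeries (Fin n) 𝒪) := by
    rw [show Db.d = MvPolynomial.map (residue 𝒪) D.d from S59ncData.map_d _ D]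
    exact s59nce_coe_map _ _
  -- `d̄ ∉ ρ(J)`
  have hnot : (Db.d : MvPowerSeries (Fin n) (ResidueField 𝒪)) ∉ Ideal.map ρ J := by
    intro hmem
    rw [hdb, Ideal.mem_map_iff_of_surjective ρ hρ] at hmem
    obtain ⟨j, hj, hjd⟩ := hmem
    have hker : ρ ((D.d : MvPowerSeries (Fin n) 𝒪) - j) = 0 := by
      rw [map_sub, hjd, sub_self]
    obtain ⟨y, hy⟩ := s59nce_exists_smul_of_map_eq_zero hϖ _ hker
    -- `y · X_i ∈ J`
    have hyX : ∀ i, y * MvPowerSeries.X i ∈ J := by
      intro i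
      apply htf ϖ _ hϖ0
      have e : ϖ • (y * MvPowerSeries.X i) =
          (D.d : MvPowerSeries (Fin n) 𝒪) * MvPowerSeries.X i - j * MvPowerSeries.X i := by
        rw [← smul_mul_assoc, ← hy, sub_mul]
      rw [e]
      exact J.sub_mem (hfJ (s59nce_d_mul_X_mem_PS D i)) (J.mul_mem_right _ hj)
    obtain ⟨t, ht⟩ := hη y hyX
    -- constant coefficients
    have hj0 : MvPowerSeries.constantCoeff j = 0 := hJ hj
    have hc := congrArg MvPowerSeries.constantCoeff hy
    rw [map_sub, hj0, sub_zero, MvPowerSeries.smul_eq_C_mul, map_mul,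
      MvPowerSeries.constantCoeff_C, ht] at hc
    have hd0 : MvPowerSeries.constantCoeff (D.d : MvPowerSeries (Fin n) 𝒪) =
        MvPolynomial.constantCoeff D.d := by
      rw [← MvPowerSeries.coeff_zero_eq_constantCoeff_apply, MvPolynomial.coeff_coe,
        MvPolynomial.constantCoeff_eq]
    rw [hd0] at hc
    -- `δ = ϖ δ t`
    have h1 : MvPolynomial.constantCoeff D.d * (1 - ϖ * t) = 0 := by
      rw [mul_sub, mul_one, sub_eq_zero]
      calc MvPolynomial.constantCoeff D.d = ϖ * (MvPolynomial.constantCoeff D.d * t) := hc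
        _ = MvPolynomial.constantCoeff D.d * (ϖ * t) := by ring
    rcases mul_eq_zero.1 h1 with h2 | h2
    · exact hδ h2
    · apply hϖ.not_isUnit
      exact IsUnit.of_mul_eq_one t (sub_eq_zero.1 h2).symm
  -- Gorenstein: `ρ(J) = (f̄)`
  have hGor := hG (ResidueField 𝒪) n Db (Ideal.map ρ J) hle
  have heq : Ideal.map ρ J = Db.idealPS := by
    by_contra hne
    exact hnot (hGor.2 hne)
  -- `J ≤ (f) + ϖ J`
  have hsup : J ≤ D.idealPS ⊔
      Ideal.span {(MvPowerSeries.C ϖ : MvPowerSeries (Fin n) 𝒪)} • J := by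
    intro j hj
    have h1 : ρ j ∈ Ideal.map ρ D.idealPS := by
      rw [← hDb, ← heq]
      exact Ideal.mem_map_of_mem ρ hj
    rw [Ideal.mem_map_iff_of_surjective ρ hρ] at h1
    obtain ⟨g, hg, hgj⟩ := h1
    have hker : ρ (j - g) = 0 := by rw [map_sub, hgj, sub_self]
    obtain ⟨y, hy⟩ := s59nce_exists_smul_of_map_eq_zero hϖ _ hker
    have hyJ : y ∈ J := by
      apply htf ϖ y hϖ0
      rw [← hy]
      exact J.sub_mem hj (hfJ hg)
    have e : j = g + MvPowerSeries.C ϖ * y := by
      have : ϖ • y = MvPowerSeries.C ϖ * y := by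
        rw [MvPowerSeries.smul_eq_C_mul]
      rw [← this, ← hy]
      ring
    rw [e]
    refine Submodule.add_mem_sup hg ?_
    exact Submodule.smul_mem_smul (Ideal.mem_span_singleton_self _) hyJ
  -- Nakayama
  have hfg : (J : Submodule (MvPowerSeries (Fin n) 𝒪) (MvPowerSeries (Fin n) 𝒪)).FG :=
    IsNoetherian.noetherian J
  have hJle : J ≤ D.idealPS :=
    Submodule.le_of_le_smul_of_le_jacobson_bot hfg (s59nce_span_le_jacobson hϖ) hsup
  exact le_antisymm hJle hfJ

end Fermat.Agent.S59.NC
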