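/-
S59-NC, piece NC-Gor (helper73): `s59nc_StmtTau → s59nc_StmtGor`.

Over a field `k`, `Ā = k[X]/(f)` is finite-dimensional and `β(x, y) = τ(x y)` is a perfect pairing
(`τ` the Frobenius form of NC-Tau).  `d = det G` kills `(X)` modulo `(f)` (Cramer) and `τ d = 1`.
Hence for an ideal `C ⊇ (f)`:  `d ∈ C  ⇔  every s with s C ⊆ (f) vanishes at the origin`.
-/
import Fermat.Agent.S59.NC.Plan
import Mathlib.LinearAlgebra.Matrix.Adjugate
import Mathlib.LinearAlgebra.Dual.Lemmas
import Mathlib.LinearAlgebra.FiniteDimensional.Lemmas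
import Mathlib.RingTheory.MvPolynomial.Ideal
import Mathlib.RingTheory.Ideal.Quotient.Operations

set_option autoImplicit false

namespace Fermat.Agent.S59.NC

open MvPolynomial

universe u

section Cramer

variable {R : Type*} [CommRing R] {n : ℕ}

/-- Cramer's rule: `det G * X_j ∈ (f)`. -/
theorem s59ncg_d_mul_X (D : S59ncData R n) (j : Fin n) : D.d * X j ∈ D.idealPoly := by
  have hf : (D.G.mulVec fun j => (X j : MvPolynomial (Fin n) R)) = D.f := by
    funext i
    rfl
  have h1 : (D.G.adjugate * D.G).mulVec (fun j => (X j : MvPolynomial (Fin n) R)) j =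
      D.d * X j := by
    rw [Matrix.adjugate_mul, Matrix.smul_mulVec, Matrix.one_mulVec]
    rfl
  have h2 : (D.G.adjugate * D.G).mulVec (fun j => (X j : MvPolynomial (Fin n) R)) j =
      ∑ i, D.G.adjugate j i * D.f i := by
    rw [← Matrix.mulVec_mulVec, hf]
    rfl
  rw [← h1, h2]
  exact Ideal.sum_mem _ fun i _ => Ideal.mul_mem_left _ _ (Ideal.subset_span ⟨i, rfl⟩)

/-- a polynomial without constant term lies in the ideal of the variables -/
theorem s59ncg_mem_span_X {p : MvPolynomial (Fin n) R} (hp : constantCoeff p = 0) :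
    p ∈ Ideal.span (Set.range (X : Fin n → MvPolynomial (Fin n) R)) := by
  rw [← Set.image_univ, mem_ideal_span_X_image]
  intro m hm
  by_contra h
  push Not at h
  have hm0 : m = 0 := Finsupp.ext fun i => by simpa using h i (Set.mem_univ i)
  rw [mem_support_iff, hm0] at hm
  rw [constantCoeff_eq] at hp
  exact hm hp

/-- `d = det G` kills the polynomials without constant term modulo `(f)` -/
theorem s59ncg_mul_d_mem (D : S59ncData R n) {p : MvPolynomial (Fin n) R}
    (hp : constantCoeff p = 0) : p * D.d ∈ D.idealPoly := by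
  have h := s59ncg_mem_span_X hp
  refine Submodule.span_induction (p := fun q _ => q * D.d ∈ D.idealPoly) ?_ ?_ ?_ ?_ h
  · rintro _ ⟨j, rfl⟩
    rw [mul_comm]
    exact s59ncg_d_mul_X D j
  · simp
  · intro x y _ _ hx hy
    rw [add_mul]
    exact Ideal.add_mem _ hx hy
  · intro a x _ hx
    rw [smul_eq_mul, mul_assoc]
    exact Ideal.mul_mem_left _ _ hx

end Cramer

section Field

variable {k : Type u} [Field k] {n : ℕ}

/-- the Frobenius form on the quotient `k[X]/(f)` -/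
noncomputable def s59ncgTauBar (D : S59ncData k n) (τ : MvPolynomial (Fin n) k →ₗ[k] k)
    (hτ0 : ∀ p ∈ D.idealPoly, τ p = 0) : (MvPolynomial (Fin n) k ⧸ D.idealPoly) →ₗ[k] k :=
  ((D.idealPoly.restrictScalars k).liftQ τ (fun p hp => hτ0 p hp)).comp
    (Submodule.Quotient.restrictScalarsEquiv k D.idealPoly).symm.toLinearMap

theorem s59ncgTauBar_mk (D : S59ncData k n) (τ : MvPolynomial (Fin n) k →ₗ[k] k)
    (hτ0 : ∀ p ∈ D.idealPoly, τ p = 0) (p : MvPolynomial (Fin n) k) :
    s59ncgTauBar D τ hτ0 (Ideal.Quotient.mk D.idealPoly p) = τ p := rfl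

/-- the pairing `β(x, y) = τ(x y)` on `k[X]/(f)` -/
noncomputable def s59ncgBeta (D : S59ncData k n) (τ : MvPolynomial (Fin n) k →ₗ[k] k)
    (hτ0 : ∀ p ∈ D.idealPoly, τ p = 0) :
    (MvPolynomial (Fin n) k ⧸ D.idealPoly) →ₗ[k]
      Module.Dual k (MvPolynomial (Fin n) k ⧸ D.idealPoly) :=
  (LinearMap.mul k (MvPolynomial (Fin n) k ⧸ D.idealPoly)).compr₂ (s59ncgTauBar D τ hτ0)

theorem s59ncgBeta_mk (D : S59ncData k n) (τ : MvPolynomial (Fin n) k →ₗ[k] k)
    (hτ0 : ∀ p ∈ D.idealPoly, τ p = 0) (p q : MvPolynomial (Fin n) k) :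
    s59ncgBeta D τ hτ0 (Ideal.Quotient.mk D.idealPoly p) (Ideal.Quotient.mk D.idealPoly q) =
      τ (p * q) := by
  rw [s59ncgBeta, LinearMap.compr₂_apply, LinearMap.mul_apply', ← map_mul, s59ncgTauBar_mk]

theorem s59ncgBeta_injective (D : S59ncData k n) (τ : MvPolynomial (Fin n) k →ₗ[k] k)
    (hτ0 : ∀ p ∈ D.idealPoly, τ p = 0)
    (hτnd : ∀ x, (∀ y, τ (x * y) = 0) → x ∈ D.idealPoly) :
    Function.Injective (s59ncgBeta D τ hτ0) := by
  rw [← LinearMap.ker_eq_bot, LinearMap.ker_eq_bot']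
  intro x hx
  obtain ⟨p, rfl⟩ := Ideal.Quotient.mk_surjective x
  rw [Ideal.Quotient.eq_zero_iff_mem]
  refine hτnd p fun y => ?_
  rw [← s59ncgBeta_mk D τ hτ0, hx]
  rfl

theorem s59ncgBeta_surjective (D : S59ncData k n) (τ : MvPolynomial (Fin n) k →ₗ[k] k)
    (hτ0 : ∀ p ∈ D.idealPoly, τ p = 0)
    (hτnd : ∀ x, (∀ y, τ (x * y) = 0) → x ∈ D.idealPoly)
    [Module.Finite k (MvPolynomial (Fin n) k ⧸ D.idealPoly)] :
    Function.Surjective (s59ncgBeta D τ hτ0) :=
  (LinearMap.injective_iff_surjective_of_finrank_eq_finrank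
    (Subspace.dual_finrank_eq (K := k) (V := MvPolynomial (Fin n) k ⧸ D.idealPoly)).symm).1
    (s59ncgBeta_injective D τ hτ0 hτnd)

end Field

/-- **NC-Gor**: the polynomial form of the Gorenstein property, from NC-Tau. -/
theorem s59ncg_stmtGor (hT : s59nc_StmtTau.{u}) : s59nc_StmtGor.{u} := by
  intro k _ n D 𝔠 h𝔠
  obtain ⟨hfin, τ, hτ0, hτnd, hτd⟩ := hT k n D
  constructor
  · intro hd s hs
    have h1 : s * D.d ∈ D.idealPoly := hs _ hd
    have h2 : (s - C (constantCoeff s)) * D.d ∈ D.idealPoly :=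
      s59ncg_mul_d_mem D (by simp)
    have h3 : C (constantCoeff s) * D.d ∈ D.idealPoly := by
      have e : C (constantCoeff s) * D.d = s * D.d - (s - C (constantCoeff s)) * D.d := by ring
      rw [e]
      exact Ideal.sub_mem _ h1 h2
    have h4 := hτ0 _ h3
    rw [← smul_eq_C_mul, map_smul, hτd, smul_eq_mul, mul_one] at h4
    exact h4
  · intro hs
    by_contra hd
    -- the image of `𝔠` in the quotient
    let mkl : MvPolynomial (Fin n) k →ₗ[k] (MvPolynomial (Fin n) k ⧸ D.idealPoly) :=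
      (Ideal.Quotient.mkₐ k D.idealPoly).toLinearMap
    have hmkl : ∀ p, mkl p = Ideal.Quotient.mk D.idealPoly p := fun p => rfl
    let W : Submodule k (MvPolynomial (Fin n) k ⧸ D.idealPoly) :=
      Submodule.map mkl (𝔠.restrictScalars k)
    have hdW : Ideal.Quotient.mk D.idealPoly D.d ∉ W := by
      rintro ⟨c, hc, hcd⟩
      rw [hmkl, Ideal.Quotient.eq] at hcd
      have hc' : c ∈ 𝔠 := hc
      have : D.d = c - (c - D.d) := by ring
      rw [this] at hd
      exact hd (Ideal.sub_mem _ hc' (h𝔠 hcd))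
    obtain ⟨φ, hφd, hφW⟩ := Submodule.exists_dual_map_eq_bot_of_notMem hdW inferInstance
    obtain ⟨sb, hsb⟩ := s59ncgBeta_surjective D τ hτ0 hτnd φ
    obtain ⟨s, rfl⟩ := Ideal.Quotient.mk_surjective sb
    have hφc : ∀ c ∈ 𝔠, φ (Ideal.Quotient.mk D.idealPoly c) = 0 := by
      intro c hc
      have hmem : φ (Ideal.Quotient.mk D.idealPoly c) ∈ W.map φ :=
        Submodule.mem_map_of_mem ⟨c, hc, rfl⟩
      rw [hφW] at hmem
      exact (Submodule.mem_bot k).1 hmem
    have hsc : ∀ c ∈ 𝔠, s * c ∈ D.idealPoly := by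
      intro c hc
      refine hτnd _ fun y => ?_
      rw [mul_assoc, ← s59ncgBeta_mk D τ hτ0, hsb]
      exact hφc _ (Ideal.mul_mem_right _ _ hc)
    have hs0 := hs s hsc
    have hsd : τ (s * D.d) = 0 := hτ0 _ (s59ncg_mul_d_mem D hs0)
    rw [← s59ncgBeta_mk D τ hτ0, hsb] at hsd
    exact hφd hsd

end Fermat.Agent.S59.NC
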