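/-
S59-NC, piece NC-GorPS (helper73): the power series form of the Gorenstein property.

Over a field `k`, `P = k[X]`, `S = k⟦X⟧`, `I = (f) ⊂ P`, `I_S = (f) ⊂ S`.  `P/I` is finite-dimensional,
so there are `u ∈ P`, `u(0) = 1`, and `N` with `u·(X)^N ⊆ I` (the powers of the maximal ideal of the
origin stabilise in `P/I`; Nakayama).  Hence `(X)^N S ⊆ I_S`, and by truncation every ideal of `S`
containing `I_S` is generated by polynomials, and `u·(I_S ∩ P) ⊆ I`.  With NC-Gor:
`d ∈ C ⇔ C ≠ I_S` for every ideal `C ⊇ I_S` of `S`.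

* `s59ncp_stmtGorPS_of : (finiteness of k[X]/(f)) → s59nc_StmtGor → s59nc_StmtGorPS`;
* `s59ncp_stmtGorPS    : s59nc_StmtTau → s59nc_StmtGorPS`   (with `s59ncg_stmtGor`).
-/
import Fermat.Agent.S59.NC.Gor
import Fermat.Agent.S53.PowerSeries
import Mathlib.RingTheory.Nakayama
import Mathlib.RingTheory.Artinian.Module
import Mathlib.RingTheory.MvPowerSeries.Trunc
import Mathlib.RingTheory.MvPowerSeries.Inverse

set_option autoImplicit false

namespace Fermat.Agent.S59.NC

open MvPolynomial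

universe u

section General

variable {R : Type*} [CommRing R] {n : ℕ}

/-- the coercion `R[X] → R⟦X⟧` as a ring homomorphism (abbreviation) -/
noncomputable abbrev s59ncpι (R : Type*) [CommRing R] (n : ℕ) :
    MvPolynomial (Fin n) R →+* MvPowerSeries (Fin n) R :=
  MvPolynomial.coeToMvPowerSeries.ringHom

/-- `(f) ⊆ (X)` in the polynomial ring -/
theorem s59ncp_idealPoly_le (D : S59ncData R n) :
    D.idealPoly ≤ idealOfVars (Fin n) R := by
  rw [S59ncData.idealPoly, Ideal.span_le]
  rintro _ ⟨i, rfl⟩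
  exact Ideal.sum_mem _ fun j _ => Ideal.mul_mem_left _ _ (Ideal.subset_span ⟨j, rfl⟩)

/-- the elements of `(X)` have no constant term -/
theorem s59ncp_constantCoeff_of_mem {p : MvPolynomial (Fin n) R}
    (hp : p ∈ idealOfVars (Fin n) R) : constantCoeff p = 0 := by
  have h := (mem_pow_idealOfVars_iff' 1 p).1 (by rwa [pow_one]) 0 (by simp)
  rwa [constantCoeff_eq]

/-- `(f)` of the power series ring is the extension of `(f)` of the polynomial ring -/
theorem s59ncp_idealPS_eq_map (D : S59ncData R n) :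
    D.idealPS = Ideal.map (s59ncpι R n) D.idealPoly := by
  rw [S59ncData.idealPS, S59ncData.idealPoly, Ideal.map_span, ← Set.range_comp]
  rfl

theorem s59ncp_coe_mem_idealPS (D : S59ncData R n) {p : MvPolynomial (Fin n) R}
    (hp : p ∈ D.idealPoly) : (p : MvPowerSeries (Fin n) R) ∈ D.idealPS := by
  rw [s59ncp_idealPS_eq_map]
  exact Ideal.mem_map_of_mem (s59ncpι R n) hp

/-- the maximal ideal of the origin in the power series ring is the extension of `(X)` -/
theorem s59ncp_span_X_eq_map :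
    Ideal.span (Set.range (MvPowerSeries.X : Fin n → MvPowerSeries (Fin n) R)) =
      Ideal.map (s59ncpι R n) (idealOfVars (Fin n) R) := by
  rw [idealOfVars, Ideal.map_span, ← Set.range_comp]
  congr 2
  funext i
  exact (MvPolynomial.coe_X i).symm

/-- the elements of `(X)^N ⊂ R⟦X⟧` have no coefficients in degree `< N` -/
theorem s59ncp_coeff_of_mem_pow (N : ℕ) :
    ∀ g ∈ Ideal.span (Set.range (MvPowerSeries.X : Fin n → MvPowerSeries (Fin n) R)) ^ N,
      ∀ m : Fin n →₀ ℕ, m.degree < N → MvPowerSeries.coeff m g = 0 := by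
  classical
  induction N with
  | zero => intro g _ m hm; exact absurd hm (Nat.not_lt_zero _)
  | succ N ih =>
    intro g hg
    rw [pow_succ] at hg
    refine Submodule.mul_induction_on hg ?_ ?_
    · intro a ha b hb m hm
      rw [MvPowerSeries.coeff_mul]
      refine Finset.sum_eq_zero fun pq hpq => ?_
      rw [Finset.mem_antidiagonal] at hpq
      by_cases h1 : pq.1.degree < N
      · rw [ih a ha _ h1, zero_mul]
      · have hdeg : pq.1.degree + pq.2.degree = m.degree := by
          rw [← hpq, map_add]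
        have h2 : pq.2.degree = 0 := by omega
        have h3 : pq.2 = 0 := (Finsupp.degree_eq_zero_iff _).1 h2
        have hb0 : MvPowerSeries.coeff 0 b = 0 := by
          have hle : Ideal.span (Set.range
              (MvPowerSeries.X : Fin n → MvPowerSeries (Fin n) R)) ≤
              RingHom.ker (MvPowerSeries.constantCoeff (σ := Fin n) (R := R)) := by
            rw [Ideal.span_le]
            rintro _ ⟨i, rfl⟩
            exact MvPowerSeries.constantCoeff_X i
          exact hle hb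
        rw [h3, hb0, mul_zero]
    · intro x y hx hy m hm
      rw [map_add, hx m hm, hy m hm, add_zero]

/-- a polynomial lying in `(X)^N ⊂ R⟦X⟧` lies in `(X)^N ⊂ R[X]` -/
theorem s59ncp_mem_pow_of_coe_mem {N : ℕ} {p : MvPolynomial (Fin n) R}
    (hp : (p : MvPowerSeries (Fin n) R) ∈
      Ideal.span (Set.range (MvPowerSeries.X : Fin n → MvPowerSeries (Fin n) R)) ^ N) :
    p ∈ idealOfVars (Fin n) R ^ N := by
  rw [mem_pow_idealOfVars_iff']
  intro m hm
  rw [← MvPolynomial.coeff_coe]
  exact s59ncp_coeff_of_mem_pow N _ hp m hm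

end General

section Field

variable {k : Type u} [Field k] {n : ℕ}

/-- **the unit `u` and the exponent `N`**: `u(0) = 1` and `u·(X)^N ⊆ (f)` -/
theorem s59ncp_exists_u (D : S59ncData k n)
    [Module.Finite k (MvPolynomial (Fin n) k ⧸ D.idealPoly)] :
    ∃ (u : MvPolynomial (Fin n) k) (N : ℕ), constantCoeff u = 1 ∧
      ∀ p ∈ idealOfVars (Fin n) k ^ N, u * p ∈ D.idealPoly := by
  classical
  let Q := MvPolynomial (Fin n) k ⧸ D.idealPoly
  let mk : MvPolynomial (Fin n) k →+* Q := Ideal.Quotient.mk D.idealPoly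
  have hmk : Function.Surjective mk := Ideal.Quotient.mk_surjective
  let 𝔪 : Ideal Q := Ideal.map mk (idealOfVars (Fin n) k)
  have : IsArtinianRing Q := IsArtinianRing.of_finite k Q
  have : IsNoetherianRing Q := IsNoetherianRing.of_finite k Q
  -- the powers of `𝔪` stabilise
  let F : ℕ →o (Submodule Q Q)ᵒᵈ :=
    ⟨fun j => OrderDual.toDual (𝔪 ^ j), fun a b hab => Ideal.pow_le_pow_right hab⟩
  obtain ⟨N, hN⟩ := IsArtinian.monotone_stabilizes F
  have hNN : 𝔪 ^ N = 𝔪 ^ (N + 1) := congrArg OrderDual.ofDual (hN (N + 1) (Nat.le_succ N))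
  -- Nakayama
  have hle : (𝔪 ^ N : Submodule Q Q) ≤ 𝔪 • (𝔪 ^ N : Submodule Q Q) := by
    have e : 𝔪 • (𝔪 ^ N : Submodule Q Q) = 𝔪 ^ (N + 1) := by
      rw [smul_eq_mul]
      exact (pow_succ' 𝔪 N).symm
    rw [e, ← hNN]
  obtain ⟨r, hr1, hr0⟩ := Submodule.exists_sub_one_mem_and_smul_eq_zero_of_fg_of_le_smul 𝔪
    (𝔪 ^ N : Submodule Q Q) (IsNoetherian.noetherian _) hle
  obtain ⟨u, rfl⟩ := hmk r
  refine ⟨u, N, ?_, ?_⟩
  · -- `u - 1 ∈ (X)`
    obtain ⟨y, hy, hyu⟩ := (Ideal.mem_map_iff_of_surjective mk hmk).1 hr1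
    have h1 : mk (y - (u - 1)) = 0 := by rw [map_sub, hyu, map_sub, map_one, sub_self]
    have h2 : y - (u - 1) ∈ D.idealPoly := Ideal.Quotient.eq_zero_iff_mem.1 h1
    have h3 : u - 1 ∈ idealOfVars (Fin n) k := by
      have e : u - 1 = y - (y - (u - 1)) := by ring
      rw [e]
      exact Ideal.sub_mem _ hy (s59ncp_idealPoly_le D h2)
    have h4 := s59ncp_constantCoeff_of_mem h3
    rw [map_sub, map_one, sub_eq_zero] at h4
    exact h4
  · intro p hp
    have h1 : mk p ∈ 𝔪 ^ N := by
      rw [← Ideal.map_pow]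
      exact Ideal.mem_map_of_mem mk hp
    have h2 := hr0 (mk p) h1
    rw [smul_eq_mul, ← map_mul] at h2
    exact Ideal.Quotient.eq_zero_iff_mem.1 h2

/-- `(X)^N ⊆ (f)` in the power series ring -/
theorem s59ncp_pow_le_idealPS (D : S59ncData k n) {u : MvPolynomial (Fin n) k} {N : ℕ}
    (hu : constantCoeff u = 1) (huN : ∀ p ∈ idealOfVars (Fin n) k ^ N, u * p ∈ D.idealPoly) :
    Ideal.span (Set.range (MvPowerSeries.X : Fin n → MvPowerSeries (Fin n) k)) ^ N ≤
      D.idealPS := by
  have hunit : IsUnit (u : MvPowerSeries (Fin n) k) := by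
    rw [MvPowerSeries.isUnit_iff_constantCoeff]
    have : MvPowerSeries.constantCoeff (u : MvPowerSeries (Fin n) k) = 1 := by
      rw [← hu, constantCoeff_eq, ← MvPolynomial.coeff_coe]
      rfl
    rw [this]
    exact isUnit_one
  rw [s59ncp_span_X_eq_map, ← Ideal.map_pow, Ideal.map_le_iff_le_comap]
  intro p hp
  rw [Ideal.mem_comap]
  have h1 : ((u * p : MvPolynomial (Fin n) k) : MvPowerSeries (Fin n) k) ∈ D.idealPS :=
    s59ncp_coe_mem_idealPS D (huN p hp)
  rw [MvPolynomial.coe_mul] at h1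
  exact (Ideal.unit_mul_mem_iff_mem _ hunit).1 h1

/-- `u·((f)k⟦X⟧ ∩ k[X]) ⊆ (f)` -/
theorem s59ncp_u_mul_mem (D : S59ncData k n) {u : MvPolynomial (Fin n) k} {N : ℕ}
    (huN : ∀ p ∈ idealOfVars (Fin n) k ^ N, u * p ∈ D.idealPoly)
    {c : MvPolynomial (Fin n) k} (hc : (c : MvPowerSeries (Fin n) k) ∈ D.idealPS) :
    u * c ∈ D.idealPoly := by
  classical
  rw [S59ncData.idealPS, Ideal.mem_span_range_iff_exists_fun] at hc
  obtain ⟨g, hg⟩ := hc
  let t : Fin n → MvPolynomial (Fin n) k := fun i => MvPowerSeries.truncTotal N (g i)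
  let c' : MvPolynomial (Fin n) k := c - ∑ i, t i * D.f i
  have hc' : (c' : MvPowerSeries (Fin n) k) ∈
      Ideal.span (Set.range (MvPowerSeries.X : Fin n → MvPowerSeries (Fin n) k)) ^ N := by
    have e : (c' : MvPowerSeries (Fin n) k) =
        ∑ i, (g i - ((t i : MvPolynomial (Fin n) k) : MvPowerSeries (Fin n) k)) *
          (D.f i : MvPowerSeries (Fin n) k) := by
      have h1 : (c' : MvPowerSeries (Fin n) k) = (c : MvPowerSeries (Fin n) k) -
          ∑ i, ((t i : MvPolynomial (Fin n) k) : MvPowerSeries (Fin n) k) *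
            (D.f i : MvPowerSeries (Fin n) k) := by
        show s59ncpι k n c' = s59ncpι k n c - ∑ i, s59ncpι k n (t i) * s59ncpι k n (D.f i)
        simp only [c', map_sub, map_sum, map_mul]
      rw [h1, ← hg, ← Finset.sum_sub_distrib]
      exact Finset.sum_congr rfl fun i _ => (sub_mul _ _ _).symm
    rw [e]
    exact Ideal.sum_mem _ fun i _ => Ideal.mul_mem_right _ _
      (Fermat.Agent.S53.mvPowerSeries_sub_truncTotal_mem_pow (g i) N)
  have h2 : u * c' ∈ D.idealPoly := huN c' (s59ncp_mem_pow_of_coe_mem hc')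
  have h3 : u * c = u * c' + ∑ i, (u * t i) * D.f i := by
    simp only [c', mul_sub, mul_assoc, ← Finset.mul_sum]
    ring
  rw [h3]
  exact Ideal.add_mem _ h2
    (Ideal.sum_mem _ fun i _ => Ideal.mul_mem_left _ _ (Ideal.subset_span ⟨i, rfl⟩))

end Field

/-- **NC-GorPS** from NC-Gor and the finiteness of `k[X]/(f)`. -/
theorem s59ncp_stmtGorPS_of
    (hfin : ∀ (k : Type u) [Field k] (n : ℕ) (D : S59ncData k n),
      Module.Finite k (MvPolynomial (Fin n) k ⧸ D.idealPoly))
    (hG : s59nc_StmtGor.{u}) : s59nc_StmtGorPS.{u} := by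
  intro k _ n D 𝔠 h𝔠
  have := hfin k n D
  obtain ⟨u, N, hu, huN⟩ := s59ncp_exists_u D
  have hpow := s59ncp_pow_le_idealPS D hu huN
  constructor
  · -- `d ∈ C ⇒ C ≠ (f)`
    intro hd hC
    rw [hC] at hd
    have hle : D.idealPoly ≤ Ideal.comap (s59ncpι k n) D.idealPS := by
      intro p hp
      exact s59ncp_coe_mem_idealPS D hp
    have h1 := (hG k n D (Ideal.comap (s59ncpι k n) D.idealPS) hle).1 hd u
      (fun c hc => s59ncp_u_mul_mem D huN hc)
    rw [hu] at h1
    exact one_ne_zero h1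
  · -- `C ≠ (f) ⇒ d ∈ C`
    intro hC
    have hle : D.idealPoly ≤ Ideal.comap (s59ncpι k n) 𝔠 := by
      intro p hp
      exact h𝔠 (s59ncp_coe_mem_idealPS D hp)
    refine (hG k n D (Ideal.comap (s59ncpι k n) 𝔠) hle).2 fun s hs => ?_
    by_contra hs0
    apply hC
    refine le_antisymm ?_ h𝔠
    intro g hg
    have hsunit : IsUnit (s : MvPowerSeries (Fin n) k) := by
      rw [MvPowerSeries.isUnit_iff_constantCoeff]
      have : MvPowerSeries.constantCoeff (s : MvPowerSeries (Fin n) k) = constantCoeff s := by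
        rw [constantCoeff_eq, ← MvPolynomial.coeff_coe]
        rfl
      rw [this]
      exact isUnit_iff_ne_zero.2 hs0
    have h1 : g - ((MvPowerSeries.truncTotal N g : MvPolynomial (Fin n) k) :
        MvPowerSeries (Fin n) k) ∈ D.idealPS :=
      hpow (Fermat.Agent.S53.mvPowerSeries_sub_truncTotal_mem_pow g N)
    have h2 : ((MvPowerSeries.truncTotal N g : MvPolynomial (Fin n) k) :
        MvPowerSeries (Fin n) k) ∈ 𝔠 := by
      have e : ((MvPowerSeries.truncTotal N g : MvPolynomial (Fin n) k) :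
          MvPowerSeries (Fin n) k) = g - (g - ((MvPowerSeries.truncTotal N g :
            MvPolynomial (Fin n) k) : MvPowerSeries (Fin n) k)) := by ring
      rw [e]
      exact Ideal.sub_mem _ hg (h𝔠 h1)
    have h3 : s * MvPowerSeries.truncTotal N g ∈ D.idealPoly := hs _ h2
    have h4 := s59ncp_coe_mem_idealPS D h3
    rw [MvPolynomial.coe_mul] at h4
    have h5 := (Ideal.unit_mul_mem_iff_mem _ hsunit).1 h4
    have e : g = (g - ((MvPowerSeries.truncTotal N g : MvPolynomial (Fin n) k) :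
        MvPowerSeries (Fin n) k)) + ((MvPowerSeries.truncTotal N g :
          MvPolynomial (Fin n) k) : MvPowerSeries (Fin n) k) := by ring
    rw [e]
    exact Ideal.add_mem _ h1 h5

/-- **NC-GorPS** from NC-Tau. -/
theorem s59ncp_stmtGorPS (hT : s59nc_StmtTau.{u}) : s59nc_StmtGorPS.{u} :=
  s59ncp_stmtGorPS_of (fun k _ n D => (hT k n D).1) (s59ncg_stmtGor hT)

end Fermat.Agent.S59.NC
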