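/-
S59-NC, piece NC-Iso (helper87): a local ring `𝒪` which is a retract of a complete local
`𝒪`-algebra `R` (via an augmentation `π : R →ₐ[𝒪] 𝒪`) is complete.
-/
import Mathlib.RingTheory.AdicCompletion.Basic
import Mathlib.RingTheory.AdicCompletion.Noetherian
import Mathlib.RingTheory.LocalRing.MaximalIdeal.Basic
import Mathlib.RingTheory.Filtration
import Mathlib.RingTheory.LocalRing.RingHom.Basic

set_option autoImplicit false
set_option linter.unusedSectionVars false
set_option linter.style.haveILetI false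

namespace Fermat.Agent.S59.NC

open IsLocalRing

section Complete

variable {𝒪 : Type*} [CommRing 𝒪] [IsLocalRing 𝒪] [IsNoetherianRing 𝒪]
variable {R : Type*} [CommRing R] [IsLocalRing R] [Algebra 𝒪 R]

theorem s59nci_map_maximalIdeal_le (π : R →ₐ[𝒪] 𝒪) :
    (maximalIdeal R).map (π : R →+* 𝒪) ≤ maximalIdeal 𝒪 := by
  rw [Ideal.map_le_iff_le_comap]
  intro x hx
  rw [Ideal.mem_comap, IsLocalRing.mem_maximalIdeal, mem_nonunits_iff]
  intro hu
  -- `x = algebraMap (π x) + (x - algebraMap (π x))`, the second term is in `𝔪_R`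
  have hker : x - algebraMap 𝒪 R (π x) ∈ maximalIdeal R := by
    have hne : RingHom.ker (π : R →+* 𝒪) ≠ ⊤ := by
      intro h
      have h1 : (1 : R) ∈ RingHom.ker (π : R →+* 𝒪) := by rw [h]; trivial
      rw [RingHom.mem_ker] at h1
      have : π 1 = 0 := h1
      rw [map_one] at this
      exact one_ne_zero this
    refine IsLocalRing.le_maximalIdeal hne ?_
    rw [RingHom.mem_ker]
    show π (x - algebraMap 𝒪 R (π x)) = 0
    simp
  have hu' : IsUnit (algebraMap 𝒪 R (π x)) := hu.map (algebraMap 𝒪 R)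
  have h2 : algebraMap 𝒪 R (π x) ∈ maximalIdeal R := by
    have := (maximalIdeal R).sub_mem hx hker
    simpa using this
  exact (IsLocalRing.mem_maximalIdeal _).1 h2 hu'

theorem s59nci_algebraMap_maximalIdeal_le (π : R →ₐ[𝒪] 𝒪) :
    (maximalIdeal 𝒪).map (algebraMap 𝒪 R) ≤ maximalIdeal R := by
  rw [Ideal.map_le_iff_le_comap]
  intro c hc
  rw [Ideal.mem_comap, IsLocalRing.mem_maximalIdeal, mem_nonunits_iff]
  intro hu
  have : IsUnit (π (algebraMap 𝒪 R c)) := hu.map π
  rw [AlgHom.commutes] at this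
  exact (IsLocalRing.mem_maximalIdeal _).1 hc this

/-- A Noetherian local ring which is a retract of a complete local algebra is complete. -/
theorem s59nci_isAdicComplete_of_aug [IsAdicComplete (maximalIdeal R) R] (π : R →ₐ[𝒪] 𝒪) :
    IsAdicComplete (maximalIdeal 𝒪) 𝒪 := by
  haveI : IsHausdorff (maximalIdeal 𝒪) 𝒪 :=
    IsHausdorff.of_le_jacobson _ _ (IsLocalRing.maximalIdeal_le_jacobson _)
  refine { prec' := ?_ }
  intro f hf
  -- lift the Cauchy sequence to `R`
  have hpowR : ∀ k, (maximalIdeal 𝒪 ^ k).map (algebraMap 𝒪 R) ≤ maximalIdeal R ^ k := by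
    intro k
    rw [Ideal.map_pow]
    exact Ideal.pow_right_mono (s59nci_algebraMap_maximalIdeal_le π) k
  have hpow𝒪 : ∀ k, (maximalIdeal R ^ k).map (π : R →+* 𝒪) ≤ maximalIdeal 𝒪 ^ k := by
    intro k
    rw [Ideal.map_pow]
    exact Ideal.pow_right_mono (s59nci_map_maximalIdeal_le π) k
  have hcauchy : ∀ {m n : ℕ}, m ≤ n →
      algebraMap 𝒪 R (f m) ≡ algebraMap 𝒪 R (f n) [SMOD (maximalIdeal R ^ m • ⊤ : Submodule R R)] := by
    intro m n hmn
    have h1 := hf hmn
    rw [SModEq.sub_mem, smul_eq_mul, Ideal.mul_top] at h1 ⊢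
    rw [← map_sub]
    exact hpowR m (Ideal.mem_map_of_mem _ h1)
  obtain ⟨L, hL⟩ := IsPrecomplete.prec (IsAdicComplete.toIsPrecomplete (I := maximalIdeal R) (M := R))
    (f := fun k => algebraMap 𝒪 R (f k)) hcauchy
  refine ⟨π L, fun k => ?_⟩
  have h1 := hL k
  rw [SModEq.sub_mem, smul_eq_mul, Ideal.mul_top] at h1 ⊢
  have h2 := hpow𝒪 k (Ideal.mem_map_of_mem (π : R →+* 𝒪) h1)
  have h3 : (π : R →+* 𝒪) (algebraMap 𝒪 R (f k) - L) = f k - π L := by
    show π (algebraMap 𝒪 R (f k) - L) = f k - π L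
    rw [map_sub, AlgHom.commutes]
    rfl
  rwa [h3] at h2

end Complete

end Fermat.Agent.S59.NC
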