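/-
S59-NC, piece NC-Iso (helper87), part 3: two facts on lengths over a discrete valuation ring.
-/
import Mathlib.RingTheory.Length
import Mathlib.RingTheory.DiscreteValuationRing.Basic
import Mathlib.RingTheory.OrderOfVanishing.Basic
import Mathlib.RingTheory.DiscreteValuationRing.TFAE

set_option autoImplicit false
set_option linter.unusedSectionVars false

namespace Fermat.Agent.S59.NC

section Len

variable {𝒪 : Type*} [CommRing 𝒪] [IsDomain 𝒪] [IsDiscreteValuationRing 𝒪]

/-- `𝒪 ⧸ η` has finite length for `η ≠ ⊥`. -/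
theorem s59nci_length_quot_ne_top (η : Ideal 𝒪) (hη : η ≠ ⊥) :
    Module.length 𝒪 (𝒪 ⧸ η) ≠ ⊤ := by
  obtain ⟨c, rfl⟩ := (IsPrincipalIdealRing.principal η).principal
  have hc : c ≠ 0 := by
    rintro rfl
    apply hη
    simp
  rw [Module.length_ne_top_iff]
  exact isFiniteLength_quotient_span_singleton (R := 𝒪) (mem_nonZeroDivisors_of_ne_zero hc)

/-- Two ideals `I ≤ J` with `length (𝒪/I) ≤ length (𝒪/J) < ∞` are equal. -/
theorem s59nci_eq_of_length_le {I J : Ideal 𝒪} (hIJ : I ≤ J)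
    (hI : Module.length 𝒪 (𝒪 ⧸ I) ≠ ⊤)
    (h : Module.length 𝒪 (𝒪 ⧸ I) ≤ Module.length 𝒪 (𝒪 ⧸ J)) : I = J := by
  set g : (𝒪 ⧸ I) →ₗ[𝒪] (𝒪 ⧸ J) := Submodule.mapQ I J LinearMap.id hIJ with hg
  have hgs : Function.Surjective g := by
    intro x
    obtain ⟨y, rfl⟩ := Submodule.Quotient.mk_surjective J x
    exact ⟨Submodule.Quotient.mk y, by simp [hg]⟩
  have hex : Function.Exact (LinearMap.ker g).subtype g := by
    intro x
    constructor
    · intro hx
      exact ⟨⟨x, hx⟩, rfl⟩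
    · rintro ⟨y, rfl⟩
      exact y.2
  have hadd := Module.length_eq_add_of_exact (LinearMap.ker g).subtype g
    (Submodule.subtype_injective _) hgs hex
  have hle : Module.length 𝒪 (𝒪 ⧸ J) ≤ Module.length 𝒪 (𝒪 ⧸ I) :=
    Module.length_le_of_surjective g hgs
  have heq : Module.length 𝒪 (𝒪 ⧸ I) = Module.length 𝒪 (𝒪 ⧸ J) := le_antisymm h hle
  have hJ : Module.length 𝒪 (𝒪 ⧸ J) ≠ ⊤ := heq ▸ hI
  have hk : Module.length 𝒪 (LinearMap.ker g) = 0 := by
    rw [heq] at hadd
    generalize Module.length 𝒪 (LinearMap.ker g) = k at hadd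
    generalize Module.length 𝒪 (𝒪 ⧸ J) = b at hadd hJ
    lift b to ℕ using hJ
    cases k with
    | top => simp at hadd
    | coe k =>
      norm_cast at hadd
      norm_cast
      omega
  rw [Module.length_eq_zero_iff] at hk
  apply le_antisymm hIJ
  intro x hx
  have hmem : (Submodule.Quotient.mk x : 𝒪 ⧸ I) ∈ LinearMap.ker g := by
    rw [LinearMap.mem_ker]
    simp only [hg, Submodule.mapQ_apply, LinearMap.id_coe, id_eq]
    exact (Submodule.Quotient.mk_eq_zero J).2 hx
  have h0 : (⟨Submodule.Quotient.mk x, hmem⟩ : LinearMap.ker g) = 0 := Subsingleton.elim _ _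
  have h1 : (Submodule.Quotient.mk x : 𝒪 ⧸ I) = 0 := congrArg Subtype.val h0
  exact (Submodule.Quotient.mk_eq_zero I).1 h1

end Len

end Fermat.Agent.S59.NC
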