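/-
S59-NC, piece NC-Iso (helper87), part 2: the criterion in PRESENTATION form, from the pieces
NC-Cover, NC-Crit, NC-Mat.
-/
import Fermat.Agent.S59.NC.IsoAux

set_option autoImplicit false

namespace Fermat.Agent.S59.NC

universe u

section Lin

variable {R : Type*} [CommRing R] {n : ℕ}

/-- The linear part of `f i = ∑ l, G i l * X l` is the row `G i · (0)`. -/
theorem s59nci_lin_f (D : S59ncData R n) (i j : Fin n) :
    s59ncLin ((D.f i : MvPolynomial (Fin n) R) : MvPowerSeries (Fin n) R) j =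
      MvPolynomial.constantCoeff (D.G i j) := by
  classical
  unfold s59ncLin
  rw [MvPolynomial.coeff_coe, S59ncData.f, MvPolynomial.coeff_sum]
  rw [Finset.sum_eq_single j]
  · rw [MvPolynomial.coeff_mul_X', if_pos (by simp), MvPolynomial.constantCoeff_eq]
    simp
  · intro l _ hl
    rw [MvPolynomial.coeff_mul_X', if_neg]
    simp only [Finsupp.mem_support_iff, Finsupp.single_apply, ne_eq]
    intro h
    apply h
    rw [if_neg (Ne.symm hl)]
  · intro h; exact absurd (Finset.mem_univ j) h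

/-- The constant coefficient of `d = det G` is `det (G(0))`. -/
theorem s59nci_constantCoeff_d (D : S59ncData R n) (Λ : Matrix (Fin n) (Fin n) R)
    (hG : ∀ i j, MvPolynomial.constantCoeff (D.G i j) = Λ i j) :
    MvPolynomial.constantCoeff D.d = Λ.det := by
  unfold S59ncData.d
  rw [RingHom.map_det]
  congr 1
  ext i j
  exact hG i j

end Lin

/-- **The numerical criterion, presentation form.**  `I ⊆ J ⊆ (X)` ideals of `P = 𝒪⟦X⟧`, `P/J`
finite and torsion-free over the DVR `𝒪`; `Λ` a square matrix with `det Λ ≠ 0` whose rows are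
linear parts of elements of `I`, and `η_{P/J} ⊆ (det Λ)`.  Then `I = J`. -/
theorem s59nci_pres (hCover : s59nc_StmtCover.{u}) (hCrit : s59nc_StmtCrit.{u})
    (hMat : s59nc_StmtMat.{u})
    {𝒪 : Type u} [CommRing 𝒪] [IsDomain 𝒪] [IsDiscreteValuationRing 𝒪] {n : ℕ}
    (I J : Ideal (MvPowerSeries (Fin n) 𝒪)) (hIJ : I ≤ J)
    (hJ : J ≤ RingHom.ker (MvPowerSeries.constantCoeff (σ := Fin n) (R := 𝒪)))
    (hfin : Module.Finite 𝒪 (MvPowerSeries (Fin n) 𝒪 ⧸ J))
    (htf : ∀ (c : 𝒪) (a : MvPowerSeries (Fin n) 𝒪), c ≠ 0 → c • a ∈ J → a ∈ J)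
    (Λ : Matrix (Fin n) (Fin n) 𝒪) (hΛ : Λ.det ≠ 0)
    (hΛI : ∀ i, ∃ g ∈ I, s59ncLin g = Λ i)
    (hη : ∀ a : MvPowerSeries (Fin n) 𝒪, (∀ i, a * MvPowerSeries.X i ∈ J) →
      Λ.det ∣ MvPowerSeries.constantCoeff a) :
    I = J := by
  obtain ⟨D, hDf, hDG⟩ := hCover 𝒪 n J hJ hfin Λ
    (fun i => by obtain ⟨g, hg, h⟩ := hΛI i; exact ⟨g, hIJ hg, h⟩)
  have hd : MvPolynomial.constantCoeff D.d = Λ.det := s59nci_constantCoeff_d D Λ hDG
  have hJ' : J = D.idealPS :=
    hCrit 𝒪 n J D hJ htf hDf (by rw [hd]; exact hΛ) (by rw [hd]; exact hη)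
  have hlin : ∀ i, s59ncLin ((D.f i : MvPolynomial (Fin n) 𝒪) : MvPowerSeries (Fin n) 𝒪) = Λ i := by
    intro i; funext j; rw [s59nci_lin_f, hDG]
  have hmat : (Matrix.of fun i =>
      s59ncLin ((D.f i : MvPolynomial (Fin n) 𝒪) : MvPowerSeries (Fin n) 𝒪)) = Λ := by
    ext i j
    rw [Matrix.of_apply, hlin]
  have h := hMat 𝒪 n (fun i => ((D.f i : MvPolynomial (Fin n) 𝒪) : MvPowerSeries (Fin n) 𝒪)) I
    (fun i => by
      have := hJ (hDf i)
      rwa [RingHom.mem_ker] at this)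
    (by rw [hmat]; exact hΛ)
    (by
      have : J = Ideal.span (Set.range fun i =>
          ((D.f i : MvPolynomial (Fin n) 𝒪) : MvPowerSeries (Fin n) 𝒪)) := hJ'
      rw [← this]; exact hIJ)
    (fun i => by
      obtain ⟨g, hg, h⟩ := hΛI i
      exact ⟨g, hg, by rw [h, hlin]⟩)
  rw [h]
  exact hJ'.symm

end Fermat.Agent.S59.NC
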