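/-
S59-NC, piece NC-Iso (helper87), part 4: the numerical criterion `s59p_StmtNCIso` from the pieces
(NC-Fit, NC-Cover, NC-Crit, NC-Mat, NC-LenDet, NC-LenBasis, NC-Cot).
-/
import Fermat.Agent.S59.Plan
import Fermat.Agent.S59.NC.IsoPres
import Fermat.Agent.S59.NC.IsoLen
import Fermat.Agent.S59.NC.IsoComplete
import Fermat.Agent.TW.PowerSurj

set_option autoImplicit false
set_option linter.style.haveILetI false
set_option linter.unusedSectionVars false

namespace Fermat.Agent.S59.NC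

open IsLocalRing

/-- **NC-Iso.**  The Wiles–Lenstra numerical criterion, from the pieces. -/
theorem s59nci_ncIso (hFit : s59nc_StmtFit.{0}) (hCover : s59nc_StmtCover.{0})
    (hCrit : s59nc_StmtCrit.{0}) (hMat : s59nc_StmtMat.{0}) (hLenDet : s59nc_StmtLenDet.{0})
    (hLenBasis : s59nc_StmtLenBasis.{0}) (hCot : s59nc_StmtCot.{0})
    (𝒪 : Type) [CommRing 𝒪] [IsDomain 𝒪] [IsDiscreteValuationRing 𝒪] :
    s59p_StmtNCIso 𝒪 := by
  intro R T _ _ _ _ _ _ _ _ _ _ φ πT hφ hη hnum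
  classical
  -- the augmentation of `R`
  set πR : R →ₐ[𝒪] 𝒪 := πT.comp φ with hπR
  have hπRa : ∀ c : 𝒪, πR (algebraMap 𝒪 R c) = c := fun c => by simp
  set 𝔭 : Ideal R := RingHom.ker (πR : R →+* 𝒪) with h𝔭
  have h𝔭ne : 𝔭 ≠ ⊤ := by
    intro h
    have h1 : (1 : R) ∈ 𝔭 := by rw [h]; trivial
    rw [h𝔭, RingHom.mem_ker] at h1
    have : πR 1 = 0 := h1
    rw [map_one] at this
    exact one_ne_zero this
  have h𝔭m : 𝔭 ≤ maximalIdeal R := IsLocalRing.le_maximalIdeal h𝔭ne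
  have hsub : ∀ x : R, x - algebraMap 𝒪 R (πR x) ∈ 𝔭 := by
    intro x
    rw [h𝔭, RingHom.mem_ker]
    show πR (x - algebraMap 𝒪 R (πR x)) = 0
    rw [map_sub, hπRa, sub_self]
  -- generators of `𝔭`
  obtain ⟨n, y, hy⟩ := (Submodule.fg_iff_exists_fin_generating_family).1
    ((isNoetherianRing_iff_ideal_fg R).1 inferInstance 𝔭)
  have hy𝔭 : ∀ i, y i ∈ 𝔭 := fun i => by
    rw [← hy]; exact Submodule.subset_span ⟨i, rfl⟩
  have hres : Function.Surjective (residue R ∘ algebraMap 𝒪 R) := by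
    intro x
    obtain ⟨r, rfl⟩ := IsLocalRing.residue_surjective x
    refine ⟨πR r, ?_⟩
    rw [Function.comp_apply, eq_comm, ← sub_eq_zero, ← map_sub]
    exact (IsLocalRing.residue_eq_zero_iff _).2 (h𝔭m (hsub r))
  have hgen : maximalIdeal R ≤ Ideal.span (Set.range y) ⊔
      (maximalIdeal 𝒪).map (algebraMap 𝒪 R) ⊔ maximalIdeal R ^ 2 := by
    intro x hx
    have h1 : algebraMap 𝒪 R (πR x) ∈ maximalIdeal R := by
      have := (maximalIdeal R).sub_mem hx (h𝔭m (hsub x))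
      simpa using this
    have h2 : πR x ∈ maximalIdeal 𝒪 := by
      rw [IsLocalRing.mem_maximalIdeal, mem_nonunits_iff]
      intro hu
      exact (IsLocalRing.mem_maximalIdeal _).1 h1 (hu.map (algebraMap 𝒪 R))
    have h3 : x = (x - algebraMap 𝒪 R (πR x)) + algebraMap 𝒪 R (πR x) := by ring
    rw [h3]
    refine Ideal.add_mem _ ?_ ?_
    · exact Ideal.mem_sup_left (Ideal.mem_sup_left (by
        have : Ideal.span (Set.range y) = 𝔭 := hy
        rw [this]; exact hsub x))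
    · exact Ideal.mem_sup_left (Ideal.mem_sup_right (Ideal.mem_map_of_mem _ h2))
  haveI h𝒪c : IsAdicComplete (maximalIdeal 𝒪) 𝒪 := s59nci_isAdicComplete_of_aug πR
  obtain ⟨γR, hγRX, hγR⟩ := Fermat.Agent.TW.psj_exists_surjective (𝒪 := 𝒪) (R := R)
    (σ := Fin n) hres y (fun i => h𝔭m (hy𝔭 i)) hgen
  -- the two presentations
  set γT : MvPowerSeries (Fin n) 𝒪 →ₐ[𝒪] T := φ.comp γR with hγT
  have hγT : Function.Surjective γT := hφ.comp hγR
  have hXR : ∀ i, πR (γR (MvPowerSeries.X i)) = 0 := by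
    intro i
    rw [hγRX]
    have := hy𝔭 i
    rwa [h𝔭, RingHom.mem_ker] at this
  have hXT : ∀ i, πT (γT (MvPowerSeries.X i)) = 0 := fun i => hXR i
  set I : Ideal (MvPowerSeries (Fin n) 𝒪) :=
    RingHom.ker (γR : MvPowerSeries (Fin n) 𝒪 →+* R) with hI
  set J : Ideal (MvPowerSeries (Fin n) 𝒪) :=
    RingHom.ker (γT : MvPowerSeries (Fin n) 𝒪 →+* T) with hJ
  have hIJ : I ≤ J := by
    intro g hg
    rw [hI, RingHom.mem_ker] at hg
    rw [hJ, RingHom.mem_ker]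
    show φ (γR g) = 0
    have : γR g = 0 := hg
    rw [this, map_zero]
  have hJX : J ≤ RingHom.ker (MvPowerSeries.constantCoeff (σ := Fin n) (R := 𝒪)) :=
    s59nci_ker_le γT πT hXT
  -- the dictionary for `η_T`
  have hη1 : ∀ a : MvPowerSeries (Fin n) 𝒪, (∀ i, a * MvPowerSeries.X i ∈ J) →
      MvPowerSeries.constantCoeff a ∈ s59p_eta 𝒪 πT := by
    intro a ha
    have h1 := (s59nci_mem_ann_iff γT πT hγT hXT a).2 ha
    have h2 := Ideal.mem_map_of_mem (πT : T →+* 𝒪) h1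
    have h3 : (πT : T →+* 𝒪) (γT a) = MvPowerSeries.constantCoeff a :=
      s59nci_aug_eq γT πT hXT a
    rw [h3] at h2
    exact h2
  -- lengths
  obtain ⟨e⟩ := hCot 𝒪 n R γR πR hγR hXR
  have hlenR : s59p_phiLen 𝒪 πR =
      Module.length 𝒪 ((Fin n → 𝒪) ⧸ s59ncLinSub I) := e.length_eq
  have hηfin : Module.length 𝒪 (𝒪 ⧸ s59p_eta 𝒪 πT) ≠ ⊤ := s59nci_length_quot_ne_top _ hη
  have hnum' : Module.length 𝒪 ((Fin n → 𝒪) ⧸ s59ncLinSub I) ≤
      Module.length 𝒪 (𝒪 ⧸ s59p_eta 𝒪 πT) := by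
    rw [← hlenR]; exact hnum
  have hfinI : Module.length 𝒪 ((Fin n → 𝒪) ⧸ s59ncLinSub I) ≠ ⊤ :=
    ne_top_of_le_ne_top hηfin hnum'
  obtain ⟨Λ, hΛ, hΛspan⟩ := hLenBasis 𝒪 n (s59ncLinSub I) hfinI
  have hlenΛ := hLenDet 𝒪 n Λ hΛ
  rw [← hΛspan] at hlenΛ
  -- the rows of `Λ` are linear parts of elements of `I`
  have hΛI : ∀ i, ∃ g ∈ I, s59ncLin g = Λ i := by
    intro i
    have hmem : Λ i ∈ s59ncLinSub I := by
      rw [hΛspan]; exact Submodule.subset_span ⟨i, rfl⟩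
    obtain ⟨g, hg, hge⟩ := hmem
    exact ⟨g, hg, hge⟩
  -- `det Λ ∈ η_T`
  obtain ⟨a, haJ, ha0⟩ := hFit 𝒪 n J Λ (fun i => by
    obtain ⟨g, hg, hge⟩ := hΛI i
    refine ⟨g, hIJ hg, ?_, hge⟩
    have := hJX (hIJ hg)
    rwa [RingHom.mem_ker] at this)
  have hdet_mem : Λ.det ∈ s59p_eta 𝒪 πT := by
    rw [← ha0]; exact hη1 a haJ
  have hle : Ideal.span {Λ.det} ≤ s59p_eta 𝒪 πT := by
    rw [Ideal.span_singleton_le_iff_mem]; exact hdet_mem
  have hηeq : Ideal.span {Λ.det} = s59p_eta 𝒪 πT := by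
    refine s59nci_eq_of_length_le hle ?_ ?_
    · rw [← hlenΛ]; exact hfinI
    · rw [← hlenΛ]; exact hnum'
  -- the numerical hypothesis in divisibility form
  have hηdiv : ∀ a : MvPowerSeries (Fin n) 𝒪, (∀ i, a * MvPowerSeries.X i ∈ J) →
      Λ.det ∣ MvPowerSeries.constantCoeff a := by
    intro a ha
    have := hη1 a ha
    rw [← hηeq] at this
    exact Ideal.mem_span_singleton.1 this
  -- finiteness and torsion-freeness of `P/J ≅ T`
  have hfin : Module.Finite 𝒪 (MvPowerSeries (Fin n) 𝒪 ⧸ J) := by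
    have e := Ideal.quotientKerAlgEquivOfSurjective hγT
    exact Module.Finite.equiv e.symm.toLinearEquiv
  have htf : ∀ (c : 𝒪) (a : MvPowerSeries (Fin n) 𝒪), c ≠ 0 → c • a ∈ J → a ∈ J := by
    intro c a hc hca
    rw [hJ, RingHom.mem_ker] at hca ⊢
    have h1 : c • γT a = 0 := by
      have : γT (c • a) = 0 := hca
      rwa [map_smul] at this
    have : γT a = 0 := by
      rcases smul_eq_zero.1 h1 with h | h
      · exact absurd h hc
      · exact h
    exact this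
  have hIJeq : I = J :=
    s59nci_pres hCover hCrit hMat I J hIJ hJX hfin htf Λ hΛ hΛI hηdiv
  -- conclusion
  refine ⟨?_, hφ⟩
  rw [injective_iff_map_eq_zero]
  intro r hr
  obtain ⟨g, rfl⟩ := hγR r
  have hgJ : g ∈ J := by
    rw [hJ, RingHom.mem_ker]; exact hr
  rw [← hIJeq, hI, RingHom.mem_ker] at hgJ
  exact hgJ

end Fermat.Agent.S59.NC
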