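/-
S59-NC, piece NC-LenBasis (helper13).

`s59nclb_stmtLenBasis : s59nc_StmtLenBasis` :
a submodule `L` of `𝒪ⁿ` (`𝒪` a discrete valuation ring) whose quotient has finite length is
spanned by the rows of a square matrix with non-zero determinant.

Route: Mathlib's Smith normal form (`Submodule.smithNormalForm`): if the rank of `L` were smaller
than `n`, a coordinate functional of the Smith basis would give a surjection `𝒪ⁿ / L → 𝒪`,
and `𝒪` has infinite length.
-/
import Fermat.Agent.S59.NC.Plan
import Mathlib.LinearAlgebra.FreeModule.PID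
import Mathlib.LinearAlgebra.Matrix.Determinant.Basic
import Mathlib.LinearAlgebra.Matrix.ToLinearEquiv
import Mathlib.RingTheory.DiscreteValuationRing.Basic
import Mathlib.RingTheory.Length

set_option autoImplicit false

namespace Fermat.Agent.S59.NC

open Module IsLocalRing

universe u

/-- A discrete valuation ring has infinite length over itself. -/
theorem s59nclb_length_self {𝒪 : Type*} [CommRing 𝒪] [IsDomain 𝒪] [IsDiscreteValuationRing 𝒪] :
    Module.length 𝒪 𝒪 = ⊤ := by
  rw [ENat.eq_top_iff_forall_ge]
  intro k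
  have h := Module.length_le_of_surjective (Submodule.mkQ (maximalIdeal 𝒪 ^ k))
    (Submodule.mkQ_surjective _)
  rwa [IsDiscreteValuationRing.length_quotient_pow_maximalIdeal] at h

/-- Linearly independent rows over a domain have non-zero determinant. -/
theorem s59nclb_det_ne_zero {R : Type*} [CommRing R] [IsDomain R] {n : ℕ}
    (Λ : Matrix (Fin n) (Fin n) R) (hli : LinearIndependent R (fun i => Λ i)) : Λ.det ≠ 0 := by
  intro h0
  obtain ⟨v, hv, hvΛ⟩ := Matrix.exists_vecMul_eq_zero_iff.2 h0
  apply hv
  have h := Fintype.linearIndependent_iff.1 hli v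
  funext i
  refine h ?_ i
  rw [← hvΛ]
  funext j
  simp [Matrix.vecMul, dotProduct, Finset.sum_apply]

/-- **NC-LenBasis.** -/
theorem s59nclb_stmtLenBasis : s59nc_StmtLenBasis.{u} := by
  intro 𝒪 _ _ _ n L hL
  classical
  obtain ⟨m, snf⟩ := L.smithNormalForm (Pi.basisFun 𝒪 (Fin n))
  -- the embedding of the index sets is onto
  have hsurj : Function.Surjective snf.f := by
    by_contra hns
    obtain ⟨j, hj⟩ : ∃ j, j ∉ Set.range snf.f := by
      by_contra hcon
      apply hns
      intro j
      by_contra hj
      exact hcon ⟨j, hj⟩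
    have hker : L ≤ LinearMap.ker (snf.bM.coord j) := snf.le_ker_coord_of_notMem_range hj
    let g : ((Fin n → 𝒪) ⧸ L) →ₗ[𝒪] 𝒪 := L.liftQ (snf.bM.coord j) hker
    have hg : Function.Surjective g := by
      intro c
      refine ⟨Submodule.Quotient.mk (c • snf.bM j), ?_⟩
      show snf.bM.coord j (c • snf.bM j) = c
      rw [map_smul, Basis.coord_apply, Basis.repr_self, Finsupp.single_eq_same, smul_eq_mul,
        mul_one]
    have hle := Module.length_le_of_surjective g hg
    rw [s59nclb_length_self, top_le_iff] at hle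
    exact hL hle
  let e : Fin m ≃ Fin n := Equiv.ofBijective snf.f ⟨snf.f.injective, hsurj⟩
  let bL : Basis (Fin n) 𝒪 L := snf.bN.reindex e
  let Λ : Matrix (Fin n) (Fin n) 𝒪 := Matrix.of fun i => ((bL i : L) : Fin n → 𝒪)
  have hrows : (fun i => Λ i) = fun i => ((bL i : L) : Fin n → 𝒪) := rfl
  have hli : LinearIndependent 𝒪 (fun i => Λ i) := by
    rw [hrows]
    exact bL.linearIndependent.map' L.subtype (Submodule.ker_subtype L)
  refine ⟨Λ, s59nclb_det_ne_zero Λ hli, ?_⟩
  rw [hrows]
  have h1 : (Set.range fun i => ((bL i : L) : Fin n → 𝒪)) = L.subtype '' Set.range bL := by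
    rw [← Set.range_comp]
    rfl
  rw [h1, Submodule.span_image, bL.span_eq, Submodule.map_top, Submodule.range_subtype]

end Fermat.Agent.S59.NC
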