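/-
S59-NC, piece NC-Mat (owner helper5): `s59nc_mat : s59nc_StmtMat` (matrix lemma).

`I ⊆ (f)`, `f i (0) = 0`, `det (lin f) ≠ 0`, every `lin (f i)` is the linear part of some
`g i ∈ I`.  Write `g = M f`; comparing linear parts `lin f = M(0) · lin f`, hence `M(0) = 1`
(`𝒪` a domain), `det M` is a unit of `𝒪⟦X⟧`, and `f = M⁻¹ g ∈ I`.
-/
import Fermat.Agent.S59.NC.Fit

set_option autoImplicit false

namespace Fermat.Agent.S59.NC

open MvPowerSeries

universe u

/-- `lin (∑ j, c j * f j) k = ∑ j, c j (0) * lin (f j) k` when `f j (0) = 0`. -/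
theorem s59ncm_lin_sum_mul {𝒪 : Type*} [CommRing 𝒪] {n : ℕ}
    (c f : Fin n → MvPowerSeries (Fin n) 𝒪) (hf0 : ∀ i, constantCoeff (f i) = 0) (k : Fin n) :
    s59ncLin (∑ j, c j * f j) k = ∑ j, constantCoeff (c j) * s59ncLin (f j) k := by
  rw [s59ncf_lin_sum]
  refine Finset.sum_congr rfl fun j _ => ?_
  rw [s59ncf_lin_mul, hf0 j, mul_zero, add_zero]

/-- A square matrix `M₀` over a domain with `M₀ * Λ = Λ`, `det Λ ≠ 0`, is the identity. -/
theorem s59ncm_eq_one_of_mul_eq {𝒪 : Type*} [CommRing 𝒪] [IsDomain 𝒪] {n : ℕ}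
    (M₀ Λ : Matrix (Fin n) (Fin n) 𝒪) (hdet : Λ.det ≠ 0) (h : M₀ * Λ = Λ) : M₀ = 1 := by
  have h1 : (M₀ - 1) * Λ = 0 := by rw [sub_mul, one_mul, h, sub_self]
  have h2 : Λ.det • (M₀ - 1) = 0 := by
    have h3 := congrArg (· * Λ.adjugate) h1
    simp only [Matrix.mul_assoc, Matrix.mul_adjugate, zero_mul, Matrix.mul_smul, mul_one] at h3
    exact h3
  have h4 : M₀ - 1 = 0 := by
    ext i j
    have h5 := congrFun (congrFun h2 i) j
    simp only [Matrix.smul_apply, smul_eq_mul, Matrix.zero_apply] at h5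
    rcases mul_eq_zero.mp h5 with h6 | h6
    · exact absurd h6 hdet
    · simpa using h6
  exact sub_eq_zero.mp h4

/-- **NC-Mat**. -/
theorem s59nc_mat : s59nc_StmtMat.{u} := by
  intro 𝒪 _ _ n f I hf0 hdet hle hg
  classical
  refine le_antisymm hle ?_
  choose g hgI hglin using hg
  have hM : ∀ i, ∃ c : Fin n → MvPowerSeries (Fin n) 𝒪, ∑ j, c j * f j = g i := fun i =>
    Ideal.mem_span_range_iff_exists_fun.mp (hle (hgI i))
  choose M hMg using hM
  have hlin : (constantCoeff (σ := Fin n) (R := 𝒪)).mapMatrix (Matrix.of M) *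
      (Matrix.of fun i => s59ncLin (f i)) = Matrix.of fun i => s59ncLin (f i) := by
    ext i k
    rw [Matrix.mul_apply]
    simp only [RingHom.mapMatrix_apply, Matrix.map_apply, Matrix.of_apply]
    rw [← s59ncm_lin_sum_mul (M i) f hf0 k, hMg i, hglin i]
  have hM0 := s59ncm_eq_one_of_mul_eq _ _ hdet hlin
  have hunit : IsUnit (Matrix.of M).det := by
    rw [MvPowerSeries.isUnit_iff_constantCoeff, RingHom.map_det, hM0, Matrix.det_one]
    exact isUnit_one
  rw [Ideal.span_le]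
  rintro _ ⟨i, rfl⟩
  have key : (Matrix.of M).det * f i ∈ I := by
    rw [s59ncf_adjugate_mulVec (Matrix.of M) f g (fun k => by simpa using hMg k) i]
    exact I.sum_mem fun k _ => I.mul_mem_left _ (hgI k)
  exact (Ideal.unit_mul_mem_iff_mem I hunit).mp key

end Fermat.Agent.S59.NC
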