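/-
S59-NC, piece NC-Tau (helper2): THE FROBENIUS FORM of a monomial-dominant complete intersection.

`τ = (coefficient of X ^ top) ∘ ρ`, `top i = e i - 1`, `ρ` the normal form of `NC/Basis.lean`.
* `s59nct_finite`   : `R[X] / (f)` is a finite `R`-module (spanned by the standard monomials);
* `s59nctTau_eq_zero_of_mem` : `τ ((f)) = 0`;
* `s59nct_nondeg`   : `τ (x y) = 0 ∀ y ⇒ x ∈ (f)`  (take `a₀` of maximal degree in the normal form
                      of `x` and `y = X ^ (top - a₀)`);
* `s59nct_leads_d`  : `det G = X ^ top + (degree < deg top)`;  `s59nctTau_d : τ (det G) = 1`;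
* `s59nct_stmtTau : s59nc_StmtTau`.
-/
import Fermat.Agent.S59.NC.Basis

set_option autoImplicit false

noncomputable section

namespace Fermat.Agent.S59.NC

open MvPolynomial

universe u

section Prod

variable {R : Type*} [CommRing R] {σ : Type*}

theorem s59nct_one_mem : (1 : MvPolynomial σ R) ∈ s59ncbLT R σ (0 + 1) := by
  have := s59ncb_monomial_mem (R := R) (σ := σ) 0 1
  rwa [map_zero] at this

theorem s59nct_prod_mem_LE {ι : Type*} (s : Finset ι) (P : ι → MvPolynomial σ R) (N : ι → ℕ)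
    (h : ∀ i ∈ s, P i ∈ s59ncbLT R σ (N i + 1)) :
    ∏ i ∈ s, P i ∈ s59ncbLT R σ (∑ i ∈ s, N i + 1) := by
  classical
  induction s using Finset.induction_on with
  | empty => rw [Finset.prod_empty, Finset.sum_empty]; exact s59nct_one_mem
  | insert a s ha ih =>
    rw [Finset.prod_insert ha, Finset.sum_insert ha]
    have h1 := h a (Finset.mem_insert_self a s)
    have h2 := ih fun i hi => h i (Finset.mem_insert_of_mem hi)
    have := s59ncb_mul_mem h1 h2
    have e : N a + 1 + ∑ i ∈ s, N i = N a + ∑ i ∈ s, N i + 1 := by omega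
    rwa [e] at this

theorem s59nct_prod_mem_LT {ι : Type*} (s : Finset ι) (P : ι → MvPolynomial σ R) (N : ι → ℕ)
    (h : ∀ i ∈ s, P i ∈ s59ncbLT R σ (N i + 1)) {j : ι} (hj : j ∈ s)
    (hPj : P j ∈ s59ncbLT R σ (N j)) :
    ∏ i ∈ s, P i ∈ s59ncbLT R σ (∑ i ∈ s, N i) := by
  classical
  rw [← Finset.mul_prod_erase s P hj, ← Finset.add_sum_erase s N hj]
  exact s59ncb_mul_mem hPj
    (s59nct_prod_mem_LE _ P N fun i hi => h i (Finset.mem_of_mem_erase hi))

end Prod

section Tau

variable {R : Type u} [CommRing R] {n : ℕ} (D : S59ncData R n)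

/-- the top standard monomial `∏ X_i ^ (e i - 1)` -/
def s59nctTop : Fin n →₀ ℕ := Finsupp.equivFunOnFinite.symm fun i => D.e i - 1

@[simp] theorem s59nctTop_apply (i : Fin n) : s59nctTop D i = D.e i - 1 := rfl

theorem s59nct_top_std : S59ncbStd D (s59nctTop D) := fun i => by
  have := D.he i
  rw [s59nctTop_apply]
  omega

theorem s59nct_top_eq_sum : s59nctTop D = ∑ i, Finsupp.single i (D.e i - 1) := by
  ext j
  rw [Finsupp.finsetSum_apply, s59nctTop_apply]
  simp only [Finsupp.single_apply, Finset.sum_ite_eq', Finset.mem_univ, if_true]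

theorem s59nct_top_degree : (s59nctTop D).degree = ∑ i, (D.e i - 1) := by
  rw [Finsupp.degree_eq_sum]
  rfl

/-- the Frobenius form -/
def s59nctTau : MvPolynomial (Fin n) R →ₗ[R] R :=
  (lcoeff R (s59nctTop D)).comp (s59ncbRho D)

theorem s59nctTau_apply (p : MvPolynomial (Fin n) R) :
    s59nctTau D p = coeff (s59nctTop D) (s59ncbRho D p) := rfl

theorem s59nctTau_eq_zero_of_mem {p : MvPolynomial (Fin n) R} (hp : p ∈ D.idealPoly) :
    s59nctTau D p = 0 := by
  rw [s59nctTau_apply, s59ncbRho_eq_zero D hp, coeff_zero]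

theorem s59nctTau_eq_zero_of_LT {p : MvPolynomial (Fin n) R}
    (hp : p ∈ s59ncbLT R (Fin n) (s59nctTop D).degree) : s59nctTau D p = 0 := by
  have h := s59ncb_mem_LT.mp (s59ncbRho_mem D hp)
  by_contra hne
  exact lt_irrefl _ (h _ (mem_support_iff.mpr hne))

theorem s59nctTau_top : s59nctTau D (monomial (s59nctTop D) 1) = 1 := by
  rw [s59nctTau_apply, s59ncbRho_std D (s59nct_top_std D), coeff_monomial, if_pos rfl]

theorem s59nctTau_monomial_of_ne {b : Fin n →₀ ℕ} (hb : b.degree ≤ (s59nctTop D).degree)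
    (hne : b ≠ s59nctTop D) : s59nctTau D (monomial b 1) = 0 := by
  by_cases hstd : S59ncbStd D b
  · rw [s59nctTau_apply, s59ncbRho_std D hstd, coeff_monomial, if_neg hne]
  · have h := s59ncb_mem_LT.mp (s59ncbRho_not_std D hstd)
    rw [s59nctTau_apply]
    by_contra hc
    have := h _ (mem_support_iff.mpr hc)
    omega

theorem s59ncbRho_support_std {p : MvPolynomial (Fin n) R} {m : Fin n →₀ ℕ}
    (hm : m ∈ (s59ncbRho D p).support) : S59ncbStd D m :=
  (s59ncb_stdProj_support D hm).1

/-- **non-degeneracy** of `τ` modulo `(f)` -/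
theorem s59nct_nondeg (x : MvPolynomial (Fin n) R)
    (hx : ∀ y, s59nctTau D (x * y) = 0) : x ∈ D.idealPoly := by
  classical
  by_contra hxI
  set r := s59ncbRho D x with hr
  have hr0 : r ≠ 0 := by
    intro h0
    apply hxI
    have := s59ncbRho_sub_mem D x
    rwa [← hr, h0, sub_zero] at this
  have hne : r.support.Nonempty := by
    rw [Finset.nonempty_iff_ne_empty, Ne, support_eq_empty]
    exact hr0
  obtain ⟨a₀, ha₀, hmax⟩ := Finset.exists_max_image r.support (fun m => m.degree) hne
  have hstd : ∀ a ∈ r.support, S59ncbStd D a := fun a ha => s59ncbRho_support_std D ha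
  set t : Fin n →₀ ℕ := s59nctTop D - a₀ with ht
  have hta : a₀ + t = s59nctTop D := by
    ext i
    rw [Finsupp.add_apply, ht, Finsupp.tsub_apply, s59nctTop_apply]
    have := hstd a₀ ha₀ i
    omega
  have h1 : s59nctTau D (x * monomial t 1) = s59nctTau D (r * monomial t 1) := by
    have h : (x - r) * monomial t 1 ∈ D.idealPoly :=
      Ideal.mul_mem_right _ _ (s59ncbRho_sub_mem D x)
    have := s59nctTau_eq_zero_of_mem D h
    rwa [sub_mul, map_sub, sub_eq_zero] at this
  have h2 : s59nctTau D (r * monomial t 1) = coeff a₀ r := by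
    have e : r * monomial t 1 = ∑ a ∈ r.support, coeff a r • monomial (a + t) (1 : R) := by
      conv_lhs => rw [← support_sum_monomial_coeff r]
      rw [Finset.sum_mul]
      refine Finset.sum_congr rfl fun a _ => ?_
      rw [monomial_mul, mul_one, smul_monomial, smul_eq_mul, mul_one]
    rw [e, map_sum, Finset.sum_eq_single a₀]
    · rw [map_smul, hta, s59nctTau_top, smul_eq_mul, mul_one]
    · intro a ha hne'
      rw [map_smul, s59nctTau_monomial_of_ne, smul_zero]
      · rw [← hta, map_add, map_add]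
        exact Nat.add_le_add_right (hmax a ha) _
      · intro h
        apply hne'
        rw [← hta] at h
        exact add_right_cancel h
    · intro h
      exact absurd ha₀ h
  have := hx (monomial t 1)
  rw [h1, h2] at this
  exact (mem_support_iff.mp ha₀) this

/-! ### the determinant -/

theorem s59nct_G_sub_mem (i j : Fin n) :
    (D.G i j - if i = j then (X i : MvPolynomial (Fin n) R) ^ (D.e i - 1) else 0) ∈
      s59ncbLT R (Fin n) (D.e i - 1) := by
  rw [s59ncb_mem_LT]
  intro m hm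
  have := D.hG i j m hm
  omega

theorem s59nct_leads_G_diag (i : Fin n) :
    S59ncbLeads (D.G i i) (Finsupp.single i (D.e i - 1)) := by
  have := s59nct_G_sub_mem D i i
  rw [if_pos rfl, X_pow_eq_monomial] at this
  rw [S59ncbLeads, Finsupp.degree_single]
  exact this

theorem s59nct_G_offdiag_mem {i j : Fin n} (hij : i ≠ j) :
    D.G i j ∈ s59ncbLT R (Fin n) (D.e i - 1) := by
  have := s59nct_G_sub_mem D i j
  rwa [if_neg hij, sub_zero] at this

theorem s59nct_G_mem (i j : Fin n) : D.G i j ∈ s59ncbLT R (Fin n) (D.e i - 1 + 1) := by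
  by_cases hij : i = j
  · subst hij
    have := (s59nct_leads_G_diag D i).mem
    rwa [Finsupp.degree_single] at this
  · exact s59ncb_LT_mono (Nat.le_succ _) (s59nct_G_offdiag_mem D hij)

theorem s59nct_leads_d : S59ncbLeads D.d (s59nctTop D) := by
  classical
  rw [S59ncbLeads, S59ncData.d, Matrix.det_apply]
  rw [← Finset.add_sum_erase Finset.univ _ (Finset.mem_univ (1 : Equiv.Perm (Fin n)))]
  have h1 : S59ncbLeads (∏ i, D.G i i) (s59nctTop D) := by
    rw [s59nct_top_eq_sum]
    exact s59ncb_leads_prod _ _ _ fun i _ => s59nct_leads_G_diag D i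
  have e : (Equiv.Perm.sign (1 : Equiv.Perm (Fin n)) • ∏ i, D.G ((1 : Equiv.Perm (Fin n)) i) i +
      ∑ σ ∈ Finset.univ.erase (1 : Equiv.Perm (Fin n)),
        Equiv.Perm.sign σ • ∏ i, D.G (σ i) i) - monomial (s59nctTop D) 1 =
      (∏ i, D.G i i - monomial (s59nctTop D) 1) +
      ∑ σ ∈ Finset.univ.erase (1 : Equiv.Perm (Fin n)),
        Equiv.Perm.sign σ • ∏ i, D.G (σ i) i := by
    rw [Equiv.Perm.sign_one, one_smul]
    simp only [Equiv.Perm.coe_one, id_eq]
    ring
  rw [e]
  refine Submodule.add_mem _ h1 (Submodule.sum_mem _ fun σ hσ => ?_)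
  have hσ1 : σ ≠ 1 := Finset.ne_of_mem_erase hσ
  obtain ⟨j, hj⟩ : ∃ j, σ j ≠ j := by
    by_contra hcon
    refine hσ1 (Equiv.ext fun i => ?_)
    by_contra h
    exact hcon ⟨i, h⟩
  have hprod : ∏ i, D.G (σ i) i ∈ s59ncbLT R (Fin n) (∑ i, (D.e (σ i) - 1)) :=
    s59nct_prod_mem_LT Finset.univ (fun i => D.G (σ i) i) (fun i => D.e (σ i) - 1)
      (fun i _ => s59nct_G_mem D (σ i) i) (Finset.mem_univ j) (s59nct_G_offdiag_mem D hj)
  have hsum : ∑ i, (D.e (σ i) - 1) = (s59nctTop D).degree := by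
    rw [s59nct_top_degree]
    exact Equiv.sum_comp σ fun i => D.e i - 1
  rw [hsum] at hprod
  rcases Int.units_eq_one_or (Equiv.Perm.sign σ) with h | h
  · rw [h, one_smul]
    exact hprod
  · rw [h, Units.neg_smul, one_smul]
    exact Submodule.neg_mem _ hprod

theorem s59nctTau_d : s59nctTau D D.d = 1 := by
  have h := s59nctTau_eq_zero_of_LT D (s59nct_leads_d D)
  rw [map_sub, s59nctTau_top, sub_eq_zero] at h
  exact h

/-! ### finiteness -/

/-- the standard monomial of a multi-index -/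
def s59nctMon (t : (i : Fin n) → Fin (D.e i)) : Fin n →₀ ℕ :=
  Finsupp.equivFunOnFinite.symm fun i => (t i : ℕ)

theorem s59nct_finite : Module.Finite R (MvPolynomial (Fin n) R ⧸ D.idealPoly) := by
  classical
  refine ⟨⟨Finset.image (fun t : (i : Fin n) → Fin (D.e i) =>
    (Ideal.Quotient.mk D.idealPoly (monomial (s59nctMon D t) 1))) Finset.univ, ?_⟩⟩
  rw [eq_top_iff]
  rintro x -
  obtain ⟨p, rfl⟩ := Ideal.Quotient.mk_surjective x
  have h1 : Ideal.Quotient.mk D.idealPoly p = Ideal.Quotient.mk D.idealPoly (s59ncbRho D p) :=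
    Ideal.Quotient.eq.mpr (s59ncbRho_sub_mem D p)
  rw [h1, ← support_sum_monomial_coeff (s59ncbRho D p), map_sum]
  refine Submodule.sum_mem _ fun a ha => ?_
  have hstd := s59ncbRho_support_std D ha
  have e : (monomial a) (coeff a (s59ncbRho D p)) =
      coeff a (s59ncbRho D p) • monomial a (1 : R) := by
    rw [smul_monomial, smul_eq_mul, mul_one]
  rw [e]
  have e2 : Ideal.Quotient.mk D.idealPoly (coeff a (s59ncbRho D p) • monomial a (1 : R)) =
      coeff a (s59ncbRho D p) • Ideal.Quotient.mk D.idealPoly (monomial a (1 : R)) := rfl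
  rw [e2]
  refine Submodule.smul_mem _ _ (Submodule.subset_span ?_)
  rw [Finset.coe_image, Set.mem_image]
  refine ⟨fun i => ⟨a i, hstd i⟩, Finset.mem_coe.mpr (Finset.mem_univ _), ?_⟩
  have hmon : s59nctMon D (fun i => ⟨a i, hstd i⟩) = a := by
    ext i
    rfl
  rw [hmon]

/-- **NC-Tau.** -/
theorem s59nct_stmtTau : s59nc_StmtTau.{u} := by
  intro R _ n D
  exact ⟨s59nct_finite D, s59nctTau D, fun p hp => s59nctTau_eq_zero_of_mem D hp,
    s59nct_nondeg D, s59nctTau_d D⟩

/-- **NC-Tau** in the form of the piece table. -/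
theorem s59nct_stmtTau_of (_ : s59nc_StmtBasis.{u}) : s59nc_StmtTau.{u} := s59nct_stmtTau

end Tau

end Fermat.Agent.S59.NC

end
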