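/-
S59-NC (sub-captain helper87): THE NUMERICAL CRITERION, unconditional.

`s59nc_ncIso 𝒪 : s59p_StmtNCIso 𝒪` for every discrete valuation ring `𝒪` (Wiles–Lenstra):
`φ : R ↠ T` local `𝒪`-algebras, `R` complete Noetherian, `T` finite free, `π_T : T → 𝒪`,
`η_T ≠ 0`, `length Φ_R ≤ length (𝒪/η_T)`  ⟹  `φ` bijective.

Pieces: Basis, Tau (helper2), Gor, GorPS (helper73), Crit, LenDet, LenBasis (helper13),
Fit, Mat, Cot (helper5), Cover, Iso (helper87).  Route: NOTES/S59-NC.md.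
-/
import Fermat.Agent.S59.NC.Iso
import Fermat.Agent.S59.NC.Cover
import Fermat.Agent.S59.NC.Crit
import Fermat.Agent.S59.NC.GorPS
import Fermat.Agent.S59.NC.Tau
import Fermat.Agent.S59.NC.LenDet
import Fermat.Agent.S59.NC.LenBasis
import Fermat.Agent.S59.NC.Fit
import Fermat.Agent.S59.NC.Mat
import Fermat.Agent.S59.NC.Cot

set_option autoImplicit false

namespace Fermat.Agent.S59.NC

/-- **The Wiles–Lenstra numerical criterion** (`s59p_StmtNCIso`), unconditional. -/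
theorem s59nc_ncIso (𝒪 : Type) [CommRing 𝒪] [IsDomain 𝒪] [IsDiscreteValuationRing 𝒪] :
    s59p_StmtNCIso 𝒪 :=
  s59nci_ncIso s59nc_fit s59ncv_stmtCover (s59nce_stmtCrit_of (s59ncp_stmtGorPS s59nct_stmtTau))
    s59nc_mat s59ncld_stmtLenDet s59nclb_stmtLenBasis s59nc_cot 𝒪

end Fermat.Agent.S59.NC
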