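/-
S59-NC, piece NC-Step (helper13): the induction step of the numerical criterion
(arithmetic of lengths in a discrete valuation ring).

`s59ncs_stmtNCStep 𝒪 : s59p_StmtNCStep 𝒪`.
-/
import Fermat.Agent.S59.Plan
import Fermat.Agent.S59.NC.LenDet
import Fermat.Agent.S59.NC.LenBasis

set_option autoImplicit false

namespace Fermat.Agent.S59.NC

open Module IsLocalRing

section

variable {𝒪 : Type*} [CommRing 𝒪] [IsDomain 𝒪] [IsDiscreteValuationRing 𝒪]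

/-- `length 𝒪/⊥ = ⊤`. -/
theorem s59ncs_length_quot_bot : Module.length 𝒪 (𝒪 ⧸ (⊥ : Ideal 𝒪)) = ⊤ := by
  rw [← s59nclb_length_self (𝒪 := 𝒪)]
  exact (Submodule.quotEquivOfEqBot (⊥ : Ideal 𝒪) rfl).length_eq

/-- A non-zero ideal of a discrete valuation ring is a power of the maximal ideal. -/
theorem s59ncs_ideal_eq_pow {η : Ideal 𝒪} (hη : η ≠ ⊥) :
    ∃ k : ℕ, η = maximalIdeal 𝒪 ^ k := by
  obtain ⟨ϖ, hϖ⟩ := IsDiscreteValuationRing.exists_irreducible 𝒪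
  obtain ⟨k, hk⟩ := IsDiscreteValuationRing.ideal_eq_span_pow_irreducible hη hϖ
  refine ⟨k, ?_⟩
  rw [hk, hϖ.maximalIdeal_eq, Ideal.span_singleton_pow]

omit [IsDomain 𝒪] [IsDiscreteValuationRing 𝒪] in
/-- The length of `𝒪/η` is antitone in `η`. -/
theorem s59ncs_length_anti {η η' : Ideal 𝒪} (h : η' ≤ η) :
    Module.length 𝒪 (𝒪 ⧸ η) ≤ Module.length 𝒪 (𝒪 ⧸ η') :=
  Module.length_le_of_surjective (Submodule.mapQ η' η LinearMap.id (by simpa using h))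
    (by
      intro x
      obtain ⟨y, rfl⟩ := Submodule.Quotient.mk_surjective _ x
      exact ⟨Submodule.Quotient.mk y, rfl⟩)

/-- `length 𝒪/((c)·η) = length 𝒪/(c) + length 𝒪/η` for `c ≠ 0`, `η ≠ ⊥`. -/
theorem s59ncs_length_span_mul_ideal {c : 𝒪} (hc : c ≠ 0) {η : Ideal 𝒪} (hη : η ≠ ⊥) :
    Module.length 𝒪 (𝒪 ⧸ (Ideal.span {c} * η)) =
      Module.length 𝒪 (𝒪 ⧸ η) + Module.length 𝒪 (𝒪 ⧸ Ideal.span {c}) := by
  obtain ⟨k, hk⟩ := s59ncld_span_eq_pow hc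
  obtain ⟨l, hl⟩ := s59ncs_ideal_eq_pow hη
  rw [hk, hl, ← pow_add, IsDiscreteValuationRing.length_quotient_pow_maximalIdeal,
    IsDiscreteValuationRing.length_quotient_pow_maximalIdeal,
    IsDiscreteValuationRing.length_quotient_pow_maximalIdeal]
  push_cast
  exact add_comm _ _

end

/-- **NC-Step.** -/
theorem s59ncs_stmtNCStep (𝒪 : Type) [CommRing 𝒪] [IsDomain 𝒪] [IsDiscreteValuationRing 𝒪] :
    s59p_StmtNCStep 𝒪 := by
  intro lR lR' η η' c hc hη h1 h2 h3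
  calc lR' ≤ lR + Module.length 𝒪 (𝒪 ⧸ Ideal.span {c}) := h2
    _ ≤ Module.length 𝒪 (𝒪 ⧸ η) + Module.length 𝒪 (𝒪 ⧸ Ideal.span {c}) := by gcongr
    _ = Module.length 𝒪 (𝒪 ⧸ (Ideal.span {c} * η)) := (s59ncs_length_span_mul_ideal hc hη).symm
    _ ≤ Module.length 𝒪 (𝒪 ⧸ η') := s59ncs_length_anti h3

end Fermat.Agent.S59.NC
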