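/-
S59-NC (helper87): TATE's theorem in PRESENTATION form, from the pieces NC-Cover, NC-Mat, NC-GorPS.

`J = (f₁,…,f_n) ⊆ (X)` in `P = 𝒪⟦X₁,…,X_n⟧`, `P/J` finite and torsion-free over the DVR `𝒪`,
`Λ = (linear parts of the f i)`, `det Λ ≠ 0`.  Then `η_{P/J} = (det Λ)`, i.e.
`a · (X) ⊆ J ⇒ det Λ ∣ a(0)`.
-/
import Fermat.Agent.S59.NC.Cover
import Fermat.Agent.S59.NC.Crit
import Fermat.Agent.S59.NC.GorPS
import Fermat.Agent.S59.NC.Tau
import Fermat.Agent.S59.NC.IsoPres
import Mathlib.RingTheory.Valuation.ValuationRing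

set_option autoImplicit false
set_option linter.unusedSectionVars false
set_option linter.style.haveILetI false

namespace Fermat.Agent.S59.NC

open IsLocalRing

universe u

/-- If `a` and `d` both multiply the variables into `J ⊆ (X)`, and `P/J` is torsion-free,
then `d(0) • a - a(0) • d ∈ J` (provided `d(0) ≠ 0`). -/
theorem s59nctp_cross {𝒪 : Type*} [CommRing 𝒪] [IsDomain 𝒪] {n : ℕ}
    (J : Ideal (MvPowerSeries (Fin n) 𝒪))
    (htf : ∀ (c : 𝒪) (a : MvPowerSeries (Fin n) 𝒪), c ≠ 0 → c • a ∈ J → a ∈ J)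
    (a d : MvPowerSeries (Fin n) 𝒪)
    (ha : ∀ i, a * MvPowerSeries.X i ∈ J) (hd : ∀ i, d * MvPowerSeries.X i ∈ J)
    (hd0 : MvPowerSeries.constantCoeff d ≠ 0) :
    MvPowerSeries.constantCoeff d • a - MvPowerSeries.constantCoeff a • d ∈ J := by
  classical
  set δ := MvPowerSeries.constantCoeff d with hδ
  set α := MvPowerSeries.constantCoeff a with hα
  set y : MvPowerSeries (Fin n) 𝒪 := δ • a - α • d with hy
  -- `z · (X) ⊆ J` and `w ∈ (X)` imply `z · w ∈ J`
  have hmul : ∀ z : MvPowerSeries (Fin n) 𝒪, (∀ i, z * MvPowerSeries.X i ∈ J) →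
      ∀ w ∈ Ideal.span (Set.range (MvPowerSeries.X : Fin n → MvPowerSeries (Fin n) 𝒪)),
        z * w ∈ J := by
    intro z hz w hw
    refine Submodule.span_induction (p := fun w _ => z * w ∈ J) ?_ ?_ ?_ ?_ hw
    · rintro _ ⟨i, rfl⟩; exact hz i
    · rw [mul_zero]; exact J.zero_mem
    · intro u v _ _ hu hv; rw [mul_add]; exact J.add_mem hu hv
    · intro c u _ hu
      rw [smul_eq_mul, mul_left_comm]; exact J.mul_mem_left _ hu
  have hyX : ∀ i, y * MvPowerSeries.X i ∈ J := by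
    intro i
    rw [hy, sub_mul, smul_mul_assoc, smul_mul_assoc]
    exact J.sub_mem (Submodule.smul_of_tower_mem J δ (ha i)) (Submodule.smul_of_tower_mem J α (hd i))
  have hy0 : MvPowerSeries.constantCoeff y = 0 := by
    rw [hy, map_sub, MvPowerSeries.smul_eq_C_mul, MvPowerSeries.smul_eq_C_mul, map_mul, map_mul,
      MvPowerSeries.constantCoeff_C, MvPowerSeries.constantCoeff_C]
    ring
  have hyS : y ∈ Ideal.span (Set.range (MvPowerSeries.X : Fin n → MvPowerSeries (Fin n) 𝒪)) := by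
    have := s59nci_sub_C_mem y
    rwa [hy0, map_zero, sub_zero] at this
  have hdS : d - MvPowerSeries.C δ ∈
      Ideal.span (Set.range (MvPowerSeries.X : Fin n → MvPowerSeries (Fin n) 𝒪)) :=
    s59nci_sub_C_mem d
  -- `δ • y = d * y - y * (d - δ)`
  have h1 : δ • y = d * y - y * (d - MvPowerSeries.C δ) := by
    rw [MvPowerSeries.smul_eq_C_mul]; ring
  apply htf δ y hd0
  rw [h1]
  exact J.sub_mem (hmul d hd y hyS) (hmul y hyX _ hdS)

/-- **Tate, presentation form.** -/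
theorem s59nctp_tate (hMat : s59nc_StmtMat.{u})
    {𝒪 : Type u} [CommRing 𝒪] [IsDomain 𝒪] [IsDiscreteValuationRing 𝒪] {n : ℕ}
    (f : Fin n → MvPowerSeries (Fin n) 𝒪) (hf0 : ∀ i, MvPowerSeries.constantCoeff (f i) = 0)
    (hfin : Module.Finite 𝒪 (MvPowerSeries (Fin n) 𝒪 ⧸ Ideal.span (Set.range f)))
    (htf : ∀ (c : 𝒪) (a : MvPowerSeries (Fin n) 𝒪), c ≠ 0 →
      c • a ∈ Ideal.span (Set.range f) → a ∈ Ideal.span (Set.range f))
    (hdet : (Matrix.of fun i => s59ncLin (f i)).det ≠ 0)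
    (a : MvPowerSeries (Fin n) 𝒪)
    (ha : ∀ i, a * MvPowerSeries.X i ∈ Ideal.span (Set.range f)) :
    (Matrix.of fun i => s59ncLin (f i)).det ∣ MvPowerSeries.constantCoeff a := by
  classical
  set J : Ideal (MvPowerSeries (Fin n) 𝒪) := Ideal.span (Set.range f) with hJdef
  set Λ : Matrix (Fin n) (Fin n) 𝒪 := Matrix.of fun i => s59ncLin (f i) with hΛ
  have hJ : J ≤ RingHom.ker (MvPowerSeries.constantCoeff (σ := Fin n) (R := 𝒪)) := by
    rw [hJdef, Ideal.span_le]
    rintro _ ⟨i, rfl⟩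
    exact hf0 i
  -- the cover
  obtain ⟨D, hDf, hDG⟩ := s59ncv_stmtCover.{u} 𝒪 n J hJ hfin Λ
    (fun i => ⟨f i, Ideal.subset_span ⟨i, rfl⟩, rfl⟩)
  have hδ : MvPolynomial.constantCoeff D.d = Λ.det := s59nci_constantCoeff_d D Λ hDG
  have hlin : ∀ i, s59ncLin ((D.f i : MvPolynomial (Fin n) 𝒪) : MvPowerSeries (Fin n) 𝒪) =
      s59ncLin (f i) := by
    intro i; funext j; rw [s59nci_lin_f, hDG]; rfl
  -- `(f') = (f)`
  have hle : D.idealPS ≤ J := by
    rw [S59ncData.idealPS, Ideal.span_le]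
    rintro _ ⟨i, rfl⟩
    exact hDf i
  have hEq : D.idealPS = J :=
    hMat 𝒪 n f D.idealPS hf0 hdet hle
      (fun i => ⟨_, Ideal.subset_span ⟨i, rfl⟩, hlin i⟩)
  -- the element `d`
  set d : MvPowerSeries (Fin n) 𝒪 := (D.d : MvPowerSeries (Fin n) 𝒪) with hd
  have hd0 : MvPowerSeries.constantCoeff d = Λ.det := by
    rw [hd, ← MvPowerSeries.coeff_zero_eq_constantCoeff_apply, MvPolynomial.coeff_coe,
      ← MvPolynomial.constantCoeff_eq, hδ]
  have hdX : ∀ i, d * MvPowerSeries.X i ∈ J := fun i => hEq ▸ s59nce_d_mul_X_mem_PS D i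
  have hcross := s59nctp_cross J htf a d ha hdX (by rw [hd0]; exact hdet)
  rw [hd0] at hcross
  -- divisibility in the DVR
  by_contra hnd
  set α := MvPowerSeries.constantCoeff a with hα
  obtain ⟨ϖ, hϖ⟩ := IsDiscreteValuationRing.exists_irreducible 𝒪
  have hα0 : α ≠ 0 := by
    intro h0
    apply hnd
    rw [h0]; exact dvd_zero _
  -- `α ∣ det Λ` with non-unit quotient
  have hdvd : α ∣ Λ.det := by
    rcases ValuationRing.dvd_total α Λ.det with h | h
    · exact h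
    · exact absurd h hnd
  obtain ⟨t, ht⟩ := hdvd
  have htnu : ¬ IsUnit t := by
    intro hu
    apply hnd
    obtain ⟨s, hs⟩ := hu.exists_right_inv
    exact ⟨s, by rw [ht, mul_assoc, hs, mul_one]⟩
  have htm : t ∈ maximalIdeal 𝒪 := (IsLocalRing.mem_maximalIdeal _).2 htnu
  -- `t • a - d ∈ J`
  have h2 : t • a - d ∈ J := by
    apply htf α _ hα0
    have : α • (t • a - d) = Λ.det • a - α • d := by
      rw [smul_sub, smul_smul, ← ht]
    rw [this]
    exact hcross
  -- reduce modulo `𝔪`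
  let ρ : MvPowerSeries (Fin n) 𝒪 →+* MvPowerSeries (Fin n) (ResidueField 𝒪) :=
    MvPowerSeries.map (residue 𝒪)
  let Db : S59ncData (ResidueField 𝒪) n := D.map (residue 𝒪)
  have hDb : Db.idealPS = Ideal.map ρ D.idealPS := (s59nce_map_idealPS (residue 𝒪) D).symm
  have hdb : (Db.d : MvPowerSeries (Fin n) (ResidueField 𝒪)) = ρ d := by
    rw [show Db.d = MvPolynomial.map (residue 𝒪) D.d from S59ncData.map_d _ D]
    exact s59nce_coe_map _ _
  have hρta : ρ (t • a) = 0 := by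
    ext m
    rw [MvPowerSeries.coeff_map, MvPowerSeries.smul_eq_C_mul, MvPowerSeries.coeff_C_mul, map_mul,
      (IsLocalRing.residue_eq_zero_iff t).2 htm, zero_mul, map_zero]
  have hmem : (Db.d : MvPowerSeries (Fin n) (ResidueField 𝒪)) ∈ Db.idealPS := by
    rw [hdb, hDb, hEq]
    have h3 := Ideal.mem_map_of_mem ρ h2
    rw [map_sub, hρta, zero_sub] at h3
    have := (Ideal.map ρ J).neg_mem h3
    rwa [neg_neg] at this
  have hGor := s59ncp_stmtGorPS.{u} s59nct_stmtTau (ResidueField 𝒪) n Db Db.idealPS le_rfl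
  exact (hGor.1 hmem) rfl

end Fermat.Agent.S59.NC
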